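import Fermat.Agent.S37.Statements
import Fermat.Agent.S24.FFOne
import Fermat.Agent.S24.B.Laurent

/-!
# S37: second level nodes (owner helper37)

Exact statements of the nodes from which the blocks `RedInertia`, `RedHecke`, `RedConst`
of `Statements.lean` are proved.  See the `tasks` table (stmt = 'S37') for proof sketches.
-/

set_option autoImplicit false

noncomputable section

namespace Fermat.Agent.S37

open AlgebraicCurve ModularCurve Fermat.Agent.S24

variable (A : ValuationSubring Kbar) (N : ℕ)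

/-! ## q-expansion principle over `A` (from S28) -/

/-- **QA (finite chart)**: functions integral over `A[j]` have `A`-integral `q`-expansions, and
every nonzero function integral over `ℚ̄[j]` is a constant times a function integral over `A[j]`
whose `q`-expansion has nonzero reduction. -/
def QAFin : Prop :=
  (∀ b ∈ BFin A N, ∃ y : LaurentSeries A, HasIntExp A N b y) ∧
  (∀ z : FN N, z ≠ 0 → IsIntegral (LFin N) z →
    ∃ (c : Kbar) (z' : FN N) (y : LaurentSeries A), c ≠ 0 ∧ z = algebraMap Kbar (FN N) c * z' ∧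
      z' ∈ BFin A N ∧ HasIntExp A N z' y ∧ rho A y ≠ 0)

/-- **QA (chart at infinity)**. -/
def QAInf : Prop :=
  (∀ b ∈ BInf A N, ∃ y : LaurentSeries A, HasIntExp A N b y) ∧
  (∀ z : FN N, z ≠ 0 → IsIntegral (LInf N) z →
    ∃ (c : Kbar) (z' : FN N) (y : LaurentSeries A), c ≠ 0 ∧ z = algebraMap Kbar (FN N) c * z' ∧
      z' ∈ BInf A N ∧ HasIntExp A N z' y ∧ rho A y ≠ 0)

/-! ## integrality principle -/

/-- **EV (finite region)**: a function with `q`-expansion `≡ 0 mod 𝔪_A`, regular at all places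
`P'` with `j(P') ∈ A`, takes values in `𝔪_A` at these places. -/
def EVFin : Prop :=
  ∀ (c : FN N) (y : LaurentSeries A), HasIntExp A N c y → rho A y = 0 →
    (∀ P' : Pl N, InFin A N P' → 0 ≤ P'.ord c) → ∀ P : Pl N, InFin A N P → val P c ∈ A.nonunits

/-- **EV (region at infinity)**. -/
def EVInf : Prop :=
  ∀ (c : FN N) (y : LaurentSeries A), HasIntExp A N c y → rho A y = 0 →
    (∀ P' : Pl N, ¬ InFin A N P' → 0 ≤ P'.ord c) → ∀ P : Pl N, ¬ InFin A N P → val P c ∈ A.nonunits

/-! ## local uniformisers (smoothness of the reduction; from the KL-A machinery) -/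

/-- **LF (finite region)**: for every place `P` with `j(P) ∈ A` there is `t` integral over `A[j]`,
with nonzero reduction, vanishing mod `𝔪_A` at `P`, such that for every `a ∈ 𝔪_A` the function
`t - a` has at most one zero, and it is simple, among the places `P'` with `j(P') ≡ j(P)`. -/
def LFFin : Prop :=
  ∀ P : Pl N, InFin A N P → ∃ (t : FN N) (y : LaurentSeries A),
    t ∈ BFin A N ∧ HasIntExp A N t y ∧ rho A y ≠ 0 ∧ val P t ∈ A.nonunits ∧
    ∀ a ∈ A.nonunits, ∀ P' : Pl N, InFin A N P' →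
      resA A (val P' (jF N)) = resA A (val P (jF N)) →
      0 < P'.ord (t - algebraMap Kbar (FN N) a) →
        P'.ord (t - algebraMap Kbar (FN N) a) = 1 ∧
        ∀ P'' : Pl N, InFin A N P'' → resA A (val P'' (jF N)) = resA A (val P (jF N)) →
          0 < P''.ord (t - algebraMap Kbar (FN N) a) → P'' = P'

/-- **LF (region at infinity)**. -/
def LFInf : Prop :=
  ∀ P : Pl N, ¬ InFin A N P → ∃ (t : FN N) (y : LaurentSeries A),
    t ∈ BInf A N ∧ HasIntExp A N t y ∧ rho A y ≠ 0 ∧ val P t ∈ A.nonunits ∧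
    ∀ a ∈ A.nonunits, ∀ P' : Pl N, ¬ InFin A N P' →
      0 < P'.ord (t - algebraMap Kbar (FN N) a) →
        P'.ord (t - algebraMap Kbar (FN N) a) = 1 ∧
        ∀ P'' : Pl N, ¬ InFin A N P'' → 0 < P''.ord (t - algebraMap Kbar (FN N) a) → P'' = P'

/-! ## modular inputs for the Eichler-Shimura congruence -/

/-- **JInt**: `j(q^d)` is integral over `ℤ[j(q)]` and `j(q)` is integral over `ℤ[j(q^d)]`. -/
def JInt (M d : ℕ) [NeZero d] (hd : d ∣ M) : Prop :=
  (∃ Φ : Polynomial (Polynomial ℤ), Φ.Monic ∧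
    Polynomial.eval₂ (Polynomial.aeval (R := ℤ) (jF M)).toRingHom (JF M d hd) Φ = 0) ∧
  (∃ Φ : Polynomial (Polynomial ℤ), Φ.Monic ∧
    Polynomial.eval₂ (Polynomial.aeval (R := ℤ) (JF M d hd)).toRingHom (jF M) Φ = 0)

/-- **ConjNorm**: the norm of `α(b) = b(q)` from level `Nℓ` down to `β(F_N) = {c(q^ℓ)}` is
`b(q^(ℓ²)) ∏_{i<ℓ} b(ζ^i q)` (`ℓ` a prime not dividing `N`, `ζ` a primitive `ℓ`-th root of `1`). -/
def ConjNorm [NeZero N] (ℓ : ℕ) [NeZero ℓ] : Prop :=
  ∀ ζ : Kbarˣ, IsPrimitiveRoot ζ ℓ → ∀ b : FN N,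
    letI := algebraAlong (heckeBetaBar Kbar N ℓ)
    qExpand Kbar ℓ ((Algebra.norm (FN N) (heckeAlphaBar Kbar N ℓ b) : FN N) : LaurentSeries Kbar) =
      qExpand Kbar (ℓ ^ 2) (b : LaurentSeries Kbar) *
        ∏ i ∈ Finset.range ℓ, B.twist (ζ ^ i) (b : LaurentSeries Kbar)

/-! ## abstract function field nodes -/

section Abstract

variable (K F F' : Type*) [Field K] [Field F] [Field F']
  [Algebra K F] [Algebra K F'] [Algebra F F'] [IsScalarTower K F F']
  [Algebra.IsIntegral F F'] [HasPrincipalDivisors K F']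

/-- **ValNorm**: the value of a norm at a place is the product of the values at the places above,
with multiplicities the ramification indices. -/
def ValNorm [Module.Finite F F'] : Prop :=
  ∀ (v : Place K F) (z : F'), (∀ w ∈ v.fiber F', 0 ≤ w.ord z) →
    0 ≤ v.ord (Algebra.norm F z) ∧
      val v (Algebra.norm F z) = ∏ w ∈ v.fiber F', val w z ^ w.ramificationIndex F

end Abstract

/-- **RegInt**: a function regular at all places where `x` is regular is integral over `K[x]`. -/
def RegInt (K F : Type*) [Field K] [Field F] [Algebra K F] : Prop :=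
  ∀ x : F, Transcendental K x → ∀ z : F, (∀ v : Place K F, 0 ≤ v.ord x → 0 ≤ v.ord z) →
    IsIntegral (Algebra.adjoin K {x}) z

end Fermat.Agent.S37

end
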