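/-
S37, task S37-JInt (owner helper69).
`j(q^d)` is integral over `ℤ[j(q)]` and `j(q)` is integral over `ℤ[j(q^d)]`.

Route: in the algebra `AL N` of S24/B, the orbit polynomial `∏ (Y - γ • j_d)` has
`SL(2,ℤ)`-invariant coefficients, hence polynomials in `j` over `ℚ̄`; their `t`-expansions have
algebraic integer coefficients, hence (triangularity, `j = 1/q + ...`) these polynomials have
algebraic integer coefficients; transitivity of integrality gives integrality over `ℤ[j]`.
The other direction follows by evaluating the relation at `-1/(dτ)`.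
-/
import Fermat.Agent.S37.Nodes
import Fermat.Agent.S24.B.Invariants
import Fermat.Prelude.Def_ModularCurve_X0ModL

set_option autoImplicit false

noncomputable section

namespace Fermat.Agent.S37.JIntAux

open AlgebraicCurve ModularCurve Fermat.Agent.S24 Fermat.Agent.S24.B UpperHalfPlane
open scoped MatrixGroups Real

/-! ## the orbit polynomial -/

section Orbit

variable {G R : Type*} [Group G] [CommRing R] [MulSemiringAction G R]

/-- `∏ (Y - s)`, `s` running through the (finite) orbit of `x`. -/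
def orbPoly (x : R) (h : (MulAction.orbit G x).Finite) : Polynomial R :=
  ∏ s ∈ h.toFinset, (Polynomial.X - Polynomial.C s)

theorem orbPoly_monic (x : R) (h : (MulAction.orbit G x).Finite) : (orbPoly x h).Monic :=
  Polynomial.monic_prod_of_monic _ _ fun s _ => Polynomial.monic_X_sub_C s

theorem orbPoly_eval (x : R) (h : (MulAction.orbit G x).Finite) : (orbPoly x h).eval x = 0 := by
  rw [orbPoly, Polynomial.eval_prod]
  exact Finset.prod_eq_zero (i := x) (h.mem_toFinset.2 (MulAction.mem_orbit_self x)) (by simp)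

theorem map_orbPoly (x : R) (h : (MulAction.orbit G x).Finite) (g : G) :
    (orbPoly x h).map (MulSemiringAction.toRingHom G R g) = orbPoly x h := by
  rw [orbPoly, Polynomial.map_prod]
  refine Finset.prod_bij' (fun s _ => g • s) (fun s _ => g⁻¹ • s) ?_ ?_ ?_ ?_ ?_
  · intro s hs
    rw [Set.Finite.mem_toFinset] at hs ⊢
    exact MulAction.mem_orbit_of_mem_orbit g hs
  · intro s hs
    rw [Set.Finite.mem_toFinset] at hs ⊢
    exact MulAction.mem_orbit_of_mem_orbit g⁻¹ hs
  · intro s _
    exact inv_smul_smul g s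
  · intro s _
    exact smul_inv_smul g s
  · intro s _
    simp

theorem smul_coeff_orbPoly (x : R) (h : (MulAction.orbit G x).Finite) (g : G) (n : ℕ) :
    g • (orbPoly x h).coeff n = (orbPoly x h).coeff n := by
  conv_rhs => rw [← map_orbPoly x h g]
  rw [Polynomial.coeff_map]
  rfl

theorem coeff_orbPoly_mem (x : R) (h : (MulAction.orbit G x).Finite) (B : Subring R)
    (hB : ∀ g : G, g • x ∈ B) (n : ℕ) : (orbPoly x h).coeff n ∈ B := by
  have h1 : orbPoly x h ∈ Polynomial.liftsRing B.subtype := by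
    refine Subring.prod_mem _ fun s hs => ?_
    rw [Set.Finite.mem_toFinset] at hs
    obtain ⟨g, rfl⟩ := hs
    refine Subring.sub_mem _ ?_ ?_
    · rw [← Polynomial.lifts_iff_liftsRing]
      exact Polynomial.X_mem_lifts _
    · rw [← Polynomial.lifts_iff_liftsRing]
      exact Polynomial.C_mem_lifts B.subtype ⟨g • x, hB g⟩
  rw [← Polynomial.lifts_iff_liftsRing, Polynomial.lifts_iff_coeff_lifts] at h1
  obtain ⟨b, hb⟩ := h1 n
  rw [← hb]
  exact b.2

end Orbit

/-! ## a root of a monic polynomial with integral coefficients is integral -/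

theorem isIntegral_of_monic_of_coeff {R₀ R : Type*} [CommRing R₀] [CommRing R] [Algebra R₀ R]
    (P : Polynomial R) (hP : P.Monic) (hc : ∀ n, IsIntegral R₀ (P.coeff n)) (x : R)
    (hx : P.eval x = 0) : IsIntegral R₀ x := by
  have h1 : P ∈ Polynomial.lifts (algebraMap (integralClosure R₀ R) R) := by
    rw [Polynomial.lifts_iff_coeff_lifts]
    intro n
    exact ⟨⟨P.coeff n, hc n⟩, rfl⟩
  obtain ⟨q, hq, -, hqm⟩ := Polynomial.lifts_and_natDegree_eq_and_monic h1 hP
  refine isIntegral_trans (A := integralClosure R₀ R) x ⟨q, hqm, ?_⟩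
  rw [Polynomial.eval₂_eq_eval_map, hq, hx]

/-! ## Laurent series with algebraic integer coefficients -/

/-- The subring of Laurent series all of whose coefficients are algebraic integers. -/
def intSeries : Subring (LaurentSeries Kbar) where
  carrier := {s | ∀ n : ℤ, IsIntegral ℤ (s.coeff n)}
  mul_mem' := by
    intro s t hs ht n
    rw [HahnSeries.coeff_mul]
    exact IsIntegral.sum _ fun ij _ => (hs _).mul (ht _)
  one_mem' := by
    intro n
    rw [HahnSeries.coeff_one]
    split_ifs
    · exact isIntegral_one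
    · exact isIntegral_zero
  add_mem' := by
    intro s t hs ht n
    rw [HahnSeries.coeff_add]
    exact (hs n).add (ht n)
  zero_mem' := by
    intro n
    rw [HahnSeries.coeff_zero]
    exact isIntegral_zero
  neg_mem' := by
    intro s hs n
    rw [HahnSeries.coeff_neg]
    exact (hs n).neg

theorem mem_intSeries {s : LaurentSeries Kbar} :
    s ∈ intSeries ↔ ∀ n : ℤ, IsIntegral ℤ (s.coeff n) := Iff.rfl

theorem C_mem_intSeries {c : Kbar} (hc : IsIntegral ℤ c) : HahnSeries.C c ∈ intSeries := by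
  intro n
  rw [HahnSeries.C_apply, HahnSeries.coeff_single]
  split_ifs
  · exact hc
  · exact isIntegral_zero

theorem Jser_one_mem_intSeries : Jser 1 ∈ intSeries := by
  intro n
  rw [Formal.Jser_one, coeffEmb_coeff, ← jqModC_rat, coeff_jqModC_eq_intCast, map_intCast]
  exact isIntegral_algebraMap (R := ℤ) (A := Kbar) (x := (jqModC ℤ).coeff n)

theorem qExpand_mem_intSeries (e : ℕ) [NeZero e] {s : LaurentSeries Kbar} (hs : s ∈ intSeries) :
    qExpand Kbar e s ∈ intSeries := by
  intro n
  by_cases hn : (e : ℤ) ∣ n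
  · obtain ⟨m, rfl⟩ := hn
    rw [qExpand_coeff_mul]
    exact hs m
  · rw [qExpand_coeff_of_not_dvd e s hn]
    exact isIntegral_zero

theorem twist_mem_intSeries (N : ℕ) [NeZero N] (ξ : Kbarˣ) (hξ : ξ ^ N = 1)
    {s : LaurentSeries Kbar} (hs : s ∈ intSeries) : twist ξ s ∈ intSeries := by
  intro n
  rw [twist_coeff]
  refine IsIntegral.mul ?_ (hs n)
  refine IsIntegral.of_pow (Nat.pos_of_ne_zero (NeZero.ne N)) ?_
  have : (((ξ ^ n : Kbarˣ) : Kbar)) ^ N = 1 := by
    rw [← Units.val_pow_eq_pow_val, ← zpow_natCast, ← zpow_mul, mul_comm, zpow_mul, zpow_natCast,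
      hξ, one_zpow, Units.val_one]
  rw [this]
  exact isIntegral_one

/-! ## triangularity -/

theorem coeff_algebraMap_mul (c : Kbar) (s : LaurentSeries Kbar) (n : ℤ) :
    (algebraMap Kbar (LaurentSeries Kbar) c * s).coeff n = c * s.coeff n := by
  rw [algebraMap_laurentSeries_eq_single, HahnSeries.coeff_single_mul, sub_zero]

/-- If `p (j)` has algebraic integer coefficients, then so has `p`. -/
theorem isIntegral_coeff_of_aeval_mem (N : ℕ) [NeZero N] (k : ℕ) : ∀ p : Polynomial Kbar,
    p.natDegree < k → Polynomial.aeval (qExpand Kbar N (Jser 1)) p ∈ intSeries →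
    ∀ i, IsIntegral ℤ (p.coeff i) := by
  have hN : (0 : ℤ) < N := by exact_mod_cast Nat.pos_of_ne_zero (NeZero.ne N)
  have hJ : qExpand Kbar N (Jser 1) ∈ intSeries := qExpand_mem_intSeries N Jser_one_mem_intSeries
  induction k with
  | zero => intro p hp; exact absurd hp (Nat.not_lt_zero _)
  | succ k ih =>
    intro p hp hmem
    -- the leading coefficient
    have hlead : (Polynomial.aeval (qExpand Kbar N (Jser 1)) p).coeff (-((N : ℤ) * p.natDegree))
        = p.leadingCoeff := by
      rw [Polynomial.aeval_eq_sum_range, HahnSeries.coeff_sum,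
        Finset.sum_eq_single p.natDegree]
      · rw [Algebra.smul_def, coeff_algebraMap_mul, coeff_qExpand_Jser_pow_self, mul_one]
        rfl
      · intro i hi hne
        rw [Finset.mem_range] at hi
        have hlt : i < p.natDegree := lt_of_le_of_ne (Nat.lt_succ_iff.mp hi) hne
        rw [Algebra.smul_def, coeff_algebraMap_mul, coeff_qExpand_Jser_pow_of_lt, mul_zero]
        have : (i : ℤ) < p.natDegree := by exact_mod_cast hlt
        nlinarith
      · intro h
        exact absurd (Finset.mem_range.2 (Nat.lt_succ_self _)) h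
    have ha : IsIntegral ℤ p.leadingCoeff := hlead ▸ hmem _
    have hdecomp := Polynomial.eraseLead_add_C_mul_X_pow p
    have hmem' : Polynomial.aeval (qExpand Kbar N (Jser 1)) p.eraseLead ∈ intSeries := by
      have h1 : Polynomial.aeval (qExpand Kbar N (Jser 1)) p.eraseLead =
          Polynomial.aeval (qExpand Kbar N (Jser 1)) p -
            HahnSeries.C p.leadingCoeff * (qExpand Kbar N (Jser 1)) ^ p.natDegree := by
        conv_rhs => rw [← hdecomp]
        rw [map_add, map_mul, map_pow, Polynomial.aeval_C, Polynomial.aeval_X,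
          algebraMap_laurentSeries_eq_single]
        simp [HahnSeries.C_apply]
      rw [h1]
      exact Subring.sub_mem _ hmem
        (Subring.mul_mem _ (C_mem_intSeries ha) (Subring.pow_mem _ hJ _))
    have hrec : ∀ i, IsIntegral ℤ (p.eraseLead.coeff i) := by
      rcases Polynomial.eraseLead_natDegree_lt_or_eraseLead_eq_zero p with h | h
      · exact ih _ (by omega) hmem'
      · intro i
        rw [h, Polynomial.coeff_zero]
        exact isIntegral_zero
    intro i
    rw [← hdecomp, Polynomial.coeff_add, Polynomial.coeff_C_mul, Polynomial.coeff_X_pow]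
    refine (hrec i).add (ha.mul ?_)
    split_ifs
    · exact isIntegral_one
    · exact isIntegral_zero

/-! ## expansions of the conjugates of `j (d τ)` -/

variable {N : ℕ} [NeZero N]

/-- the expansion of a generator of `AL N` has algebraic integer coefficients. -/
theorem exists_hasTExp_gen_int (g : GL (Fin 2) ℝ) (α : Matrix (Fin 2) (Fin 2) ℤ) (hα : 0 < α.det)
    (hN : α.det ∣ (N : ℤ)) (hg : (g : Matrix (Fin 2) (Fin 2) ℝ) = α.map (Int.cast : ℤ → ℝ)) :
    ∃ s : LaurentSeries Kbar, HasTExp N (fun τ => jfun (g • τ)) s ∧ s ∈ intSeries := by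
  obtain ⟨a, b, d, ha, hd, had, -, hj⟩ := jfun_levelMat Stubs.jfun_smul g α hα hg
  obtain ⟨M, hM⟩ := hN
  have hNpos : (0 : ℤ) < (N : ℤ) := by exact_mod_cast Nat.pos_of_ne_zero (NeZero.ne N)
  have hMpos : 0 < M := by
    rw [hM] at hNpos
    exact (mul_pos_iff_of_pos_left hα).1 hNpos
  have hepos : 0 < M * a ^ 2 := by positivity
  set e : ℕ := (M * a ^ 2).toNat with he
  have heZ : (e : ℤ) = M * a ^ 2 := Int.toNat_of_nonneg hepos.le
  have : NeZero e := ⟨by
    intro h
    rw [h] at heZ
    simp only [Nat.cast_zero] at heZ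
    omega⟩
  have hed : (e : ℤ) * d = N * a := by
    rw [heZ, hM, ← had]; ring
  have hξ : iota ((zetaK N ^ (M * a * b) : Kbarˣ) : Kbar) =
      Complex.exp (2 * π * Complex.I * b / d) := by
    rw [iota_zetaK_zpow]
    congr 1
    have h1 : ((N : ℕ) : ℂ) = (M : ℂ) * a * d := by
      have : ((N : ℕ) : ℤ) = M * a * d := by rw [hM, ← had]; ring
      exact_mod_cast this
    have hM0 : (M : ℂ) ≠ 0 := by exact_mod_cast hMpos.ne'
    have ha0 : (a : ℂ) ≠ 0 := by exact_mod_cast ha.ne'
    have hd0 : (d : ℂ) ≠ 0 := by exact_mod_cast hd.ne'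
    rw [h1]
    push_cast
    field_simp
  refine ⟨qExpand Kbar e (twist (zetaK N ^ (M * a * b)) (Jser 1)), ?_, ?_⟩
  · have h := hasTExp_tri (N := N) Stubs.hasTExp_jfun a b d ha hd e hed _ hξ
    have hfun : (fun τ => jfun (g • τ)) = fun τ => jfun (triMat a b d ha hd • τ) := funext hj
    rw [hfun]
    exact h
  · refine qExpand_mem_intSeries e (twist_mem_intSeries N _ ?_ Jser_one_mem_intSeries)
    rw [← zpow_natCast, ← zpow_mul, mul_comm, zpow_mul, zpow_natCast,
      (isPrimitiveRoot_zetaK N).pow_eq_one, one_zpow]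

theorem texp_smul_jd_mem (d : ℕ) [NeZero d] (hd : d ∣ N) (γ : SL(2, ℤ)) :
    texp N (γ • jd N d hd) ∈ intSeries := by
  obtain ⟨α, h1, h2, h3⟩ := (isLevelMat_dilMat (N := N) hd).mul_SL γ⁻¹
  obtain ⟨s, hs, hmem⟩ := exists_hasTExp_gen_int (N := N) _ α h1 h2 h3
  have : texp N (γ • jd N d hd) = s := by
    apply texp_eq
    have hfun : (γ • jd N d hd).1 =
        fun τ => jfun ((dilMat d * ((γ⁻¹ : SL(2, ℤ)) : GL (Fin 2) ℝ)) • τ) := by
      funext τ
      rw [mul_smul]
      rfl
    rw [hfun]
    exact hs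
  rw [this]
  exact hmem

/-! ## integrality of `j (d τ)` over `ℤ[j]` in `AL N` -/

/-- `p (j)` is integral over `ℤ[j]` if the coefficients of `p` are algebraic integers. -/
theorem isIntegralElem_aeval (x : AL N) (p : Polynomial Kbar)
    (hp : ∀ i, IsIntegral ℤ (p.coeff i)) :
    (Polynomial.aeval (R := ℤ) x).toRingHom.IsIntegralElem (Polynomial.aeval x p) := by
  letI : Algebra (Polynomial ℤ) (AL N) := (Polynomial.aeval (R := ℤ) x).toRingHom.toAlgebra
  show IsIntegral (Polynomial ℤ) (Polynomial.aeval x p)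
  rw [Polynomial.aeval_eq_sum_range]
  refine IsIntegral.sum _ fun i _ => ?_
  rw [Algebra.smul_def]
  refine IsIntegral.mul ?_ (IsIntegral.pow ?_ i)
  · have h1 : IsIntegral ℤ (algebraMap Kbar (AL N) (p.coeff i)) :=
      (hp i).map (algebraMap Kbar (AL N)).toIntAlgHom
    exact h1.tower_top
  · have h2 : x = algebraMap (Polynomial ℤ) (AL N) Polynomial.X := by
      show x = Polynomial.aeval (R := ℤ) x Polynomial.X
      rw [Polynomial.aeval_X]
    rw [h2]
    exact isIntegral_algebraMap

theorem isIntegralElem_jd (d : ℕ) [NeZero d] (hd : d ∣ N) :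
    (Polynomial.aeval (R := ℤ) (jd N 1 (one_dvd N))).toRingHom.IsIntegralElem (jd N d hd) := by
  set x := jd N d hd with hx
  have hfin := finite_orbit x
  have hcoeff : ∀ n, (Polynomial.aeval (R := ℤ) (jd N 1 (one_dvd N))).toRingHom.IsIntegralElem
      ((orbPoly x hfin).coeff n) := by
    intro n
    obtain ⟨p, hp⟩ := exists_poly_of_invariant_AL ((orbPoly x hfin).coeff n)
      (fun γ => smul_coeff_orbPoly x hfin γ n)
    have hmem : (orbPoly x hfin).coeff n ∈ intSeries.comap (texp N).toRingHom :=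
      coeff_orbPoly_mem x hfin _ (fun γ => texp_smul_jd_mem d hd γ) n
    have hmem' : Polynomial.aeval (qExpand Kbar N (Jser 1)) p ∈ intSeries := by
      have h1 : texp N ((orbPoly x hfin).coeff n) ∈ intSeries := hmem
      rw [hp, ← Polynomial.aeval_algHom_apply, texp_jd] at h1
      exact h1
    rw [hp]
    exact isIntegralElem_aeval _ p
      (isIntegral_coeff_of_aeval_mem N (p.natDegree + 1) p (Nat.lt_succ_self _) hmem')
  letI : Algebra (Polynomial ℤ) (AL N) :=
    (Polynomial.aeval (R := ℤ) (jd N 1 (one_dvd N))).toRingHom.toAlgebra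
  exact isIntegral_of_monic_of_coeff (R₀ := Polynomial ℤ) (orbPoly x hfin) (orbPoly_monic x hfin)
    hcoeff x (orbPoly_eval x hfin)

/-! ## transfer -/

theorem map_eval₂_aeval {A B : Type*} [CommRing A] [CommRing B] [Algebra ℤ A] [Algebra ℤ B]
    (g : A →+* B) (a x : A)
    (Φ : Polynomial (Polynomial ℤ)) :
    g (Polynomial.eval₂ (Polynomial.aeval (R := ℤ) a).toRingHom x Φ) =
      Polynomial.eval₂ (Polynomial.aeval (R := ℤ) (g a)).toRingHom (g x) Φ := by
  rw [Polynomial.hom_eval₂]
  congr 1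
  refine Polynomial.ringHom_ext (fun c => ?_) ?_
  · simp
  · simp

/-- a relation between `j (a τ)` and `j (b τ)` in `AL N` gives the relation in `FN N`. -/
theorem eval₂_JF_eq_zero (a b : ℕ) [NeZero a] [NeZero b] (ha : a ∣ N) (hb : b ∣ N)
    (Φ : Polynomial (Polynomial ℤ))
    (h : Polynomial.eval₂ (Polynomial.aeval (R := ℤ) (jd N a ha)).toRingHom (jd N b hb) Φ = 0) :
    Polynomial.eval₂ (Polynomial.aeval (R := ℤ) (JF N a ha)).toRingHom (JF N b hb) Φ = 0 := by
  have h1 := congrArg (texp N).toRingHom h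
  rw [map_eval₂_aeval, map_zero] at h1
  have h2 : ((qExpand Kbar N).comp (algebraMap (FN N) (LaurentSeries Kbar)))
      (Polynomial.eval₂ (Polynomial.aeval (R := ℤ) (JF N a ha)).toRingHom (JF N b hb) Φ) = 0 := by
    rw [map_eval₂_aeval]
    have e1 : ((qExpand Kbar N).comp (algebraMap (FN N) (LaurentSeries Kbar))) (JF N a ha) =
        (texp N).toRingHom (jd N a ha) := (texp_jd a ha).symm
    have e2 : ((qExpand Kbar N).comp (algebraMap (FN N) (LaurentSeries Kbar))) (JF N b hb) =
        (texp N).toRingHom (jd N b hb) := (texp_jd b hb).symm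
    rw [e1, e2]
    exact h1
  have hinj : Function.Injective
      ((qExpand Kbar N).comp (algebraMap (FN N) (LaurentSeries Kbar))) :=
    (qExpand_injective N).comp Subtype.val_injective
  exact hinj (h2.trans (map_zero _).symm)

/-! ## the Fricke involution -/

theorem coe_dilMat_smul (d : ℕ) [NeZero d] (τ : ℍ) : ((dilMat d • τ : ℍ) : ℂ) = (d : ℂ) * τ := by
  have hdpos : (0 : ℤ) < (d : ℤ) := by exact_mod_cast Nat.pos_of_ne_zero (NeZero.ne d)
  have hmat : triMat (d : ℤ) 0 1 hdpos one_pos = dilMat d := by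
    apply Units.ext
    ext i j
    fin_cases i <;> fin_cases j <;> simp [triMat, dilMat]
  rw [← hmat, coe_triMat_smul]
  simp

theorem dilMat_smul_S_smul_dilMat_smul (d : ℕ) [NeZero d] (τ : ℍ) :
    dilMat d • ModularGroup.S • dilMat d • τ = ModularGroup.S • τ := by
  apply UpperHalfPlane.ext
  rw [coe_dilMat_smul, UpperHalfPlane.modular_S_smul, UpperHalfPlane.modular_S_smul]
  show (d : ℂ) * (-((dilMat d • τ : ℍ) : ℂ))⁻¹ = (-(τ : ℂ))⁻¹
  rw [coe_dilMat_smul]
  have hd : (d : ℂ) ≠ 0 := by exact_mod_cast NeZero.ne d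
  have hτ : (τ : ℂ) ≠ 0 := UpperHalfPlane.ne_zero τ
  field_simp

theorem eval₂_swap (d : ℕ) [NeZero d] (hd : d ∣ N) (Φ : Polynomial (Polynomial ℤ))
    (h : Polynomial.eval₂ (Polynomial.aeval (R := ℤ) (jd N 1 (one_dvd N))).toRingHom
      (jd N d hd) Φ = 0) :
    Polynomial.eval₂ (Polynomial.aeval (R := ℤ) (jd N d hd)).toRingHom
      (jd N 1 (one_dvd N)) Φ = 0 := by
  apply Subtype.ext
  funext τ
  show (evalAL N τ).toRingHom _ = 0
  rw [map_eval₂_aeval]
  have h1 := congrArg (evalAL N (ModularGroup.S • dilMat d • τ)).toRingHom h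
  rw [map_eval₂_aeval, map_zero] at h1
  have e1 : (evalAL N (ModularGroup.S • dilMat d • τ)).toRingHom (jd N 1 (one_dvd N)) =
      (evalAL N τ).toRingHom (jd N d hd) := by
    show (jd N 1 (one_dvd N)).1 (ModularGroup.S • dilMat d • τ) = jfun (dilMat d • τ)
    rw [jd_one_apply, Stubs.jfun_smul]
  have e2 : (evalAL N (ModularGroup.S • dilMat d • τ)).toRingHom (jd N d hd) =
      (evalAL N τ).toRingHom (jd N 1 (one_dvd N)) := by
    show jfun (dilMat d • ModularGroup.S • dilMat d • τ) = (jd N 1 (one_dvd N)).1 τ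
    rw [jd_one_apply, dilMat_smul_S_smul_dilMat_smul, Stubs.jfun_smul]
  rw [e1, e2] at h1
  exact h1

end Fermat.Agent.S37.JIntAux

namespace Fermat.Agent.S37

open Fermat.Agent.S24 Fermat.Agent.S24.B JIntAux

/-- **JInt**: `j(q^d)` is integral over `ℤ[j(q)]` and `j(q)` is integral over `ℤ[j(q^d)]`. -/
theorem jInt (M d : ℕ) [NeZero M] [NeZero d] (hd : d ∣ M) : JInt M d hd := by
  obtain ⟨Φ, hΦ, h0⟩ := isIntegralElem_jd (N := M) d hd
  exact ⟨⟨Φ, hΦ, eval₂_JF_eq_zero 1 d (one_dvd M) hd Φ h0⟩,
    ⟨Φ, hΦ, eval₂_JF_eq_zero d 1 hd (one_dvd M) Φ (eval₂_swap d hd Φ h0)⟩⟩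

end Fermat.Agent.S37

end
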