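import Fermat.Agent.S37.Defs
import Fermat.Agent.S24.FFOne
import Fermat.Agent.S24.Export.Ramification
import Fermat.Prelude.Def_AlgebraicCurve_BaseChangeGalois
import Fermat.Prelude.Def_AlgebraicCurve_Correspondence

/-!
# S37: API for `val` (value of a function at a place), `resA`, the composite valuation ring,
and evaluation of `BFin` / `BInf` (owner helper244)

* `Van v x`    : `x` vanishes at `v` (`x = 0 ∨ 0 < v.ord x`)
* `val_spec`, `val_eq_of`, `val_add`, `val_mul`, ... : `val v` is a ring homomorphism on `O_v`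
* `val_smul`, `val_restrict`, `val_restrictAlong` : functoriality
* `resA_add`, `resA_mul`, ... : `resA A` is a ring homomorphism on `A`
* `compRing A v` : the composite valuation ring `{f | f ∈ O_v, f(v) ∈ A}`
* `mem_compRing_of_mem_BFin`, `mem_compRing_of_mem_BInf`, `evFinHom`, `evInfHom`
-/

set_option autoImplicit false

noncomputable section

namespace Fermat.Agent.S37

open AlgebraicCurve ModularCurve Fermat.Agent.S24

section Van

variable {K F : Type*} [Field K] [Field F] [Algebra K F] (v : Place K F)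

/-- `x` vanishes at the place `v`. -/
def Van (x : F) : Prop := x = 0 ∨ 0 < v.ord x

variable {v}

theorem Van.zero : Van v (0 : F) := Or.inl rfl

theorem Van.ord_nonneg {x : F} (h : Van v x) : 0 ≤ v.ord x := by
  rcases h with rfl | h
  · simp
  · exact h.le

theorem Van.neg {x : F} (h : Van v x) : Van v (-x) := by
  rcases h with rfl | h
  · exact Or.inl neg_zero
  · exact Or.inr (by rwa [FF.ord_neg])

theorem Van.add {x y : F} (hx : Van v x) (hy : Van v y) : Van v (x + y) := by
  rcases hx with rfl | hx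
  · rwa [zero_add]
  rcases hy with rfl | hy
  · rw [add_zero]; exact Or.inr hx
  by_cases h : x + y = 0
  · exact Or.inl h
  · exact Or.inr (lt_of_lt_of_le (lt_min hx hy) (FF.min_ord_le_ord_add v h))

theorem Van.sub {x y : F} (hx : Van v x) (hy : Van v y) : Van v (x - y) := by
  rw [sub_eq_add_neg]
  exact hx.add hy.neg

theorem Van.mul_right {x y : F} (hx : Van v x) (hy : 0 ≤ v.ord y) : Van v (x * y) := by
  rcases hx with rfl | hx
  · exact Or.inl (zero_mul _)
  by_cases hy0 : y = 0
  · exact Or.inl (by rw [hy0, mul_zero])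
  · refine Or.inr ?_
    rw [v.ord_mul (FF.ne_zero_of_ord_ne_zero v hx.ne') hy0]
    omega

theorem Van.mul_left {x y : F} (hx : 0 ≤ v.ord x) (hy : Van v y) : Van v (x * y) := by
  rw [mul_comm]
  exact hy.mul_right hx

theorem van_algebraMap_iff {c : K} : Van v (algebraMap K F c) ↔ c = 0 := by
  constructor
  · rintro (h | h)
    · simpa using h
    · rw [FF.ord_algebraMap] at h
      exact absurd h (lt_irrefl _)
  · rintro rfl
    exact Or.inl (map_zero _)

theorem van_sub_iff {f : F} {c : K} :
    Van v (f - algebraMap K F c) ↔ (f = algebraMap K F c ∨ 0 < v.ord (f - algebraMap K F c)) := by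
  unfold Van
  rw [sub_eq_zero]

theorem ord_add_nonneg {f g : F} (hf : 0 ≤ v.ord f) (hg : 0 ≤ v.ord g) : 0 ≤ v.ord (f + g) :=
  FF.ord_nonneg_of_mem v (add_mem (FF.mem_of_ord_nonneg v hf) (FF.mem_of_ord_nonneg v hg))

theorem ord_sub_nonneg {f g : F} (hf : 0 ≤ v.ord f) (hg : 0 ≤ v.ord g) : 0 ≤ v.ord (f - g) :=
  FF.ord_nonneg_of_mem v (sub_mem (FF.mem_of_ord_nonneg v hf) (FF.mem_of_ord_nonneg v hg))

theorem ord_neg_nonneg {f : F} (hf : 0 ≤ v.ord f) : 0 ≤ v.ord (-f) := by
  rwa [FF.ord_neg]

theorem ord_mul_nonneg {f g : F} (hf : 0 ≤ v.ord f) (hg : 0 ≤ v.ord g) : 0 ≤ v.ord (f * g) :=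
  FF.ord_nonneg_of_mem v (mul_mem (FF.mem_of_ord_nonneg v hf) (FF.mem_of_ord_nonneg v hg))

theorem ord_pow_nonneg {f : F} (hf : 0 ≤ v.ord f) (n : ℕ) : 0 ≤ v.ord (f ^ n) :=
  FF.ord_nonneg_of_mem v (pow_mem (FF.mem_of_ord_nonneg v hf) n)

theorem ord_prod_nonneg {ι : Type*} (s : Finset ι) (f : ι → F) (h : ∀ i ∈ s, 0 ≤ v.ord (f i)) :
    0 ≤ v.ord (∏ i ∈ s, f i) :=
  FF.ord_nonneg_of_mem v (prod_mem fun i hi => FF.mem_of_ord_nonneg v (h i hi))

theorem ord_sum_nonneg {ι : Type*} (s : Finset ι) (f : ι → F) (h : ∀ i ∈ s, 0 ≤ v.ord (f i)) :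
    0 ≤ v.ord (∑ i ∈ s, f i) :=
  FF.ord_nonneg_of_mem v (sum_mem fun i hi => FF.mem_of_ord_nonneg v (h i hi))

theorem ord_algebraMap_nonneg (c : K) : 0 ≤ v.ord (algebraMap K F c) :=
  (FF.ord_algebraMap v c).ge

/-- a function having a value at `v` is regular at `v` -/
theorem ord_nonneg_of_van_sub {f : F} {c : K} (h : Van v (f - algebraMap K F c)) :
    0 ≤ v.ord f := by
  have := ord_add_nonneg h.ord_nonneg (ord_algebraMap_nonneg (v := v) c)
  rwa [sub_add_cancel] at this

end Van

section Val

variable {K F : Type*} [Field K] [Field F] [Algebra K F] {v : Place K F} {f g : F}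

/-- uniqueness of the value -/
theorem val_eq_of {c : K} (h : f = algebraMap K F c ∨ 0 < v.ord (f - algebraMap K F c)) :
    val v f = c := by
  have hex : ∃ c : K, f = algebraMap K F c ∨ 0 < v.ord (f - algebraMap K F c) := ⟨c, h⟩
  have h1 : val v f = hex.choose := dif_pos hex
  have h2 := hex.choose_spec
  rw [← h1, ← van_sub_iff] at h2
  rw [← van_sub_iff] at h
  have h3 : Van v (algebraMap K F (val v f - c)) := by
    have := h.sub h2
    rwa [sub_sub_sub_cancel_left, ← map_sub] at this
  exact sub_eq_zero.mp (van_algebraMap_iff.mp h3)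

theorem val_eq_of_van {c : K} (h : Van v (f - algebraMap K F c)) : val v f = c :=
  val_eq_of (van_sub_iff.mp h)

theorem val_of_not_exists
    (h : ¬ ∃ c : K, f = algebraMap K F c ∨ 0 < v.ord (f - algebraMap K F c)) : val v f = 0 :=
  dif_neg h

theorem val_of_neg (h : v.ord f < 0) : val v f = 0 := by
  apply val_of_not_exists
  rintro ⟨c, hc⟩
  have := ord_nonneg_of_van_sub (van_sub_iff.mpr hc)
  omega

@[simp] theorem val_algebraMap (c : K) : val v (algebraMap K F c) = c := val_eq_of (Or.inl rfl)

@[simp] theorem val_zero : val v (0 : F) = 0 := by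
  have := val_algebraMap (v := v) (0 : K)
  rwa [map_zero] at this

@[simp] theorem val_one : val v (1 : F) = 1 := by
  have := val_algebraMap (v := v) (1 : K)
  rwa [map_one] at this

theorem val_of_pos (h : 0 < v.ord f) : val v f = 0 :=
  val_eq_of (Or.inr (by rwa [map_zero, sub_zero]))

theorem val_of_van (h : Van v f) : val v f = 0 :=
  val_eq_of_van (by rwa [map_zero, sub_zero])

/-- functoriality for semilinear automorphisms -/
theorem val_smul (γ : SemilinearAut K F) (v : Place K F) (f : F) :
    val (γ • v) (γ • f) = SemilinearAut.baseAut γ (val v f) := by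
  have key : ∀ (γ : SemilinearAut K F) (v : Place K F) (f : F) (c : K),
      (f = algebraMap K F c ∨ 0 < v.ord (f - algebraMap K F c)) →
      (γ • f = algebraMap K F (SemilinearAut.baseAut γ c) ∨
        0 < (γ • v).ord (γ • f - algebraMap K F (SemilinearAut.baseAut γ c))) := by
    intro γ v f c h
    rcases h with h | h
    · exact Or.inl (by rw [h, SemilinearAut.smul_algebraMap])
    · refine Or.inr ?_
      rwa [← SemilinearAut.smul_algebraMap, ← smul_sub, SemilinearAut.ord_smul]
  by_cases hex : ∃ c : K, f = algebraMap K F c ∨ 0 < v.ord (f - algebraMap K F c)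
  · obtain ⟨c, hc⟩ := hex
    rw [val_eq_of hc, val_eq_of (key γ v f c hc)]
  · rw [val_of_not_exists hex, map_zero]
    apply val_of_not_exists
    rintro ⟨c, hc⟩
    apply hex
    have := key γ⁻¹ (γ • v) (γ • f) c hc
    rw [inv_smul_smul, inv_smul_smul] at this
    exact ⟨_, this⟩

section Restrict

variable {F' : Type*} [Field F'] [Algebra K F'] [Algebra F F'] [IsScalarTower K F F']
  [Algebra.IsIntegral F F']

theorem ord_restrict_pos_iff (w : Place K F') (f : F) :
    0 < (w.restrict F).ord f ↔ 0 < w.ord (algebraMap F F' f) := by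
  rw [w.ord_restrict f]
  have he : (0 : ℤ) < (w.ramificationIndex F : ℤ) := by
    exact_mod_cast w.ramificationIndex_pos (F := F)
  constructor
  · intro h
    exact mul_pos he h
  · intro h
    exact (mul_pos_iff_of_pos_left he).mp h

theorem ord_restrict_nonneg_iff (w : Place K F') (f : F) :
    0 ≤ (w.restrict F).ord f ↔ 0 ≤ w.ord (algebraMap F F' f) := by
  rw [← FF.mem_iff_ord_nonneg, ← FF.mem_iff_ord_nonneg, Place.mem_restrict_iff]

theorem val_restrict (w : Place K F') (f : F) :
    val (w.restrict F) f = val w (algebraMap F F' f) := by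
  have key : ∀ c : K, (f = algebraMap K F c ∨ 0 < (w.restrict F).ord (f - algebraMap K F c)) ↔
      (algebraMap F F' f = algebraMap K F' c ∨
        0 < w.ord (algebraMap F F' f - algebraMap K F' c)) := by
    intro c
    rw [ord_restrict_pos_iff, map_sub, ← IsScalarTower.algebraMap_apply K F F',
      IsScalarTower.algebraMap_apply K F F' c, (algebraMap F F').injective.eq_iff]
  by_cases hex : ∃ c : K, f = algebraMap K F c ∨ 0 < (w.restrict F).ord (f - algebraMap K F c)
  · obtain ⟨c, hc⟩ := hex
    rw [val_eq_of hc, val_eq_of ((key c).mp hc)]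
  · rw [val_of_not_exists hex, val_of_not_exists]
    rintro ⟨c, hc⟩
    exact hex ⟨c, (key c).mpr hc⟩

end Restrict

section Along

variable {F' : Type*} [Field F'] [Algebra K F']

theorem ord_restrictAlong_nonneg_iff (φ : F →ₐ[K] F') (hφ : φ.toRingHom.IsIntegral)
    (w : Place K F') (f : F) : 0 ≤ (w.restrictAlong φ hφ).ord f ↔ 0 ≤ w.ord (φ f) := by
  let _ := algebraAlong φ
  have := isScalarTower_along φ
  have := isIntegral_along φ hφ
  exact ord_restrict_nonneg_iff w f

theorem ord_restrictAlong_pos_iff (φ : F →ₐ[K] F') (hφ : φ.toRingHom.IsIntegral)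
    (w : Place K F') (f : F) : 0 < (w.restrictAlong φ hφ).ord f ↔ 0 < w.ord (φ f) := by
  let _ := algebraAlong φ
  have := isScalarTower_along φ
  have := isIntegral_along φ hφ
  exact ord_restrict_pos_iff w f

theorem val_restrictAlong (φ : F →ₐ[K] F') (hφ : φ.toRingHom.IsIntegral)
    (w : Place K F') (f : F) : val (w.restrictAlong φ hφ) f = val w (φ f) := by
  let _ := algebraAlong φ
  have := isScalarTower_along φ
  have := isIntegral_along φ hφ
  exact val_restrict w f

end Along

variable [IsAlgClosed K] [FF.IsFF1 K F]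

theorem val_spec (h : 0 ≤ v.ord f) :
    f = algebraMap K F (val v f) ∨ 0 < v.ord (f - algebraMap K F (val v f)) := by
  obtain ⟨c, hc⟩ := FF.exists_const_of_ord_nonneg v h
  rwa [val_eq_of hc]

theorem van_sub_val (h : 0 ≤ v.ord f) : Van v (f - algebraMap K F (val v f)) :=
  van_sub_iff.mpr (val_spec h)

theorem val_add (hf : 0 ≤ v.ord f) (hg : 0 ≤ v.ord g) : val v (f + g) = val v f + val v g := by
  apply val_eq_of_van
  have := (van_sub_val hf).add (van_sub_val hg)
  rwa [map_add, add_sub_add_comm]

theorem val_neg (f : F) : val v (-f) = - val v f := by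
  by_cases hf : 0 ≤ v.ord f
  · apply val_eq_of_van
    have := (van_sub_val hf).neg
    have e : -(f - algebraMap K F (val v f)) = -f - algebraMap K F (-val v f) := by
      rw [map_neg]; ring
    rwa [e] at this
  · rw [val_of_neg (not_le.mp hf), val_of_neg (by rw [FF.ord_neg]; exact not_le.mp hf), neg_zero]

theorem val_sub (hf : 0 ≤ v.ord f) (hg : 0 ≤ v.ord g) : val v (f - g) = val v f - val v g := by
  rw [sub_eq_add_neg, val_add hf (ord_neg_nonneg hg), val_neg, sub_eq_add_neg]

theorem val_mul (hf : 0 ≤ v.ord f) (hg : 0 ≤ v.ord g) : val v (f * g) = val v f * val v g := by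
  apply val_eq_of_van
  have h1 := (van_sub_val hf).mul_right hg
  have h2 := Van.mul_left (ord_algebraMap_nonneg (v := v) (val v f)) (van_sub_val hg)
  have := h1.add h2
  have e : (f - algebraMap K F (val v f)) * g +
      algebraMap K F (val v f) * (g - algebraMap K F (val v g)) =
      f * g - algebraMap K F (val v f * val v g) := by
    rw [map_mul]; ring
  rwa [e] at this

theorem val_pow (hf : 0 ≤ v.ord f) (n : ℕ) : val v (f ^ n) = val v f ^ n := by
  induction n with
  | zero => simp
  | succ n ih => rw [pow_succ, val_mul (ord_pow_nonneg hf n) hf, ih, pow_succ]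

theorem val_prod {ι : Type*} (s : Finset ι) (f : ι → F) (h : ∀ i ∈ s, 0 ≤ v.ord (f i)) :
    val v (∏ i ∈ s, f i) = ∏ i ∈ s, val v (f i) := by
  classical
  induction s using Finset.induction_on with
  | empty => simp
  | insert a s ha ih =>
    rw [Finset.prod_insert ha, Finset.prod_insert ha,
      val_mul (h a (Finset.mem_insert_self a s))
        (ord_prod_nonneg s f fun i hi => h i (Finset.mem_insert_of_mem hi)),
      ih fun i hi => h i (Finset.mem_insert_of_mem hi)]

theorem val_sum {ι : Type*} (s : Finset ι) (f : ι → F) (h : ∀ i ∈ s, 0 ≤ v.ord (f i)) :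
    val v (∑ i ∈ s, f i) = ∑ i ∈ s, val v (f i) := by
  classical
  induction s using Finset.induction_on with
  | empty => simp
  | insert a s ha ih =>
    rw [Finset.sum_insert ha, Finset.sum_insert ha,
      val_add (h a (Finset.mem_insert_self a s))
        (ord_sum_nonneg s f fun i hi => h i (Finset.mem_insert_of_mem hi)),
      ih fun i hi => h i (Finset.mem_insert_of_mem hi)]

theorem val_eq_zero_iff (h : 0 ≤ v.ord f) : val v f = 0 ↔ f = 0 ∨ 0 < v.ord f := by
  constructor
  · intro h0
    have := val_spec h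
    rwa [h0, map_zero, sub_zero] at this
  · intro h0
    exact val_of_van h0

theorem val_ne_zero_of_ord_eq_zero (hf : f ≠ 0) (h : v.ord f = 0) : val v f ≠ 0 := by
  intro h0
  rcases (val_eq_zero_iff h.ge).mp h0 with h1 | h1
  · exact hf h1
  · omega

theorem val_inv (h : v.ord f = 0) : val v f⁻¹ = (val v f)⁻¹ := by
  rcases eq_or_ne f 0 with rfl | hf
  · simp
  have h' : v.ord f⁻¹ = 0 := by rw [v.ord_inv, h, neg_zero]
  have h1 := val_mul h.ge h'.ge
  rw [mul_inv_cancel₀ hf, val_one] at h1
  exact eq_inv_of_mul_eq_one_right h1.symm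

theorem val_div (hf : 0 ≤ v.ord f) (hg : v.ord g = 0) : val v (f / g) = val v f / val v g := by
  rw [div_eq_mul_inv, val_mul hf (by rw [v.ord_inv, hg, neg_zero]), val_inv hg, div_eq_mul_inv]

/-- `val v` as a ring homomorphism on the valuation ring of `v`. -/
def valHom (v : Place K F) : v.toValuationSubring →+* K where
  toFun f := val v (f : F)
  map_one' := val_one
  map_mul' f g := val_mul (FF.ord_nonneg_of_mem v f.2) (FF.ord_nonneg_of_mem v g.2)
  map_zero' := val_zero
  map_add' f g := val_add (FF.ord_nonneg_of_mem v f.2) (FF.ord_nonneg_of_mem v g.2)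

@[simp] theorem valHom_apply (f : v.toValuationSubring) : valHom v f = val v (f : F) := rfl

end Val

/-! ## `resA` -/

section ResA

variable (A : ValuationSubring Kbar)

theorem resA_of_mem {c : Kbar} (h : c ∈ A) : resA A c = IsLocalRing.residue A ⟨c, h⟩ := dif_pos h

theorem resA_of_not_mem {c : Kbar} (h : c ∉ A) : resA A c = 0 := dif_neg h

theorem resA_coe (c : A) : resA A (c : Kbar) = IsLocalRing.residue A c := resA_of_mem A c.2

@[simp] theorem resA_zero : resA A 0 = 0 := by
  rw [resA_of_mem A A.zero_mem]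
  exact map_zero (IsLocalRing.residue A)

@[simp] theorem resA_one : resA A 1 = 1 := by
  rw [resA_of_mem A A.one_mem]
  exact map_one (IsLocalRing.residue A)

variable {A} {a b c : Kbar}

theorem resA_add (ha : a ∈ A) (hb : b ∈ A) : resA A (a + b) = resA A a + resA A b := by
  rw [resA_of_mem A ha, resA_of_mem A hb, resA_of_mem A (A.add_mem _ _ ha hb), ← map_add]
  rfl

theorem resA_mul (ha : a ∈ A) (hb : b ∈ A) : resA A (a * b) = resA A a * resA A b := by
  rw [resA_of_mem A ha, resA_of_mem A hb, resA_of_mem A (A.mul_mem _ _ ha hb), ← map_mul]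
  rfl

theorem resA_neg (ha : a ∈ A) : resA A (-a) = - resA A a := by
  rw [resA_of_mem A ha, resA_of_mem A (A.neg_mem _ ha), ← map_neg]
  rfl

theorem resA_sub (ha : a ∈ A) (hb : b ∈ A) : resA A (a - b) = resA A a - resA A b := by
  rw [sub_eq_add_neg, resA_add ha (A.neg_mem _ hb), resA_neg hb, sub_eq_add_neg]

theorem resA_pow (ha : a ∈ A) (n : ℕ) : resA A (a ^ n) = resA A a ^ n := by
  rw [resA_of_mem A ha, resA_of_mem A (pow_mem ha n), ← map_pow]
  rfl

theorem resA_prod {ι : Type*} (s : Finset ι) (f : ι → Kbar) (h : ∀ i ∈ s, f i ∈ A) :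
    resA A (∏ i ∈ s, f i) = ∏ i ∈ s, resA A (f i) := by
  classical
  induction s using Finset.induction_on with
  | empty => simp
  | insert x s hx ih =>
    rw [Finset.prod_insert hx, Finset.prod_insert hx,
      resA_mul (h x (Finset.mem_insert_self x s))
        (prod_mem fun i hi => h i (Finset.mem_insert_of_mem hi)),
      ih fun i hi => h i (Finset.mem_insert_of_mem hi)]

theorem resA_sum {ι : Type*} (s : Finset ι) (f : ι → Kbar) (h : ∀ i ∈ s, f i ∈ A) :
    resA A (∑ i ∈ s, f i) = ∑ i ∈ s, resA A (f i) := by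
  classical
  induction s using Finset.induction_on with
  | empty => simp
  | insert x s hx ih =>
    rw [Finset.sum_insert hx, Finset.sum_insert hx,
      resA_add (h x (Finset.mem_insert_self x s))
        (sum_mem fun i hi => h i (Finset.mem_insert_of_mem hi)),
      ih fun i hi => h i (Finset.mem_insert_of_mem hi)]

theorem resA_eq_zero_iff (hc : c ∈ A) : resA A c = 0 ↔ c ∈ A.nonunits := by
  rw [resA_of_mem A hc, IsLocalRing.residue_eq_zero_iff,
    ← ValuationSubring.coe_mem_nonunits_iff]

theorem resA_of_mem_nonunits (hc : c ∈ A.nonunits) : resA A c = 0 :=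
  (resA_eq_zero_iff (ValuationSubring.nonunits_subset hc)).mpr hc

theorem resA_eq_iff (ha : a ∈ A) (hb : b ∈ A) : resA A a = resA A b ↔ a - b ∈ A.nonunits := by
  rw [← resA_eq_zero_iff (A.sub_mem ha hb), resA_sub ha hb, sub_eq_zero]

variable (A) in
theorem resA_surjective : Function.Surjective (resA A) := by
  intro x
  obtain ⟨y, rfl⟩ := IsLocalRing.residue_surjective x
  exact ⟨y, resA_coe A y⟩

variable (A) in
theorem exists_mem_resA_eq (x : kA A) : ∃ a ∈ A, resA A a = x := by
  obtain ⟨y, rfl⟩ := IsLocalRing.residue_surjective x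
  exact ⟨y, y.2, resA_coe A y⟩

end ResA

/-! ## the composite valuation ring -/

section Comp

variable {K F : Type*} [Field K] [Field F] [Algebra K F] [IsAlgClosed K] [FF.IsFF1 K F]

/-- the composite of the valuation ring of the place `v` with the valuation ring `A` of the
constant (= residue) field: functions regular at `v` with value in `A`. -/
def compRing (A : ValuationSubring K) (v : Place K F) : ValuationSubring F where
  carrier := {f | 0 ≤ v.ord f ∧ val v f ∈ A}
  mul_mem' := fun {f g} hf hg =>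
    ⟨ord_mul_nonneg hf.1 hg.1, by rw [val_mul hf.1 hg.1]; exact A.mul_mem _ _ hf.2 hg.2⟩
  one_mem' := ⟨by simp, by rw [val_one]; exact A.one_mem⟩
  add_mem' := fun {f g} hf hg =>
    ⟨ord_add_nonneg hf.1 hg.1, by rw [val_add hf.1 hg.1]; exact A.add_mem _ _ hf.2 hg.2⟩
  zero_mem' := ⟨by simp, by rw [val_zero]; exact A.zero_mem⟩
  neg_mem' := fun {f} hf => ⟨ord_neg_nonneg hf.1, by rw [val_neg]; exact A.neg_mem _ hf.2⟩
  mem_or_inv_mem' := by
    intro f
    rcases lt_trichotomy (v.ord f) 0 with h | h | h
    · right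
      have h' : 0 < v.ord f⁻¹ := by rw [v.ord_inv]; omega
      exact ⟨h'.le, by rw [val_of_pos h']; exact A.zero_mem⟩
    · rcases A.mem_or_inv_mem (val v f) with h1 | h1
      · exact Or.inl ⟨h.ge, h1⟩
      · right
        exact ⟨by rw [v.ord_inv, h, neg_zero], by rw [val_inv h]; exact h1⟩
    · exact Or.inl ⟨h.le, by rw [val_of_pos h]; exact A.zero_mem⟩

variable {A : ValuationSubring K} {v : Place K F} {f : F}

theorem mem_compRing : f ∈ compRing A v ↔ 0 ≤ v.ord f ∧ val v f ∈ A := Iff.rfl

theorem mem_nonunits_compRing :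
    f ∈ (compRing A v).nonunits ↔ 0 ≤ v.ord f ∧ val v f ∈ A.nonunits := by
  rw [ValuationSubring.mem_nonunits_iff_or]
  constructor
  · rintro (rfl | h)
    · exact ⟨by simp, by rw [val_zero]; exact zero_mem _⟩
    · rcases lt_trichotomy (v.ord f) 0 with h0 | h0 | h0
      · exfalso
        apply h
        have h' : 0 < v.ord f⁻¹ := by rw [v.ord_inv]; omega
        exact ⟨h'.le, by rw [val_of_pos h']; exact A.zero_mem⟩
      · refine ⟨h0.ge, ?_⟩
        rw [ValuationSubring.mem_nonunits_iff_or]
        right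
        intro h1
        exact h ⟨by rw [v.ord_inv, h0, neg_zero], by rw [val_inv h0]; exact h1⟩
      · exact ⟨h0.le, by rw [val_of_pos h0]; exact zero_mem _⟩
  · rintro ⟨h0, h1⟩
    by_cases hf : f = 0
    · exact Or.inl hf
    · right
      rintro ⟨h2, h3⟩
      rw [v.ord_inv] at h2
      have h4 : v.ord f = 0 := by omega
      rw [val_inv h4] at h3
      rcases A.mem_nonunits_iff_or.mp h1 with h5 | h5
      · exact val_ne_zero_of_ord_eq_zero hf h4 h5
      · exact h5 h3

theorem algebraMap_mem_compRing {a : K} (ha : a ∈ A) : algebraMap K F a ∈ compRing A v :=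
  ⟨ord_algebraMap_nonneg a, by rwa [val_algebraMap]⟩

theorem algebraMap_mem_compRing_iff {a : K} : algebraMap K F a ∈ compRing A v ↔ a ∈ A :=
  ⟨fun h => by simpa using h.2, algebraMap_mem_compRing⟩

theorem compRing_le : compRing A v ≤ v.toValuationSubring := fun _ hf =>
  FF.mem_of_ord_nonneg v hf.1

end Comp

/-- an element integral over a subring of a valuation ring lies in the valuation ring -/
theorem mem_valuationSubring_of_isIntegral {F : Type*} [Field F] (V : ValuationSubring F)
    (R : Subring F) (hR : R ≤ V.toSubring) {b : F} (hb : IsIntegral R b) : b ∈ V := by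
  let _ : Algebra R V :=
    ((algebraMap R F).codRestrict V.toSubring (fun a => hR a.2)).toAlgebra
  have : IsScalarTower R V F := IsScalarTower.of_algebraMap_eq fun f => rfl
  have hx : IsIntegral V b := hb.tower_top
  obtain ⟨y, hy⟩ := IsIntegrallyClosed.isIntegral_iff.mp hx
  exact hy ▸ y.2

/-! ## evaluation of `BFin`, `BInf` -/

section Modular

variable {A : ValuationSubring Kbar} {N : ℕ}

/-- shortcut instance: the generic search for this instance is right at the default limit of
instance synthesis -/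
instance instAlgebraSubringFN (R : Subring (FN N)) : Algebra R (FN N) := Algebra.ofSubsemiring R

theorem mem_BFin_iff {b : FN N} : b ∈ BFin A N ↔ IsIntegral (RFin A N) b := Iff.rfl

theorem mem_BInf_iff {b : FN N} : b ∈ BInf A N ↔ IsIntegral (RInf A N) b := Iff.rfl

theorem algebraMap_mem_RFin {a : Kbar} (ha : a ∈ A) : algebraMap Kbar (FN N) a ∈ RFin A N :=
  Subring.subset_closure (Or.inl ⟨a, ha, rfl⟩)

theorem algebraMap_mem_RInf {a : Kbar} (ha : a ∈ A) : algebraMap Kbar (FN N) a ∈ RInf A N :=
  Subring.subset_closure (Or.inl ⟨a, ha, rfl⟩)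

theorem jF_mem_RFin : jF N ∈ RFin A N := Subring.subset_closure (Or.inr rfl)

theorem jF_inv_mem_RInf : (jF N)⁻¹ ∈ RInf A N := Subring.subset_closure (Or.inr rfl)

theorem RFin_le_BFin : RFin A N ≤ BFin A N := fun x hx =>
  mem_BFin_iff.mpr (isIntegral_algebraMap (R := RFin A N) (x := ⟨x, hx⟩))

theorem RInf_le_BInf : RInf A N ≤ BInf A N := fun x hx =>
  mem_BInf_iff.mpr (isIntegral_algebraMap (R := RInf A N) (x := ⟨x, hx⟩))

theorem algebraMap_mem_BFin {a : Kbar} (ha : a ∈ A) : algebraMap Kbar (FN N) a ∈ BFin A N :=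
  RFin_le_BFin (algebraMap_mem_RFin ha)

theorem algebraMap_mem_BInf {a : Kbar} (ha : a ∈ A) : algebraMap Kbar (FN N) a ∈ BInf A N :=
  RInf_le_BInf (algebraMap_mem_RInf ha)

theorem jF_mem_BFin : jF N ∈ BFin A N := RFin_le_BFin jF_mem_RFin

theorem jF_inv_mem_BInf : (jF N)⁻¹ ∈ BInf A N := RInf_le_BInf jF_inv_mem_RInf

variable [NeZero N]

instance instIsFF1FN : FF.IsFF1 Kbar (FN N) := Export.isFF1 N

variable {P : Pl N}

theorem RFin_le_compRing (hP : InFin A N P) : RFin A N ≤ (compRing A P).toSubring := by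
  unfold RFin
  rw [Subring.closure_le]
  rintro x (⟨a, ha, rfl⟩ | rfl)
  · exact algebraMap_mem_compRing ha
  · exact hP

/-- functions integral over `A[j]` are regular with value in `A` at the places with `j(P) ∈ A` -/
theorem mem_compRing_of_mem_BFin (hP : InFin A N P) {b : FN N} (hb : b ∈ BFin A N) :
    0 ≤ P.ord b ∧ val P b ∈ A :=
  mem_valuationSubring_of_isIntegral (compRing A P) (RFin A N) (RFin_le_compRing hP) hb

/-- outside the finite region `1/j` is regular with value in the maximal ideal of `A` -/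
theorem jF_inv_of_not_inFin (hP : ¬ InFin A N P) :
    0 ≤ P.ord (jF N)⁻¹ ∧ val P (jF N)⁻¹ ∈ A.nonunits := by
  rw [← mem_nonunits_compRing, ValuationSubring.inv_mem_nonunits_iff]
  exact Or.inr hP

theorem RInf_le_compRing (hP : ¬ InFin A N P) : RInf A N ≤ (compRing A P).toSubring := by
  unfold RInf
  rw [Subring.closure_le]
  rintro x (⟨a, ha, rfl⟩ | rfl)
  · exact algebraMap_mem_compRing ha
  · exact ⟨(jF_inv_of_not_inFin hP).1, ValuationSubring.nonunits_subset (jF_inv_of_not_inFin hP).2⟩

/-- functions integral over `A[1/j]` are regular with value in `A` at the places with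
`j(P) ∉ A` -/
theorem mem_compRing_of_mem_BInf (hP : ¬ InFin A N P) {b : FN N} (hb : b ∈ BInf A N) :
    0 ≤ P.ord b ∧ val P b ∈ A :=
  mem_valuationSubring_of_isIntegral (compRing A P) (RInf A N) (RInf_le_compRing hP) hb

/-- evaluation at `P` followed by reduction, on the finite chart -/
def evFinHom (hP : InFin A N P) : BFin A N →+* kA A where
  toFun b := resA A (val P b.1)
  map_one' := by
    show resA A (val P (1 : FN N)) = 1
    rw [val_one, resA_one]
  map_mul' b c := by
    obtain ⟨h1, h2⟩ := mem_compRing_of_mem_BFin hP b.2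
    obtain ⟨h3, h4⟩ := mem_compRing_of_mem_BFin hP c.2
    show resA A (val P (b.1 * c.1)) = _
    rw [val_mul h1 h3, resA_mul h2 h4]
  map_zero' := by
    show resA A (val P (0 : FN N)) = 0
    rw [val_zero, resA_zero]
  map_add' b c := by
    obtain ⟨h1, h2⟩ := mem_compRing_of_mem_BFin hP b.2
    obtain ⟨h3, h4⟩ := mem_compRing_of_mem_BFin hP c.2
    show resA A (val P (b.1 + c.1)) = _
    rw [val_add h1 h3, resA_add h2 h4]

@[simp] theorem evFinHom_apply (hP : InFin A N P) (b : BFin A N) :
    evFinHom hP b = resA A (val P b.1) := rfl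

theorem evFinHom_surjective (hP : InFin A N P) : Function.Surjective (evFinHom hP) := by
  intro x
  obtain ⟨a, ha, rfl⟩ := exists_mem_resA_eq A x
  refine ⟨⟨algebraMap Kbar (FN N) a, algebraMap_mem_BFin ha⟩, ?_⟩
  rw [evFinHom_apply, val_algebraMap]

/-- evaluation at `P` followed by reduction, on the chart at infinity -/
def evInfHom (hP : ¬ InFin A N P) : BInf A N →+* kA A where
  toFun b := resA A (val P b.1)
  map_one' := by
    show resA A (val P (1 : FN N)) = 1
    rw [val_one, resA_one]
  map_mul' b c := by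
    obtain ⟨h1, h2⟩ := mem_compRing_of_mem_BInf hP b.2
    obtain ⟨h3, h4⟩ := mem_compRing_of_mem_BInf hP c.2
    show resA A (val P (b.1 * c.1)) = _
    rw [val_mul h1 h3, resA_mul h2 h4]
  map_zero' := by
    show resA A (val P (0 : FN N)) = 0
    rw [val_zero, resA_zero]
  map_add' b c := by
    obtain ⟨h1, h2⟩ := mem_compRing_of_mem_BInf hP b.2
    obtain ⟨h3, h4⟩ := mem_compRing_of_mem_BInf hP c.2
    show resA A (val P (b.1 + c.1)) = _
    rw [val_add h1 h3, resA_add h2 h4]

@[simp] theorem evInfHom_apply (hP : ¬ InFin A N P) (b : BInf A N) :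
    evInfHom hP b = resA A (val P b.1) := rfl

theorem evInfHom_surjective (hP : ¬ InFin A N P) : Function.Surjective (evInfHom hP) := by
  intro x
  obtain ⟨a, ha, rfl⟩ := exists_mem_resA_eq A x
  refine ⟨⟨algebraMap Kbar (FN N) a, algebraMap_mem_BInf ha⟩, ?_⟩
  rw [evInfHom_apply, val_algebraMap]

omit [NeZero N] in
theorem red_of_inFin (hP : InFin A N P) :
    red A N P = Sum.inl fun b => resA A (val P b.1) := if_pos hP

omit [NeZero N] in
theorem red_of_not_inFin (hP : ¬ InFin A N P) :
    red A N P = Sum.inr fun b => resA A (val P b.1) := if_neg hP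

theorem red_eq_inl (hP : InFin A N P) : red A N P = Sum.inl fun b => evFinHom hP b :=
  red_of_inFin hP

theorem red_eq_inr (hP : ¬ InFin A N P) : red A N P = Sum.inr fun b => evInfHom hP b :=
  red_of_not_inFin hP

end Modular

end Fermat.Agent.S37

end
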