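import Fermat.Agent.S37.Nodes

/-!
# S37, node RegInt (owner helper163)

`regInt`: over an algebraically closed constant field `K` (any characteristic), a function `z`
of a function field in one variable `F/K` which is regular at all places where `x` is regular
is integral over `K[x]`.

Route (characteristic free): a non-integral `z` is missed by a valuation subring `V ⊇ K[x]`;
for every nonzero nonunit `s ∈ V` the quotient `V/sV` has `K`-dimension at most `[F : K(s)]`,
so `V` is noetherian, hence a principal ideal ring, hence a place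
(`RegIntAux.placeOfValuationSubring`).
-/

set_option autoImplicit false
set_option linter.style.haveILetI false

noncomputable section

namespace Fermat.Agent.S37.RegIntAux

open Polynomial IntermediateField AlgebraicCurve Fermat.Agent.S24
open scoped IntermediateField.algebraAdjoinAdjoin

variable {K F : Type*} [Field K] [Field F] [Algebra K F]

/-- polynomials in an element of `V` lie in `V` -/
theorem aeval_mem (V : ValuationSubring F) (hK : ∀ a : K, algebraMap K F a ∈ V) {s : F}
    (hs : s ∈ V) (P : K[X]) : aeval s P ∈ V := by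
  rw [aeval_eq_sum_range]
  refine sum_mem fun i _ => ?_
  rw [Algebra.smul_def]
  exact mul_mem (hK _) (pow_mem hs _)

/-- If the `y i ∈ V` are `K`-independent modulo `s V`, a polynomial relation
`∑ P i (s) * y i = 0` forces all coefficients to vanish. -/
theorem coeff_eq_zero_of_relation (V : ValuationSubring F) (hK : ∀ a : K, algebraMap K F a ∈ V)
    {s : F} (hs : s ∈ V) (hs0 : s ≠ 0) {ι : Type*} [Fintype ι] (y : ι → F) (hy : ∀ i, y i ∈ V)
    (hind : ∀ c : ι → K, (∃ w ∈ V, ∑ i, algebraMap K F (c i) * y i = s * w) → ∀ i, c i = 0) :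
    ∀ (k : ℕ) (P : ι → K[X]), ∑ i, aeval s (P i) * y i = 0 → ∀ i, (P i).coeff k = 0 := by
  have hsplit : ∀ P : ι → K[X], ∑ i, aeval s (P i) * y i
      = s * ∑ i, aeval s (P i).divX * y i + ∑ i, algebraMap K F ((P i).coeff 0) * y i := by
    intro P
    rw [Finset.mul_sum, ← Finset.sum_add_distrib]
    refine Finset.sum_congr rfl fun i _ => ?_
    conv_lhs => rw [← divX_mul_X_add (P i)]
    simp only [map_add, map_mul, aeval_X, aeval_C]
    ring
  have H0 : ∀ P : ι → K[X], ∑ i, aeval s (P i) * y i = 0 → ∀ i, (P i).coeff 0 = 0 := by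
    intro P hP
    refine hind (fun i => (P i).coeff 0) ⟨-∑ i, aeval s (P i).divX * y i, ?_, ?_⟩
    · exact neg_mem (sum_mem fun i _ => mul_mem (aeval_mem V hK hs _) (hy i))
    · rw [hsplit] at hP
      linear_combination hP
  have H1 : ∀ P : ι → K[X], ∑ i, aeval s (P i) * y i = 0 →
      ∑ i, aeval s (P i).divX * y i = 0 := by
    intro P hP
    have h0 := H0 P hP
    rw [hsplit] at hP
    simp only [h0, map_zero, zero_mul, Finset.sum_const_zero, add_zero] at hP
    exact (mul_eq_zero.mp hP).resolve_left hs0
  intro k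
  induction k with
  | zero => exact H0
  | succ k ih =>
    intro P hP i
    have := ih (fun i => (P i).divX) (H1 P hP) i
    rwa [coeff_divX] at this

theorem linearIndependent_adjoin (V : ValuationSubring F) (hK : ∀ a : K, algebraMap K F a ∈ V)
    {s : F} (hs : s ∈ V) (hs0 : s ≠ 0) {ι : Type*} [Fintype ι] (y : ι → F) (hy : ∀ i, y i ∈ V)
    (hind : ∀ c : ι → K, (∃ w ∈ V, ∑ i, algebraMap K F (c i) * y i = s * w) → ∀ i, c i = 0) :
    LinearIndependent K⟮s⟯ y := by
  rw [← LinearIndependent.iff_fractionRing (Algebra.adjoin K {s}) K⟮s⟯,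
    Fintype.linearIndependent_iff]
  intro g hg i
  have hex : ∀ i, ∃ P : K[X], aeval s P = (g i : F) := by
    intro i
    have h1 : ∀ u : F, u ∈ Algebra.adjoin K {s} → ∃ P : K[X], aeval s P = u := by
      intro u hu
      rw [Algebra.adjoin_singleton_eq_range_aeval] at hu
      exact hu
    exact h1 _ (g i).2
  choose P hP using hex
  have hrel : ∑ i, aeval s (P i) * y i = 0 := by
    rw [← hg]
    refine Finset.sum_congr rfl fun i _ => ?_
    rw [hP]
    rfl
  have hP0 : P i = 0 := by
    ext k
    simpa using coeff_eq_zero_of_relation V hK hs hs0 y hy hind k P hrel i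
  apply Subtype.ext
  rw [← hP, hP0]
  simp

theorem finite_of_card_le {k M : Type*} [Field k] [AddCommGroup M] [Module k M] (n : ℕ)
    (H : ∀ s : Finset M, (LinearIndependent k fun i : s => (i : M)) → s.card ≤ n) :
    Module.Finite k M := by
  rw [← Module.rank_lt_aleph0_iff]
  exact lt_of_le_of_lt (rank_le H) (Cardinal.natCast_lt_aleph0)

/-- the `K`-algebra structure on a valuation subring containing the constants -/
@[reducible] def algebraOf (V : ValuationSubring F) (hK : ∀ a : K, algebraMap K F a ∈ V) :
    Algebra K V :=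
  ((algebraMap K F).codRestrict V.toSubring hK).toAlgebra

theorem finite_quotient [IsAlgClosed K] [FF.IsFF1 K F] (V : ValuationSubring F)
    (hK : ∀ a : K, algebraMap K F a ∈ V) (s : V) (hs0 : s ≠ 0) (hsu : ¬ IsUnit s) :
    letI := algebraOf V hK
    Module.Finite K (V ⧸ Ideal.span {s}) := by
  letI := algebraOf V hK
  have hs0' : (s : F) ≠ 0 := by simpa using hs0
  have htr : Transcendental K (s : F) := by
    apply FF.transcendental_of_forall_ne
    intro c hc
    apply hsu
    have hc0 : c ≠ 0 := by
      rintro rfl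
      rw [map_zero] at hc
      exact hs0' hc
    refine ⟨⟨s, ⟨algebraMap K F c⁻¹, hK _⟩, Subtype.ext ?_, Subtype.ext ?_⟩, rfl⟩
    · show (s : F) * algebraMap K F c⁻¹ = 1
      rw [hc, ← map_mul, mul_inv_cancel₀ hc0, map_one]
    · show algebraMap K F c⁻¹ * (s : F) = 1
      rw [hc, ← map_mul, inv_mul_cancel₀ hc0, map_one]
  haveI : FiniteDimensional K⟮(s : F)⟯ F := FF.IsFF1.finite _ htr
  refine finite_of_card_le (Module.finrank K⟮(s : F)⟯ F) ?_
  intro T hT
  have hli : LinearIndependent K⟮(s : F)⟯
      (fun i : T => ((Quotient.out (i : V ⧸ Ideal.span {s}) : V) : F)) := by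
    refine linearIndependent_adjoin V hK s.2 hs0' _ (fun i => (Quotient.out _ : V).2) ?_
    rintro c ⟨w, hw, hcw⟩
    refine Fintype.linearIndependent_iff.mp hT c ?_
    have h1 : ∑ i : T, c i • (Quotient.out (i : V ⧸ Ideal.span {s}) : V) = s * ⟨w, hw⟩ := by
      apply Subtype.ext
      rw [MulMemClass.coe_mul, ← hcw]
      push_cast
      rfl
    have h2 := congrArg (Ideal.Quotient.mk (Ideal.span {s})) h1
    rw [map_sum] at h2
    have h3 : Ideal.Quotient.mk (Ideal.span {s}) (s * ⟨w, hw⟩) = 0 :=
      Ideal.Quotient.eq_zero_iff_mem.mpr (Ideal.mul_mem_right _ _ (Ideal.mem_span_singleton_self s))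
    rw [h3] at h2
    rw [← h2]
    refine Finset.sum_congr rfl fun i _ => ?_
    have h4 : Ideal.Quotient.mk (Ideal.span {s}) (c i • Quotient.out (i : V ⧸ Ideal.span {s}))
        = c i • Ideal.Quotient.mk (Ideal.span {s}) (Quotient.out (i : V ⧸ Ideal.span {s})) := rfl
    rw [h4, Ideal.Quotient.mk_out]
  simpa using hli.fintype_card_le_finrank

theorem isNoetherianRing [IsAlgClosed K] [FF.IsFF1 K F] (V : ValuationSubring F)
    (hK : ∀ a : K, algebraMap K F a ∈ V) : IsNoetherianRing V := by
  letI := algebraOf V hK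
  rw [isNoetherianRing_iff_ideal_fg]
  intro I
  rcases eq_or_ne I ⊥ with rfl | hI
  · exact Submodule.fg_bot
  obtain ⟨s, hsI, hs0⟩ := Submodule.exists_mem_ne_zero_of_ne_bot hI
  by_cases hsu : IsUnit s
  · rw [Ideal.eq_top_of_isUnit_mem I hsI hsu]
    exact ⟨{1}, by simp⟩
  haveI := finite_quotient V hK s hs0 hsu
  haveI : IsNoetherian K (V ⧸ Ideal.span {s}) := inferInstance
  haveI : IsNoetherian V (V ⧸ Ideal.span {s}) := isNoetherian_of_tower K inferInstance
  refine Submodule.fg_of_fg_map_of_fg_inf_ker (Submodule.mkQ (Ideal.span {s})) ?_ ?_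
  · exact IsNoetherian.noetherian _
  · rw [Submodule.ker_mkQ, inf_eq_right.mpr ((Ideal.span_singleton_le_iff_mem I).mpr hsI)]
    exact ⟨{s}, by simp⟩

theorem isPrincipalIdealRing [IsAlgClosed K] [FF.IsFF1 K F] (V : ValuationSubring F)
    (hK : ∀ a : K, algebraMap K F a ∈ V) : IsPrincipalIdealRing V :=
  ((IsBezout.TFAE (R := V)).out 0 1).mp (isNoetherianRing V hK)

/-- Over an algebraically closed constant field, every proper valuation subring of a function
field in one variable which contains the constants is a place. -/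
def placeOfValuationSubring [IsAlgClosed K] [FF.IsFF1 K F] (V : ValuationSubring F)
    (hK : ∀ a : K, algebraMap K F a ∈ V) (hV : V ≠ ⊤) : Place K F where
  toValuationSubring := V
  algebraMap_mem' := hK
  ne_top' := hV
  isPrincipalIdealRing' := isPrincipalIdealRing V hK

end Fermat.Agent.S37.RegIntAux

namespace Fermat.Agent.S37

open AlgebraicCurve Fermat.Agent.S24

theorem regInt (K F : Type*) [Field K] [Field F] [Algebra K F] [IsAlgClosed K] [FF.IsFF1 K F] :
    RegInt K F := by
  intro x _ z hz
  by_contra hcon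
  have hz' : z ∉ (integralClosure (Algebra.adjoin K {x}) F).toSubring := hcon
  have : IsIntegrallyClosedIn (integralClosure (Algebra.adjoin K {x}) F).toSubring F :=
    inferInstanceAs (IsIntegrallyClosedIn (integralClosure (Algebra.adjoin K {x}) F) F)
  obtain ⟨V, hle, hV⟩ := Subring.exists_le_valuationSubring_of_isIntegrallyClosedIn hz'
  have hA : ∀ a ∈ Algebra.adjoin K {x}, a ∈ V := by
    intro a ha
    apply hle
    exact (integralClosure (Algebra.adjoin K {x}) F).algebraMap_mem ⟨a, ha⟩
  have hK : ∀ a : K, algebraMap K F a ∈ V := fun a => hA _ (Subalgebra.algebraMap_mem _ a)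
  have hne : V ≠ ⊤ := by
    rintro rfl
    exact hV (ValuationSubring.mem_top z)
  let v : Place K F := RegIntAux.placeOfValuationSubring V hK hne
  have hx : 0 ≤ v.ord x := FF.ord_nonneg_of_mem v (hA x (Algebra.self_mem_adjoin_singleton K x))
  exact hV (FF.mem_of_ord_nonneg v (hz v hx))

end Fermat.Agent.S37
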