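import Fermat.Agent.S37.Defs
import Fermat.Agent.GAL.KLStatement

/-!
# S37: the block-level statements (owner helper37)

Every `def ... : Prop` below is one BLOCK of the proof of S37.
`Fermat/Agent/S37/Main.lean` proves S37 from them.
-/

set_option autoImplicit false

noncomputable section

namespace Fermat.Agent.S37

open AlgebraicCurve ModularCurve Fermat.Agent.S24

/-- the arithmetic Galois action on the function field / its places -/
abbrev gal (N : ℕ) (σ : Kbar ≃ₐ[ℚ] Kbar) : SemilinearAut Kbar (FN N) :=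
  arithmeticGalois (modularFunctionFieldFull N) σ

variable (A : ValuationSubring Kbar) (N : ℕ)

/-- **Block R2**: the reduction of a place is invariant under inertia. -/
def RedInertia : Prop :=
  ∀ σ ∈ A.inertiaSubgroupIn ℚ, ∀ P : Pl N, red A N (gal N σ • P) = red A N P

/-- **Block R4**: Eichler-Shimura congruence on places:
`red_* (T_ℓ P) = red (φ P) + ℓ red (φ⁻¹ P)` for a Frobenius lift `φ`. -/
def RedHecke [NeZero N] (ℓ : ℕ) [NeZero ℓ] : Prop :=
  ∀ (hα : HeckeAlphaBarIntegral Kbar N ℓ) (hβ : HeckeBetaBarIntegral Kbar N ℓ)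
    [HasPrincipalDivisors Kbar (laurentBaseChange Kbar (modularFunctionFieldFull (N * ℓ)))]
    (φ : Kbar ≃ₐ[ℚ] Kbar), A.IsFrobeniusAt φ ℓ → ∀ P : Pl N,
      redDiv A N (heckeDivBar hα hβ (Finsupp.single P 1)) =
        Finsupp.single (red A N (gal N φ • P)) 1 +
          Finsupp.single (red A N (gal N φ⁻¹ • P)) (ℓ : ℤ)

/-- **Block C0**: a function whose divisor reduces to `0` is congruent to a constant
(for the Gauss valuation attached to `A`). -/
def RedConst : Prop :=
  ∀ (f : FN N), f ≠ 0 → ∀ D : Divisor Kbar (FN N), (∀ v, D v = v.ord f) → redDiv A N D = 0 →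
    ∃ (c : Kbar) (P Q : LaurentSeries A) (hP : coeffMap A.subtype P ∈ modularFunctionFieldBar N)
      (hQ : coeffMap A.subtype Q ∈ modularFunctionFieldBar N),
      c ≠ 0 ∧ rho A P = rho A Q ∧ rho A Q ≠ 0 ∧
        f = algebraMap Kbar (FN N) c *
          ((⟨coeffMap A.subtype P, hP⟩ : modularFunctionFieldBar N) / ⟨coeffMap A.subtype Q, hQ⟩)

/-- **R5** (follows from `RedConst` and `KL`): a divisor reducing to `0`, with a prime-to-`ℓ`
multiple principal, is principal. -/
def RedInj (ℓ : ℕ) : Prop :=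
  ∀ m : ℕ, ¬ ℓ ∣ m → ∀ D : Divisor Kbar (FN N), redDiv A N D = 0 →
    (m • D) ∈ Divisor.principal (K := Kbar) (F := FN N) →
      D ∈ Divisor.principal (K := Kbar) (F := FN N)

end Fermat.Agent.S37

end
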