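import Mathlib

/-!
# S37: separation lemma

Finitely many surjective ring homomorphisms `B → k` with distinct kernels are separated by elements
of `B`; equality of "characteristic polynomials" implies equality of multisets.
-/

set_option autoImplicit false

namespace Fermat.Agent.S37

open Polynomial

/-- comparison of the orders of vanishing at `0` -/
theorem Sep.pow_eq_of_forall {k : Type*} [Field k] [Infinite k] (a a' s s' : ℕ)
    (h : ∀ c : k, c ^ a * (c - 1) ^ s = c ^ a' * (c - 1) ^ s') : a = a' := by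
  have hP : (X : k[X]) ^ a * (X - 1) ^ s = X ^ a' * (X - 1) ^ s' := by
    apply Polynomial.funext
    intro c
    simpa using h c
  have hcop : IsCoprime (X : k[X]) (X - 1) := ⟨1, -1, by ring⟩
  have hX0 : (X : k[X]) ≠ 0 := X_ne_zero
  have hXu : ¬ IsUnit (X : k[X]) := not_isUnit_X
  apply le_antisymm
  · have h1 : (X : k[X]) ^ a ∣ X ^ a' * (X - 1) ^ s' := hP ▸ dvd_mul_right _ _
    exact (pow_dvd_pow_iff hX0 hXu).1 ((hcop.pow (m := a) (n := s')).dvd_of_dvd_mul_right h1)
  · have h1 : (X : k[X]) ^ a' ∣ X ^ a * (X - 1) ^ s := hP ▸ dvd_mul_right _ _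
    exact (pow_dvd_pow_iff hX0 hXu).1 ((hcop.pow (m := a') (n := s)).dvd_of_dvd_mul_right h1)

/-- an element killed by `e0` and mapped to `1` by finitely many other homomorphisms -/
theorem Sep.exists_sep {B k : Type*} [CommRing B] [Field k] (S : Set (B →+* k))
    (hsurj : ∀ e ∈ S, Function.Surjective e)
    (hker : ∀ e ∈ S, ∀ e' ∈ S, RingHom.ker e = RingHom.ker e' → e = e')
    (e0 : B →+* k) (he0 : e0 ∈ S) (T : Finset (B →+* k)) (hT : ∀ e ∈ T, e ∈ S ∧ e ≠ e0) :
    ∃ b : B, e0 b = 0 ∧ ∀ e ∈ T, e b = 1 := by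
  classical
  have h1 : ∀ e ∈ T, ∃ b : B, e0 b = 0 ∧ e b = 1 := by
    intro e he
    obtain ⟨heS, hne⟩ := hT e he
    have hmax0 : (RingHom.ker e0).IsMaximal := RingHom.ker_isMaximal_of_surjective e0 (hsurj e0 he0)
    have hnle : ¬ RingHom.ker e0 ≤ RingHom.ker e := by
      intro hle
      have := hmax0.eq_of_le (RingHom.ker_ne_top e) hle
      exact hne (hker e heS e0 he0 this.symm)
    obtain ⟨x, hx0, hx⟩ := SetLike.not_le_iff_exists.1 hnle
    have hx' : e x ≠ 0 := hx
    obtain ⟨u, hu⟩ := hsurj e heS (e x)⁻¹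
    refine ⟨x * u, ?_, ?_⟩
    · rw [map_mul, (RingHom.mem_ker).1 hx0, zero_mul]
    · rw [map_mul, hu, mul_inv_cancel₀ hx']
  choose! f hf0 hf1 using h1
  refine ⟨1 - ∏ e ∈ T, (1 - f e), ?_, ?_⟩
  · rw [map_sub, map_one, map_prod, sub_eq_zero]
    symm
    apply Finset.prod_eq_one
    intro e he
    rw [map_sub, map_one, hf0 e he, sub_zero]
  · intro e he
    rw [map_sub, map_one, map_prod, Finset.prod_eq_zero he, sub_zero]
    rw [map_sub, map_one, hf1 e he, sub_self]

theorem sep_lemma {B k : Type*} [CommRing B] [Field k] [Infinite k] (m m' : (B →+* k) →₀ ℕ)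
    (S : Set (B →+* k)) (hm : ∀ e, m e ≠ 0 → e ∈ S) (hm' : ∀ e, m' e ≠ 0 → e ∈ S)
    (hsurj : ∀ e ∈ S, Function.Surjective e)
    (hker : ∀ e ∈ S, ∀ e' ∈ S, RingHom.ker e = RingHom.ker e' → e = e')
    (h : ∀ (b : B) (c : k), m.prod (fun e n => (c - e b) ^ n) = m'.prod (fun e n => (c - e b) ^ n)) : m = m' := by
  classical
  ext e0
  by_cases he0 : e0 ∈ S
  swap
  · have h1 : m e0 = 0 := by
      by_contra hne
      exact he0 (hm e0 hne)
    have h2 : m' e0 = 0 := by
      by_contra hne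
      exact he0 (hm' e0 hne)
    rw [h1, h2]
  set T : Finset (B →+* k) := (m.support ∪ m'.support).erase e0 with hTdef
  have hT : ∀ e ∈ T, e ∈ S ∧ e ≠ e0 := by
    intro e he
    rw [hTdef, Finset.mem_erase, Finset.mem_union] at he
    refine ⟨?_, he.1⟩
    rcases he.2 with h1 | h1
    · exact hm e (Finsupp.mem_support_iff.1 h1)
    · exact hm' e (Finsupp.mem_support_iff.1 h1)
  obtain ⟨b, hb0, hb1⟩ := Sep.exists_sep S hsurj hker e0 he0 T hT
  have hnot : e0 ∉ T := by
    rw [hTdef]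
    exact Finset.notMem_erase _ _
  have hsub : ∀ μ : (B →+* k) →₀ ℕ, μ.support ⊆ m.support ∪ m'.support →
      ∀ c : k, μ.prod (fun e n => (c - e b) ^ n) = c ^ μ e0 * (c - 1) ^ (∑ e ∈ T, μ e) := by
    intro μ hμ c
    have hs : μ.support ⊆ insert e0 T := by
      intro e he
      by_cases hee : e = e0
      · rw [hee]
        exact Finset.mem_insert_self _ _
      · apply Finset.mem_insert_of_mem
        rw [hTdef]
        exact Finset.mem_erase.2 ⟨hee, hμ he⟩
    rw [Finsupp.prod_of_support_subset μ hs _ (fun _ _ => pow_zero _), Finset.prod_insert hnot,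
      hb0, sub_zero, ← Finset.prod_pow_eq_pow_sum]
    congr 1
    exact Finset.prod_congr rfl fun e he => by rw [hb1 e he]
  apply Sep.pow_eq_of_forall (k := k) _ _ (∑ e ∈ T, m e) (∑ e ∈ T, m' e)
  intro c
  rw [← hsub m Finset.subset_union_left c, ← hsub m' Finset.subset_union_right c]
  exact h b c

end Fermat.Agent.S37
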