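import Fermat.Agent.S37.Nodes
import Fermat.Agent.S27.Ev
import Fermat.Agent.S24.FFDeg
import Fermat.Agent.S24.Export.Ramification

/-!
# S37 / EV: the integrality principle, common core (owner helper247)

`core`: let `x` be a transcendental function, `Reg` a region (a set of places), `B` a ring of
functions with `A`-integral `q`-expansions taking `A`-integral values on the region.  A function with
`q`-expansion `≡ 0 mod 𝔪_A` which is regular on the region takes values in `𝔪_A` there.
-/

set_option autoImplicit false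
set_option linter.unusedSectionVars false

noncomputable section

namespace Fermat.Agent.S37.EV

open AlgebraicCurve ModularCurve Fermat.Agent.S24 Fermat.Agent.S24.FF Fermat.Agent.S27

section General

variable {K F : Type*} [Field K] [Field F] [Algebra K F]

theorem val_eq_ev (v : Place K F) (f : F) : val v f = ev v f := rfl

theorem val_eq_of_isVal {v : Place K F} {f : F} {c : K} (h : IsVal v f c) : val v f = c :=
  ev_eq_of_isVal h

theorem isVal_val [IsAlgClosed K] [IsFF1 K F] {v : Place K F} {f : F} (h : 0 ≤ v.ord f) :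
    IsVal v f (val v f) := isVal_ev h

theorem isVal_one (v : Place K F) : IsVal v (1 : F) (1 : K) := Or.inl (by simp)

theorem isVal_prod {ι : Type*} (s : Finset ι) {v : Place K F} {f : ι → F} {a : ι → K}
    (h : ∀ i ∈ s, IsVal v (f i) (a i)) : IsVal v (∏ i ∈ s, f i) (∏ i ∈ s, a i) := by
  classical
  induction s using Finset.induction_on with
  | empty => simpa using isVal_one v
  | insert i s hi ih =>
    rw [Finset.prod_insert hi, Finset.prod_insert hi]
    exact (h i (Finset.mem_insert_self i s)).mul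
      (ih fun j hj => h j (Finset.mem_insert_of_mem hj))

end General

section Series

variable {R S : Type*} [CommRing R] [CommRing S]

theorem coeffMap_injective {f : R →+* S} (hf : Function.Injective f) :
    Function.Injective (coeffMap f) := by
  intro x y h
  ext k
  apply hf
  have := congrArg (fun z => HahnSeries.coeff z k) h
  simpa using this

end Series

variable (A : ValuationSubring Kbar) (N : ℕ) [NeZero N]

theorem inv_mem_of_not_mem_nonunits {c : Kbar} (h : c ∉ A.nonunits) : c⁻¹ ∈ A := by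
  rw [ValuationSubring.mem_nonunits_iff, not_lt] at h
  rw [← ValuationSubring.valuation_le_one_iff, map_inv₀]
  exact inv_le_one_of_one_le₀ h

theorem mul_mem_nonunits {a b : Kbar} (ha : a ∈ A.nonunits) (hb : b ∈ A) : a * b ∈ A.nonunits := by
  rw [ValuationSubring.mem_nonunits_iff] at ha ⊢
  rw [← ValuationSubring.valuation_le_one_iff] at hb
  rw [map_mul]
  exact lt_of_le_of_lt (mul_le_of_le_one_right' hb) ha

theorem hasIntExp_mul {f g : FN N} {y z : LaurentSeries A} (hf : HasIntExp A N f y)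
    (hg : HasIntExp A N g z) : HasIntExp A N (f * g) (y * z) := by
  unfold HasIntExp at *
  rw [map_mul, hf, hg]
  rfl

theorem hasIntExp_const (d : A) :
    HasIntExp A N (algebraMap Kbar (FN N) (d : Kbar)) (HahnSeries.single 0 d) := by
  unfold HasIntExp
  rw [coeffMap_single]
  exact (algebraMap_laurentSeries_eq_single Kbar (d : Kbar)).symm

theorem hasIntExp_unique {f : FN N} {y z : LaurentSeries A} (hf : HasIntExp A N f y)
    (hg : HasIntExp A N f z) : y = z :=
  coeffMap_injective (f := A.subtype) Subtype.val_injective (hf.trans hg.symm)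

/-- **Common core of `EVFin` and `EVInf`.** -/
theorem core (x : FN N) (hx : Transcendental Kbar x) (Reg : Pl N → Prop)
    (B : Subring (FN N)) (hRB : Subring.closure (constSet A N ∪ {x}) ≤ B)
    (hB1 : ∀ b ∈ B, ∃ y : LaurentSeries A, HasIntExp A N b y)
    (hB2 : ∀ z : FN N, z ≠ 0 → IsIntegral (Algebra.adjoin Kbar {x}) z →
      ∃ (c : Kbar) (z' : FN N) (y : LaurentSeries A), c ≠ 0 ∧
        z = algebraMap Kbar (FN N) c * z' ∧ z' ∈ B ∧ HasIntExp A N z' y ∧ rho A y ≠ 0)
    (hR : RegInt Kbar (FN N))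
    (hreg : ∀ P : Pl N, Reg P → ∀ b ∈ B, 0 ≤ P.ord b ∧ val P b ∈ A)
    (hout : ∀ P' : Pl N, ¬ Reg P' → 0 ≤ P'.ord x → val P' x ≠ 0 ∧ (val P' x)⁻¹ ∈ A ∧
      ∀ P : Pl N, Reg P → val P x * (val P' x)⁻¹ ∈ A.nonunits)
    (c : FN N) (y : LaurentSeries A) (hcy : HasIntExp A N c y) (hy : rho A y = 0)
    (hcreg : ∀ P' : Pl N, Reg P' → 0 ≤ P'.ord c) (P : Pl N) (hP : Reg P) :
    val P c ∈ A.nonunits := by
  classical
  have hFF : IsFF1 Kbar (FN N) := Export.isFF1 N
  rcases eq_or_ne c 0 with rfl | hc0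
  · have : val P (0 : FN N) = 0 := val_eq_of_isVal (Or.inl (by simp))
    rw [this, ValuationSubring.mem_nonunits_iff]
    simp
  -- the bad places
  set T : Finset (Pl N) := (finite_ord_ne_zero c).toFinset.filter
    (fun v => v.ord c < 0 ∧ 0 ≤ v.ord x) with hT
  have hmemT : ∀ v : Pl N, v ∈ T ↔ v.ord c < 0 ∧ 0 ≤ v.ord x := by
    intro v
    rw [hT, Finset.mem_filter, Set.Finite.mem_toFinset]
    constructor
    · exact fun h => h.2
    · exact fun h => ⟨ne_of_lt h.1, h⟩
  have hTreg : ∀ v ∈ T, ¬ Reg v := by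
    intro v hv hr
    have := hcreg v hr
    have := ((hmemT v).mp hv).1
    omega
  set n : ℕ := ∑ v ∈ T, (-(v.ord c)).toNat with hn
  have hle : ∀ v ∈ T, -(v.ord c) ≤ n := by
    intro v hv
    have h1 : (-(v.ord c)).toNat ≤ n :=
      Finset.single_le_sum (f := fun v : Pl N => (-(v.ord c)).toNat) (fun _ _ => Nat.zero_le _) hv
    have h2 := Int.self_le_toNat (-(v.ord c))
    omega
  set fac : Pl N → FN N := fun v => 1 - x * algebraMap Kbar (FN N) (val v x)⁻¹ with hfac
  set g : FN N := ∏ v ∈ T, fac v ^ n with hg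
  have hxB : x ∈ Subring.closure (constSet A N ∪ {x}) :=
    Subring.subset_closure (Or.inr rfl)
  have hfac_mem : ∀ v ∈ T, fac v ∈ Subring.closure (constSet A N ∪ {x}) := by
    intro v hv
    refine sub_mem (one_mem _) (mul_mem hxB (Subring.subset_closure (Or.inl ?_)))
    exact ⟨_, (hout v (hTreg v hv) ((hmemT v).mp hv).2).2.1, rfl⟩
  have hgR : g ∈ Subring.closure (constSet A N ∪ {x}) :=
    Subring.prod_mem _ fun v hv => pow_mem (hfac_mem v hv) n
  have hfac_ne : ∀ v : Pl N, fac v ≠ 0 := by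
    intro v h0
    have h1 : x * algebraMap Kbar (FN N) (val v x)⁻¹ = 1 := (sub_eq_zero.mp h0).symm
    have hb : algebraMap Kbar (FN N) (val v x)⁻¹ ≠ 0 := right_ne_zero_of_mul_eq_one h1
    have h2 : x = algebraMap Kbar (FN N) ((val v x)⁻¹)⁻¹ := by
      rw [map_inv₀ (algebraMap Kbar (FN N)) (val v x)⁻¹]
      exact eq_inv_of_mul_eq_one_left h1
    exact hx (h2 ▸ isAlgebraic_algebraMap _)
  have hg0 : g ≠ 0 := Finset.prod_ne_zero_iff.mpr fun v _ => pow_ne_zero _ (hfac_ne v)
  -- values of the factors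
  have hfacval : ∀ (w v : Pl N), 0 ≤ w.ord x →
      IsVal w (fac v) (1 - val w x * (val v x)⁻¹) := by
    intro w v hw
    exact (isVal_one w).sub ((isVal_val hw).mul (isVal_algebraMap w _))
  have hgval : ∀ w : Pl N, 0 ≤ w.ord x →
      IsVal w g (∏ v ∈ T, (1 - val w x * (val v x)⁻¹) ^ n) := by
    intro w hw
    exact isVal_prod T fun v _ => (hfacval w v hw).pow n
  -- `g c` is regular wherever `x` is
  have hgc : ∀ v : Pl N, 0 ≤ v.ord x → 0 ≤ v.ord (g * c) := by
    intro v hv
    rw [v.ord_mul hg0 hc0]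
    have hgnn : 0 ≤ v.ord g := (hgval v hv).ord_nonneg
    by_cases hvc : 0 ≤ v.ord c
    · omega
    · have hvT : v ∈ T := (hmemT v).mpr ⟨by omega, hv⟩
      have hsplit : g = fac v ^ n * ∏ w ∈ T.erase v, fac w ^ n :=
        (Finset.mul_prod_erase T (fun w => fac w ^ n) hvT).symm
      have hrest : 0 ≤ v.ord (∏ w ∈ T.erase v, fac w ^ n) :=
        (isVal_prod (T.erase v) fun w _ => (hfacval v w hv).pow n).ord_nonneg
      have hrest0 : (∏ w ∈ T.erase v, fac w ^ n) ≠ 0 :=
        Finset.prod_ne_zero_iff.mpr fun w _ => pow_ne_zero _ (hfac_ne w)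
      have hpos : 0 < v.ord (fac v) := by
        have h1 := hfacval v v hv
        rw [mul_inv_cancel₀ (hout v (hTreg v hvT) hv).1, sub_self, isVal_zero_iff] at h1
        exact h1.resolve_left (hfac_ne v)
      have hordg : (n : ℤ) ≤ v.ord g := by
        rw [hsplit, v.ord_mul (pow_ne_zero _ (hfac_ne v)) hrest0, ord_pow]
        nlinarith
      have := hle v hvT
      omega
  have hint : IsIntegral (Algebra.adjoin Kbar {x}) (g * c) := hR x hx (g * c) hgc
  obtain ⟨c0, z', y', hc00, hz, hz'B, hz'y, hy'⟩ := hB2 (g * c) (mul_ne_zero hg0 hc0) hint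
  obtain ⟨yg, hyg⟩ := hB1 g (hRB hgR)
  -- the constant is in the maximal ideal
  have hc0m : c0 ∈ A.nonunits := by
    by_contra hcon
    have hinv := inv_mem_of_not_mem_nonunits A hcon
    have hz'2 : z' = algebraMap Kbar (FN N) ((⟨c0⁻¹, hinv⟩ : A) : Kbar) * (g * c) := by
      rw [hz, ← mul_assoc, ← map_mul]
      simp [inv_mul_cancel₀ hc00]
    have h1 : HasIntExp A N z' (HahnSeries.single 0 (⟨c0⁻¹, hinv⟩ : A) * (yg * y)) := by
      rw [hz'2]
      exact hasIntExp_mul A N (hasIntExp_const A N _) (hasIntExp_mul A N hyg hcy)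
    have h2 := hasIntExp_unique A N hz'y h1
    apply hy'
    have hy0 : coeffMap (IsLocalRing.residue A) y = 0 := hy
    show coeffMap (IsLocalRing.residue A) y' = 0
    rw [h2, map_mul, map_mul, hy0, mul_zero, mul_zero]
  -- values at `P`
  have hPx : 0 ≤ P.ord x := (hreg P hP x (hRB hxB)).1
  obtain ⟨hz'ord, hz'val⟩ := hreg P hP z' hz'B
  have hv1 : IsVal P (g * c) (c0 * val P z') := by
    rw [hz]
    exact (isVal_algebraMap P c0).mul (isVal_val hz'ord)
  have hv2 : IsVal P (g * c) ((∏ v ∈ T, (1 - val P x * (val v x)⁻¹) ^ n) * val P c) :=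
    (hgval P hPx).mul (isVal_val (hcreg P hP))
  have heq := hv2.unique hv1
  have hu : A.valuation (∏ v ∈ T, (1 - val P x * (val v x)⁻¹) ^ n) = 1 := by
    rw [map_prod]
    apply Finset.prod_eq_one
    intro v hv
    rw [map_pow]
    have hm := (hout v (hTreg v hv) ((hmemT v).mp hv).2).2.2 P hP
    rw [ValuationSubring.mem_nonunits_iff] at hm
    rw [Valuation.map_one_sub_of_lt _ hm, one_pow]
  have hfin := mul_mem_nonunits A hc0m hz'val
  rw [← heq, ValuationSubring.mem_nonunits_iff, map_mul, hu, one_mul] at hfin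
  exact (ValuationSubring.mem_nonunits_iff A).mpr hfin

end Fermat.Agent.S37.EV

end
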