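/-
S37, node ConjNorm (task 550, owner helper106).
The norm of `α b = b(q)` from level `N ℓ` down to `β (FN N) = {c(q^ℓ)}`.

The embedding `τ₀` of `GAL/E/Embed.lean` (`α x ↦ x(t^(N ℓ))`, `β x ↦ x(t^N)`) descends along
`f(q) ↦ f(q^N)` to the Atkin-Lehner involution `W` of `FN (N ℓ)`, which exchanges `α` and `β`.
Hence `Norm_β (α b) = Norm_α (W (α b)) = Norm_α (β b)`, whose `q`-expansion is computed in
`GAL/E/QExp.lean`.
-/
import Fermat.Agent.S37.Nodes
import Fermat.Agent.GAL.E.QExp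

set_option autoImplicit false

noncomputable section

namespace Fermat.Agent.S37

open AlgebraicCurve ModularCurve Fermat.Agent.S24 Fermat.Agent.S24.B Fermat.Agent.GAL.E

namespace AtkinLehner

/-- transport of the norm along an automorphism exchanging two embeddings -/
theorem norm_toAlgebra_eq {F E : Type*} [Field F] [Field E] (a b : F →+* E) (W : E ≃+* E)
    (h : ∀ x, W (b x) = a x) (y : E) :
    @Algebra.norm F E _ _ b.toAlgebra y = @Algebra.norm F E _ _ a.toAlgebra (W y) := by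
  have key := @Algebra.norm_eq_of_equiv_equiv F E F E _ _ _ _ b.toAlgebra a.toAlgebra
    (RingEquiv.refl F) W (by
      ext x
      exact (h x).symm) y
  rw [key]
  rfl

variable (N ℓ : ℕ) [NeZero N] [NeZero ℓ]

/-- every generator of `FN (N ℓ)` comes from level `N` through `α` or `β` -/
theorem JF_eq_alpha_or_beta (hℓ : ℓ.Prime) (d : ℕ) [NeZero d] (hd : d ∣ N * ℓ) :
    (∃ x : FN N, JF (N * ℓ) d hd = heckeAlphaBar Kbar N ℓ x) ∨
      (∃ x : FN N, JF (N * ℓ) d hd = heckeBetaBar Kbar N ℓ x) := by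
  by_cases hc : Nat.Coprime d ℓ
  · left
    have hdN : d ∣ N := hc.dvd_of_dvd_mul_right hd
    exact ⟨JF N d hdN, (heckeAlphaBar_JF N ℓ d hdN).symm⟩
  · right
    have hℓd : ℓ ∣ d := by
      by_contra h
      exact hc ((Nat.Prime.coprime_iff_not_dvd hℓ).2 h).symm
    obtain ⟨d', rfl⟩ := hℓd
    have hd'0 : d' ≠ 0 := by
      rintro rfl
      exact NeZero.ne (ℓ * 0) (mul_zero ℓ)
    have : NeZero d' := ⟨hd'0⟩
    have hd'N : d' ∣ N := by
      rw [mul_comm N ℓ] at hd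
      exact Nat.dvd_of_mul_dvd_mul_left hℓ.pos hd
    exact ⟨JF N d' hd'N, (heckeBetaBar_JF N ℓ d' hd'N).symm⟩

/-- induction principle: `FN (N ℓ)` is generated by `α (FN N)` and `β (FN N)` -/
theorem induction_alpha_beta (hℓ : ℓ.Prime) {P : FN (N * ℓ) → Prop}
    (hα : ∀ x : FN N, P (heckeAlphaBar Kbar N ℓ x)) (hβ : ∀ x : FN N, P (heckeBetaBar Kbar N ℓ x))
    (hadd : ∀ f g, P f → P g → P (f + g)) (hneg : ∀ f, P f → P (-f))
    (hmul : ∀ f g, P f → P g → P (f * g)) (hinv : ∀ f, P f → P f⁻¹) (f : FN (N * ℓ)) : P f := by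
  refine FN_induction (P := P) ?_ ?_ hadd hneg hmul hinv f
  · intro d _ hd
    rcases JF_eq_alpha_or_beta N ℓ hℓ d hd with ⟨x, hx⟩ | ⟨x, hx⟩
    · rw [hx]; exact hα x
    · rw [hx]; exact hβ x
  · intro c
    rw [← (heckeAlphaBar Kbar N ℓ).commutes c]
    exact hα _

/-- two ring homomorphisms on `FN (N ℓ)` which agree on `α (FN N)` and `β (FN N)` are equal -/
theorem ringHom_ext_alpha_beta (hℓ : ℓ.Prime) {R : Type*} [Field R] (φ₁ φ₂ : FN (N * ℓ) →+* R)
    (hα : ∀ x : FN N, φ₁ (heckeAlphaBar Kbar N ℓ x) = φ₂ (heckeAlphaBar Kbar N ℓ x))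
    (hβ : ∀ x : FN N, φ₁ (heckeBetaBar Kbar N ℓ x) = φ₂ (heckeBetaBar Kbar N ℓ x)) : φ₁ = φ₂ := by
  refine RingHom.ext fun f => ?_
  refine induction_alpha_beta N ℓ hℓ (P := fun f => φ₁ f = φ₂ f) hα hβ ?_ ?_ ?_ ?_ f
  · intro f g hf hg
    rw [map_add, map_add, hf, hg]
  · intro f hf
    rw [map_neg, map_neg, hf]
  · intro f g hf hg
    rw [map_mul, map_mul, hf, hg]
  · intro f hf
    rw [map_inv₀, map_inv₀, hf]

/-- a ring homomorphism into Laurent series whose values are of the form `z(q^N)`, `z ∈ FN M`,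
descends to `FN M` -/
theorem exists_descent (M m : ℕ) [NeZero m] (τ : FN M →+* LaurentSeries Kbar)
    (h : ∀ y, ∃ z : FN M, qExpand Kbar m (z : LaurentSeries Kbar) = τ y) :
    ∃ W : FN M →+* FN M, ∀ y, qExpand Kbar m ((W y : FN M) : LaurentSeries Kbar) = τ y := by
  choose w hw using h
  have inj : ∀ a b : FN M, qExpand Kbar m (a : LaurentSeries Kbar) =
      qExpand Kbar m (b : LaurentSeries Kbar) → a = b := fun a b hab =>
    Subtype.ext (ModularCurve.qExpand_injective m hab)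
  refine ⟨{ toFun := w
            map_one' := inj _ _ (by rw [hw, map_one]; exact (map_one _).symm)
            map_mul' := fun a b => inj _ _ (by
              rw [hw, map_mul, ← hw a, ← hw b]; exact (map_mul _ _ _).symm)
            map_zero' := inj _ _ (by rw [hw, map_zero]; exact (map_zero _).symm)
            map_add' := fun a b => inj _ _ (by
              rw [hw, map_add, ← hw a, ← hw b]; exact (map_add _ _ _).symm) }, hw⟩

/-- **The Atkin-Lehner involution** `W_ℓ` of `FN (N ℓ)`: it exchanges `α` and `β`. -/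
theorem exists_involution (hℓ : ℓ.Prime) (hℓN : ¬ ℓ ∣ N) :
    ∃ W : FN (N * ℓ) ≃+* FN (N * ℓ),
      (∀ x : FN N, W (heckeAlphaBar Kbar N ℓ x) = heckeBetaBar Kbar N ℓ x) ∧
      (∀ x : FN N, W (heckeBetaBar Kbar N ℓ x) = heckeAlphaBar Kbar N ℓ x) := by
  have hcop : Nat.Coprime ℓ N := (Nat.Prime.coprime_iff_not_dvd hℓ).2 hℓN
  obtain ⟨τ, hτα, hτβ⟩ := exists_embedding N ℓ hcop 0
  have hτβ' : ∀ x : FN N, τ (heckeBetaBar Kbar N ℓ x) = qExpand Kbar N (x : LaurentSeries Kbar) := by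
    intro x
    rw [hτβ, pow_zero, twist_one]
  have hτα' : ∀ x : FN N, τ (heckeAlphaBar Kbar N ℓ x) =
      qExpand Kbar N ((heckeBetaBar Kbar N ℓ x : FN (N * ℓ)) : LaurentSeries Kbar) := by
    intro x
    rw [hτα, coe_heckeBetaBar, ModularCurve.qExpand_qExpand]
  have hex : ∀ y, ∃ z : FN (N * ℓ), qExpand Kbar N (z : LaurentSeries Kbar) = τ y := by
    intro y
    refine induction_alpha_beta N ℓ hℓ
      (P := fun y => ∃ z : FN (N * ℓ), qExpand Kbar N (z : LaurentSeries Kbar) = τ y)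
      ?_ ?_ ?_ ?_ ?_ ?_ y
    · intro x
      exact ⟨heckeBetaBar Kbar N ℓ x, (hτα' x).symm⟩
    · intro x
      exact ⟨heckeAlphaBar Kbar N ℓ x, by rw [hτβ', coe_heckeAlphaBar]⟩
    · rintro f g ⟨a, ha⟩ ⟨b, hb⟩
      exact ⟨a + b, by rw [map_add, ← ha, ← hb]; exact map_add _ _ _⟩
    · rintro f ⟨a, ha⟩
      exact ⟨-a, by rw [map_neg, ← ha]; exact map_neg _ _⟩
    · rintro f g ⟨a, ha⟩ ⟨b, hb⟩
      exact ⟨a * b, by rw [map_mul, ← ha, ← hb]; exact map_mul _ _ _⟩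
    · rintro f ⟨a, ha⟩
      exact ⟨a⁻¹, by rw [map_inv₀, ← ha]; exact map_inv₀ _ _⟩
  obtain ⟨W, hW⟩ := exists_descent (N * ℓ) N τ hex
  have hWα : ∀ x : FN N, W (heckeAlphaBar Kbar N ℓ x) = heckeBetaBar Kbar N ℓ x := by
    intro x
    apply Subtype.ext
    apply ModularCurve.qExpand_injective (R := Kbar) N
    rw [hW, hτα']
  have hWβ : ∀ x : FN N, W (heckeBetaBar Kbar N ℓ x) = heckeAlphaBar Kbar N ℓ x := by
    intro x
    apply Subtype.ext
    apply ModularCurve.qExpand_injective (R := Kbar) N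
    rw [hW, hτβ', coe_heckeAlphaBar]
  have hWW : W.comp W = RingHom.id _ := by
    refine ringHom_ext_alpha_beta N ℓ hℓ _ _ ?_ ?_
    · intro x
      rw [RingHom.comp_apply, hWα, hWβ, RingHom.id_apply]
    · intro x
      rw [RingHom.comp_apply, hWβ, hWα, RingHom.id_apply]
  exact ⟨RingEquiv.ofRingHom W W hWW hWW, hWα, hWβ⟩

/-- the two multiplicative Hecke operators coincide: `Norm_β ∘ α = Norm_α ∘ β`. -/
theorem norm_beta_alpha (hℓ : ℓ.Prime) (hℓN : ¬ ℓ ∣ N) (b : FN N) :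
    @Algebra.norm (FN N) (FN (N * ℓ)) _ _ (algebraAlong (heckeBetaBar Kbar N ℓ))
      (heckeAlphaBar Kbar N ℓ b) = heckeF N ℓ b := by
  obtain ⟨W, hWα, hWβ⟩ := exists_involution N ℓ hℓ hℓN
  rw [QExp.heckeF_apply, ← hWα b]
  exact norm_toAlgebra_eq (heckeAlphaBar Kbar N ℓ).toRingHom (heckeBetaBar Kbar N ℓ).toRingHom W
    hWβ _

end AtkinLehner

/-- **ConjNorm**, for a prime `ℓ ∤ N`. -/
theorem conjNorm_of_prime (N ℓ : ℕ) [NeZero N] [NeZero ℓ] (hℓ : ℓ.Prime) (hℓN : ¬ ℓ ∣ N) :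
    ConjNorm N ℓ := by
  intro ζ hζ b
  show qExpand Kbar ℓ ((@Algebra.norm (FN N) (FN (N * ℓ)) _ _
      (algebraAlong (heckeBetaBar Kbar N ℓ)) (heckeAlphaBar Kbar N ℓ b) : FN N) :
        LaurentSeries Kbar) = _
  rw [AtkinLehner.norm_beta_alpha N ℓ hℓ hℓN b, qExpand_heckeF N ℓ hℓ hℓN b,
    ModularCurve.qExpand_congr (sq ℓ).symm,
    HeckeBasic.prod_pow_eq hζ (isPrimitiveRoot_zetaK ℓ)
      (fun z => twist z (b : LaurentSeries Kbar))]

/-- task S37-ConjNorm -/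
theorem conjNorm (N : ℕ) [NeZero N] (ℓ : ℕ) [Fact ℓ.Prime] (hℓN : ¬ ℓ ∣ N) :
    haveI : NeZero ℓ := ⟨(Fact.out : ℓ.Prime).ne_zero⟩
    ConjNorm N ℓ :=
  haveI : NeZero ℓ := ⟨(Fact.out : ℓ.Prime).ne_zero⟩
  conjNorm_of_prime N ℓ Fact.out hℓN

end Fermat.Agent.S37

end
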