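import Fermat.Agent.S37.EVComp
import Fermat.Agent.S24.Formal

/-!
# S37 / EVFin: the integrality principle on the finite region (owner helper247)
-/

set_option autoImplicit false
set_option linter.unusedSectionVars false

noncomputable section

namespace Fermat.Agent.S37

open AlgebraicCurve ModularCurve Fermat.Agent.S24 Fermat.Agent.S24.FF Fermat.Agent.S27

namespace EV

theorem le_integralClosure_toSubring {F : Type*} [Field F] (R : Subring F) :
    R ≤ (integralClosure R F).toSubring := fun r hr =>
  (isIntegral_algebraMap (R := R) (A := F) (x := ⟨r, hr⟩) : IsIntegral R r)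

end EV

variable (A : ValuationSubring Kbar) (N : ℕ) [NeZero N]

/-- **EV (finite region)**. -/
theorem evFin (hQ : QAFin A N) (hR : RegInt Kbar (FN N)) : EVFin A N := by
  have hFF : IsFF1 Kbar (FN N) := Export.isFF1 N
  intro c y hcy hy hcreg P hP
  refine EV.core A N (jF N) (Formal.transcendental_jF N) (InFin A N) (BFin A N)
    (EV.le_integralClosure_toSubring (RFin A N)) hQ.1 hQ.2 hR (EV.reg_BFin A N) ?_
    c y hcy hy hcreg P hP
  intro P' hP' hord
  have hA : val P' (jF N) ∉ A := fun hA => hP' ⟨hord, hA⟩
  have h0 : val P' (jF N) ≠ 0 := fun h0 => hA (h0 ▸ zero_mem A)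
  have hm : (val P' (jF N))⁻¹ ∈ A.nonunits := by
    rw [ValuationSubring.mem_nonunits_iff, map_inv₀]
    rw [← ValuationSubring.valuation_le_one_iff, not_le] at hA
    exact inv_lt_one_of_one_lt₀ hA
  refine ⟨h0, A.nonunits_subset hm, fun Q hQ' => ?_⟩
  rw [mul_comm]
  exact EV.mul_mem_nonunits A hm hQ'.2

end Fermat.Agent.S37

end
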