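import Fermat.Agent.S37.EVFin

/-!
# S37 / EVInf: the integrality principle on the region at infinity (owner helper247)
-/

set_option autoImplicit false
set_option linter.unusedSectionVars false

noncomputable section

namespace Fermat.Agent.S37

open AlgebraicCurve ModularCurve Fermat.Agent.S24 Fermat.Agent.S24.FF Fermat.Agent.S27

variable (A : ValuationSubring Kbar) (N : ℕ) [NeZero N]

/-- **EV (region at infinity)**. -/
theorem evInf (hQ : QAInf A N) (hR : RegInt Kbar (FN N)) : EVInf A N := by
  have hFF : IsFF1 Kbar (FN N) := Export.isFF1 N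
  intro c y hcy hy hcreg P hP
  have hj := Formal.transcendental_jF N
  have hj0 : jF N ≠ 0 := fun h => hj (h ▸ isAlgebraic_zero)
  refine EV.core A N (jF N)⁻¹ (transcendental_inv hj) (fun P => ¬ InFin A N P) (BInf A N)
    (EV.le_integralClosure_toSubring (RInf A N)) hQ.1 hQ.2 hR (EV.reg_BInf A N) ?_
    c y hcy hy hcreg P hP
  intro P' hP' hord
  have hP'' : InFin A N P' := not_not.mp hP'
  have hord0 : P'.ord (jF N) = 0 := by
    have h1 := hP''.1
    rw [P'.ord_inv] at hord
    omega
  have hv0 : val P' (jF N) ≠ 0 := ev_ne_zero_of_ord_eq_zero hj0 hord0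
  have hinv : val P' (jF N)⁻¹ = (val P' (jF N))⁻¹ := ev_inv hj0 hord0
  rw [hinv, inv_inv]
  exact ⟨inv_ne_zero hv0, hP''.2, fun Q hQ' =>
    EV.mul_mem_nonunits A (EV.inv_of_not_inFin A N Q hQ').2 hP''.2⟩

end Fermat.Agent.S37

end
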