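import Fermat.Agent.S37.QA.Common

/-!
# S37-QAInf: the `q`-expansion principle over `A`, chart at infinity (owner helper133)
-/

set_option autoImplicit false

noncomputable section

namespace Fermat.Agent.S37

open ModularCurve Fermat.Agent.S24 ModularCurve.IgusaScheme

theorem qaInf (A : ValuationSubring Kbar) (N : ℕ) [NeZero N] (ℓ : ℕ) [Fact ℓ.Prime]
    (hA : A.LiesOverPrime ℓ) (h : Fermat.Agent.S28.QEP N ℓ (chartAlgInf N ℓ)) :
    QAInf A N :=
  QA.qa_common A N ℓ hA (jFull N)⁻¹ (jF N)⁻¹ (by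
    show (Jser 1)⁻¹ = coeffEmb QA.Kb (jq⁻¹)
    rw [Jser, qExpand_one_apply, map_inv₀]) h

end Fermat.Agent.S37

end
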