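import Fermat.Agent.S37.Nodes
import Fermat.Agent.S05.Inertia
import Fermat.Agent.S24.Export.Ramification

/-!
# S37, block R2: the reduction of a place is invariant under inertia (owner helper217)

The file is self-contained: the few facts on `val` which are needed are proved here
(names prefixed by `ri`), so that it only depends on `Nodes.lean`, `S05/Inertia.lean`
and the S24 export `isFF1`.
-/

set_option autoImplicit false

noncomputable section

namespace Fermat.Agent.S37

open AlgebraicCurve ModularCurve Fermat.Agent.S24 Fermat.Agent.S24.FF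

/-! ## values of functions at places -/

section ValAPI

variable {K F : Type*} [Field K] [Field F] [Algebra K F] (v : Place K F)

/-- `x` vanishes at `v` -/
def riVan (x : F) : Prop := x = 0 ∨ 0 < v.ord x

variable {v}

theorem riVan_zero : riVan v 0 := Or.inl rfl

theorem riVan.reg {x : F} (h : riVan v x) : 0 ≤ v.ord x := by
  rcases h with rfl | h
  · simp
  · exact h.le

theorem riVan.add {x y : F} (hx : riVan v x) (hy : riVan v y) : riVan v (x + y) := by
  rcases hx with rfl | hx
  · simpa using hy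
  rcases hy with rfl | hy
  · rw [add_zero]; exact Or.inr hx
  by_cases h : x + y = 0
  · exact Or.inl h
  · exact Or.inr (lt_of_lt_of_le (lt_min hx hy) (min_ord_le_ord_add v h))

theorem riVan.neg {x : F} (hx : riVan v x) : riVan v (-x) := by
  rcases hx with rfl | hx
  · simpa using riVan_zero
  · exact Or.inr (by rwa [ord_neg])

theorem riVan.mul {x y : F} (hx : riVan v x) (hy : 0 ≤ v.ord y) : riVan v (x * y) := by
  rcases hx with rfl | hx
  · simpa using riVan_zero
  rcases eq_or_ne y 0 with rfl | hy0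
  · simpa using riVan_zero
  have hx0 : x ≠ 0 := ne_zero_of_ord_ne_zero v hx.ne'
  exact Or.inr (by rw [v.ord_mul hx0 hy0]; omega)

theorem riVan_sub_iff {f : F} {c : K} :
    riVan v (f - algebraMap K F c) ↔
      (f = algebraMap K F c ∨ 0 < v.ord (f - algebraMap K F c)) := by
  unfold riVan
  rw [sub_eq_zero]

theorem riVan_algebraMap_iff {c : K} : riVan v (algebraMap K F c) ↔ c = 0 := by
  constructor
  · rintro (h | h)
    · simpa using h
    · rw [ord_algebraMap] at h
      exact absurd h (lt_irrefl _)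
  · rintro rfl
    simpa using riVan_zero

theorem riVal_eq_of {f : F} {c : K} (h : riVan v (f - algebraMap K F c)) : val v f = c := by
  have hex : ∃ c : K, f = algebraMap K F c ∨ 0 < v.ord (f - algebraMap K F c) :=
    ⟨c, riVan_sub_iff.mp h⟩
  unfold val
  rw [dif_pos hex]
  have h' : riVan v (f - algebraMap K F hex.choose) := riVan_sub_iff.mpr hex.choose_spec
  have h2 : riVan v (algebraMap K F (hex.choose - c)) := by
    have := h.add h'.neg
    have e : f - algebraMap K F c + -(f - algebraMap K F hex.choose)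
        = algebraMap K F (hex.choose - c) := by
      rw [map_sub]; ring
    rwa [e] at this
  exact sub_eq_zero.mp (riVan_algebraMap_iff.mp h2)

theorem riVal_algebraMap (c : K) : val v (algebraMap K F c) = c :=
  riVal_eq_of (by rw [sub_self]; exact riVan_zero)

theorem riVal_smul (g : SemilinearAut K F) (f : F) :
    val (g • v) (g • f) = SemilinearAut.baseAut g (val v f) := by
  have key : ∀ c : K, (g • f = algebraMap K F (SemilinearAut.baseAut g c) ∨
      0 < (g • v).ord (g • f - algebraMap K F (SemilinearAut.baseAut g c))) ↔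
      (f = algebraMap K F c ∨ 0 < v.ord (f - algebraMap K F c)) := by
    intro c
    rw [← SemilinearAut.smul_algebraMap, ← smul_sub, SemilinearAut.ord_smul,
      smul_left_cancel_iff]
  by_cases hex : ∃ c : K, f = algebraMap K F c ∨ 0 < v.ord (f - algebraMap K F c)
  · obtain ⟨c, hc⟩ := hex
    rw [riVal_eq_of (riVan_sub_iff.mpr hc), riVal_eq_of (riVan_sub_iff.mpr ((key c).mpr hc))]
  · have hex' : ¬ ∃ c : K, g • f = algebraMap K F c ∨
        0 < (g • v).ord (g • f - algebraMap K F c) := by
      rintro ⟨c, hc⟩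
      apply hex
      refine ⟨(SemilinearAut.baseAut g).symm c, (key _).mp ?_⟩
      rwa [RingEquiv.apply_symm_apply]
    unfold val
    rw [dif_neg hex, dif_neg hex', map_zero]

variable [IsAlgClosed K] [IsFF1 K F]

theorem riVal_spec {f : F} (h : 0 ≤ v.ord f) : riVan v (f - algebraMap K F (val v f)) := by
  have hex := exists_const_of_ord_nonneg v h
  unfold val
  rw [dif_pos hex]
  exact riVan_sub_iff.mpr hex.choose_spec

theorem riVal_add {f g : F} (hf : 0 ≤ v.ord f) (hg : 0 ≤ v.ord g) :
    val v (f + g) = val v f + val v g := by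
  apply riVal_eq_of
  have := (riVal_spec hf).add (riVal_spec hg)
  have e : f - algebraMap K F (val v f) + (g - algebraMap K F (val v g))
      = f + g - algebraMap K F (val v f + val v g) := by
    rw [map_add]; ring
  rwa [e] at this

theorem riVal_neg {f : F} (hf : 0 ≤ v.ord f) : val v (-f) = - val v f := by
  apply riVal_eq_of
  have := (riVal_spec hf).neg
  have e : -(f - algebraMap K F (val v f)) = -f - algebraMap K F (-val v f) := by
    rw [map_neg]; ring
  rwa [e] at this

theorem riVal_sub {f g : F} (hf : 0 ≤ v.ord f) (hg : 0 ≤ v.ord g) :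
    val v (f - g) = val v f - val v g := by
  rw [sub_eq_add_neg, riVal_add hf (by rwa [ord_neg]), riVal_neg hg, sub_eq_add_neg]

theorem riVal_mul {f g : F} (hf : 0 ≤ v.ord f) (hg : 0 ≤ v.ord g) :
    val v (f * g) = val v f * val v g := by
  apply riVal_eq_of
  have h1 := (riVal_spec hf).mul hg
  have h2 := (riVal_spec hg).mul (y := algebraMap K F (val v f)) (by rw [ord_algebraMap])
  have := h1.add h2
  have e : (f - algebraMap K F (val v f)) * g
      + (g - algebraMap K F (val v g)) * algebraMap K F (val v f)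
      = f * g - algebraMap K F (val v f * val v g) := by
    rw [map_mul]; ring
  rwa [e] at this

omit [IsAlgClosed K] [IsFF1 K F] in
theorem riVal_of_pos {f : F} (hf : 0 < v.ord f) : val v f = 0 :=
  riVal_eq_of (by rw [map_zero, sub_zero]; exact Or.inr hf)

theorem riVal_inv {f : F} (hf0 : f ≠ 0) (hf : v.ord f = 0) : val v f⁻¹ = (val v f)⁻¹ := by
  have hc : val v f ≠ 0 := by
    intro h0
    have := riVal_spec (v := v) (f := f) hf.ge
    rw [h0, map_zero, sub_zero] at this
    rcases this with h | h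
    · exact hf0 h
    · omega
  apply riVal_eq_of
  have hc' : algebraMap K F (val v f) ≠ 0 := by simpa using hc
  have h1 := ((riVal_spec (v := v) (f := f) hf.ge).neg).mul
    (y := f⁻¹ * algebraMap K F (val v f)⁻¹) (by
      rw [v.ord_mul (inv_ne_zero hf0) (by simpa using hc), v.ord_inv, hf, ord_algebraMap]
      simp)
  have e : -(f - algebraMap K F (val v f)) * (f⁻¹ * algebraMap K F (val v f)⁻¹)
      = f⁻¹ - algebraMap K F (val v f)⁻¹ := by
    rw [map_inv₀]
    field_simp
    ring
  rwa [e] at h1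

end ValAPI

theorem ri_mem_of_isIntegral {F : Type*} [Field F] (O : ValuationSubring F) (R : Subring F)
    (hR : ∀ a ∈ R, a ∈ O) {b : F} (hb : IsIntegral R b) : b ∈ O := by
  let _ : Algebra R O :=
    ((algebraMap R F).codRestrict O.toSubring (fun a => hR a a.2)).toAlgebra
  have : IsScalarTower R O F := IsScalarTower.of_algebraMap_eq fun f => rfl
  have hx : IsIntegral O b := hb.tower_top
  obtain ⟨y, hy⟩ := IsIntegrallyClosed.isIntegral_iff.mp hx
  exact hy ▸ y.2

/-- integrality is transported by a ring endomorphism stabilising the base ring -/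
theorem ri_isIntegral_map {F : Type*} [Field F] (R : Subring F) (ψ : F →+* F)
    (hR : ∀ a ∈ R, ψ a ∈ R) {b : F} (hb : IsIntegral R b) : IsIntegral R (ψ b) := by
  let φ : R →+* R := (ψ.comp R.subtype).codRestrict R (fun a => hR a a.2)
  exact IsIntegral.map_of_comp_eq φ ψ (RingHom.ext fun a => rfl) hb

/-! ## the composite valuation ring -/

section Comp

variable {K F : Type*} [Field K] [Field F] [Algebra K F] [IsAlgClosed K] [IsFF1 K F]

/-- the composite of the valuation ring of `v` with `A`: functions regular at `v` with value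
in `A`. -/
def riComp (A : ValuationSubring K) (v : Place K F) : ValuationSubring F where
  carrier := {f | 0 ≤ v.ord f ∧ val v f ∈ A}
  mul_mem' := by
    rintro f g ⟨hf, hf'⟩ ⟨hg, hg'⟩
    refine ⟨ord_nonneg_of_mem v (mul_mem (mem_of_ord_nonneg v hf) (mem_of_ord_nonneg v hg)), ?_⟩
    rw [riVal_mul hf hg]
    exact mul_mem hf' hg'
  one_mem' := by
    refine ⟨by rw [v.ord_one], ?_⟩
    have := riVal_algebraMap (v := v) (1 : K)
    rw [map_one] at this
    rw [this]
    exact one_mem A
  add_mem' := by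
    rintro f g ⟨hf, hf'⟩ ⟨hg, hg'⟩
    refine ⟨ord_nonneg_of_mem v (add_mem (mem_of_ord_nonneg v hf) (mem_of_ord_nonneg v hg)), ?_⟩
    rw [riVal_add hf hg]
    exact add_mem hf' hg'
  zero_mem' := by
    refine ⟨by simp, ?_⟩
    have := riVal_algebraMap (v := v) (0 : K)
    rw [map_zero] at this
    rw [this]
    exact zero_mem A
  neg_mem' := by
    rintro f ⟨hf, hf'⟩
    refine ⟨by rwa [ord_neg], ?_⟩
    rw [riVal_neg hf]
    exact neg_mem hf'
  mem_or_inv_mem' := by
    intro f
    rcases eq_or_ne f 0 with rfl | hf0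
    · left
      refine ⟨by simp, ?_⟩
      have := riVal_algebraMap (v := v) (0 : K)
      rw [map_zero] at this
      rw [this]
      exact zero_mem A
    rcases lt_trichotomy (v.ord f) 0 with h | h | h
    · right
      have h' : 0 < v.ord f⁻¹ := by rw [v.ord_inv]; omega
      exact ⟨h'.le, by rw [riVal_of_pos h']; exact zero_mem A⟩
    · rcases A.mem_or_inv_mem (val v f) with h1 | h1
      · exact Or.inl ⟨h.ge, h1⟩
      · right
        refine ⟨by rw [v.ord_inv, h]; simp, ?_⟩
        rw [riVal_inv hf0 h]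
        exact h1
    · left
      exact ⟨h.le, by rw [riVal_of_pos h]; exact zero_mem A⟩

theorem mem_riComp {A : ValuationSubring K} {v : Place K F} {f : F} :
    f ∈ riComp A v ↔ 0 ≤ v.ord f ∧ val v f ∈ A := Iff.rfl

end Comp

/-! ## residues -/

section Res

variable (A : ValuationSubring Kbar)

theorem ri_resA_eq {x y : Kbar} (hx : x ∈ A) (hy : y ∈ A) (h : x - y ∈ A.nonunits) :
    resA A x = resA A y := by
  unfold resA
  rw [dif_pos hx, dif_pos hy, ← sub_eq_zero, ← map_sub, IsLocalRing.residue_eq_zero_iff,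
    ValuationSubring.valuation_lt_one_iff]
  exact A.mem_nonunits_iff.mp h

end Res

/-! ## the Galois action -/

section Gal

variable (A : ValuationSubring Kbar) (N : ℕ)

theorem ri_gal_smul_jF (σ : Kbar ≃ₐ[ℚ] Kbar) : gal N σ • jF N = jF N :=
  Subtype.ext (coeffMap_coeffEmb σ _)

theorem ri_gal_smul_algebraMap (σ : Kbar ≃ₐ[ℚ] Kbar) (a : Kbar) :
    gal N σ • algebraMap Kbar (FN N) a = algebraMap Kbar (FN N) (σ a) :=
  SemilinearAut.smul_algebraMap _ a

theorem ri_val_gal_smul (σ : Kbar ≃ₐ[ℚ] Kbar) (P : Pl N) (f : FN N) :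
    val (gal N σ • P) (gal N σ • f) = σ (val P f) :=
  riVal_smul _ f

theorem ri_gal_inv (σ : Kbar ≃ₐ[ℚ] Kbar) : gal N σ⁻¹ = (gal N σ)⁻¹ := map_inv _ σ

variable {A N}

/-- transport of the condition "regular with value in `A`" -/
theorem ri_cond_smul {σ : Kbar ≃ₐ[ℚ] Kbar} (hσ : σ ∈ A.decompositionSubgroup ℚ) (P : Pl N)
    (f : FN N) :
    (0 ≤ (gal N σ • P).ord (gal N σ • f) ∧ val (gal N σ • P) (gal N σ • f) ∈ A) ↔
      (0 ≤ P.ord f ∧ val P f ∈ A) := by
  rw [SemilinearAut.ord_smul, ri_val_gal_smul, S05.decomposition_mem_iff A hσ]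

theorem ri_inFin_smul {σ : Kbar ≃ₐ[ℚ] Kbar} (hσ : σ ∈ A.decompositionSubgroup ℚ) (P : Pl N) :
    InFin A N (gal N σ • P) ↔ InFin A N P := by
  have := ri_cond_smul hσ P (jF N)
  rwa [ri_gal_smul_jF] at this

/-- a subring generated by the constants of `A` and one Galois invariant function is stable. -/
theorem ri_closure_stable {σ : Kbar ≃ₐ[ℚ] Kbar} (hσ : σ ∈ A.decompositionSubgroup ℚ)
    {x : FN N} (hx : gal N σ • x = x) {a : FN N}
    (ha : a ∈ Subring.closure (constSet A N ∪ {x})) :
    gal N σ • a ∈ Subring.closure (constSet A N ∪ {x}) := by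
  induction ha using Subring.closure_induction with
  | mem y hy =>
    apply Subring.subset_closure
    rcases hy with ⟨c, hc, rfl⟩ | hy
    · left
      exact ⟨σ c, (S05.decomposition_mem_iff A hσ c).mpr hc, ri_gal_smul_algebraMap N σ c⟩
    · right
      rw [Set.mem_singleton_iff] at hy
      rw [hy, hx]
      exact Set.mem_singleton x
  | zero => rw [smul_zero]; exact zero_mem _
  | one => rw [smul_one]; exact one_mem _
  | add y z _ _ hy hz => rw [smul_add]; exact add_mem hy hz
  | neg y _ hy => rw [smul_neg]; exact neg_mem hy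
  | mul y z _ _ hy hz => rw [smul_mul']; exact mul_mem hy hz

end Gal

/-! ## the core argument -/

section Core

variable {A : ValuationSubring Kbar} {N : ℕ} [NeZero N]

theorem ri_core (B : Subring (FN N)) (reg : Pl N → Prop)
    (hB : ∀ P, reg P → ∀ z ∈ B, 0 ≤ P.ord z ∧ val P z ∈ A)
    (hstab : ∀ τ ∈ A.decompositionSubgroup ℚ, ∀ z ∈ B, gal N τ • z ∈ B)
    (hQ : ∀ b ∈ B, ∃ y : LaurentSeries A, HasIntExp A N b y)
    (hE : ∀ (c : FN N) (y : LaurentSeries A), HasIntExp A N c y → rho A y = 0 →
      (∀ P' : Pl N, reg P' → 0 ≤ P'.ord c) → ∀ P : Pl N, reg P → val P c ∈ A.nonunits)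
    {σ : Kbar ≃ₐ[ℚ] Kbar} (hσ : σ ∈ A.inertiaSubgroupIn ℚ) (P : Pl N) (hP : reg P)
    (b : FN N) (hb : b ∈ B) :
    resA A (val (gal N σ • P) b) = resA A (val P b) := by
  have : IsFF1 Kbar (FN N) := Export.isFF1 N
  have hσi : σ⁻¹ ∈ A.inertiaSubgroupIn ℚ := inv_mem hσ
  have hdi := S05.inertia_mem_decomposition A hσi
  set b' : FN N := gal N σ⁻¹ • b with hb'def
  have hb' : b' ∈ B := hstab _ hdi b hb
  have hgb' : gal N σ • b' = b := by
    rw [hb'def, ri_gal_inv, smul_inv_smul]
  obtain ⟨y, hy⟩ := hQ b hb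
  obtain ⟨y', hy'⟩ := hQ b' hb'
  -- the difference has expansion `y' - y`, which reduces to `0`
  have hexp : HasIntExp A N (b' - b) (y' - y) := by
    unfold HasIntExp at hy hy' ⊢
    rw [map_sub, hy, hy']
    rfl
  have hrho : rho A (y' - y) = 0 := by
    ext k
    rw [coeffMap_coeff, HahnSeries.coeff_zero, HahnSeries.coeff_sub,
      IsLocalRing.residue_eq_zero_iff, ValuationSubring.valuation_lt_one_iff]
    have h1 : ((y'.coeff k : A) : Kbar) = σ⁻¹ ((y.coeff k : A) : Kbar) := by
      have e1 : (coeffMap A.subtype y').coeff k = ((y'.coeff k : A) : Kbar) := coeffMap_coeff _ _ _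
      have e2 : (coeffMap A.subtype y).coeff k = ((y.coeff k : A) : Kbar) := coeffMap_coeff _ _ _
      rw [← e1, ← e2, hy', hy]
      exact coeffMap_coeff _ _ _
    have h2 := S05.inertia_valuation_sub_lt_one A hσi (x := ((y.coeff k : A) : Kbar))
      ((A.valuation_le_one_iff _).mpr (y.coeff k).2)
    rw [← h1] at h2
    exact h2
  have hreg : ∀ P' : Pl N, reg P' → 0 ≤ P'.ord (b' - b) := fun P' hP' =>
    (hB P' hP' _ (sub_mem hb' hb)).1
  have hval := hE (b' - b) (y' - y) hexp hrho hreg P hP
  obtain ⟨h1, h1'⟩ := hB P hP b' hb'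
  obtain ⟨h2, h2'⟩ := hB P hP b hb
  rw [riVal_sub h1 h2] at hval
  have e : val (gal N σ • P) b = σ (val P b') := by
    rw [← ri_val_gal_smul, hgb']
  rw [e, ← ri_resA_eq A h1' h2' hval]
  refine ri_resA_eq A ((S05.decomposition_mem_iff A (S05.inertia_mem_decomposition A hσ) _).mpr h1')
    h1' ?_
  exact A.mem_nonunits_iff.mpr
    (S05.inertia_valuation_sub_lt_one A hσ ((A.valuation_le_one_iff _).mpr h1'))

end Core

/-! ## the theorem -/

section Main

variable (A : ValuationSubring Kbar) (N : ℕ) [NeZero N]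

theorem ri_RFin_le (P : Pl N) (hP : InFin A N P) :
    ∀ a ∈ RFin A N, 0 ≤ P.ord a ∧ val P a ∈ A := by
  have : IsFF1 Kbar (FN N) := Export.isFF1 N
  have : RFin A N ≤ (riComp A P).toSubring := by
    unfold RFin
    rw [Subring.closure_le]
    rintro y (⟨c, hc, rfl⟩ | hy)
    · exact mem_riComp.mpr ⟨by rw [ord_algebraMap], by rw [riVal_algebraMap]; exact hc⟩
    · rw [Set.mem_singleton_iff] at hy
      rw [hy]
      exact mem_riComp.mpr hP
  exact fun a ha => mem_riComp.mp (this ha)

theorem ri_RInf_le (P : Pl N) (hP : ¬ InFin A N P) :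
    ∀ a ∈ RInf A N, 0 ≤ P.ord a ∧ val P a ∈ A := by
  have : IsFF1 Kbar (FN N) := Export.isFF1 N
  have : RInf A N ≤ (riComp A P).toSubring := by
    unfold RInf
    rw [Subring.closure_le]
    rintro y (⟨c, hc, rfl⟩ | hy)
    · exact mem_riComp.mpr ⟨by rw [ord_algebraMap], by rw [riVal_algebraMap]; exact hc⟩
    · rw [Set.mem_singleton_iff] at hy
      rw [hy]
      rcases (riComp A P).mem_or_inv_mem (jF N) with h | h
      · exact absurd (mem_riComp.mp h) hP
      · exact h
  exact fun a ha => mem_riComp.mp (this ha)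

theorem ri_BFin_le (P : Pl N) (hP : InFin A N P) :
    ∀ z ∈ BFin A N, 0 ≤ P.ord z ∧ val P z ∈ A := by
  have : IsFF1 Kbar (FN N) := Export.isFF1 N
  intro z hz
  exact mem_riComp.mp (ri_mem_of_isIntegral (riComp A P) (RFin A N)
    (fun a ha => mem_riComp.mpr (ri_RFin_le A N P hP a ha)) hz)

theorem ri_BInf_le (P : Pl N) (hP : ¬ InFin A N P) :
    ∀ z ∈ BInf A N, 0 ≤ P.ord z ∧ val P z ∈ A := by
  have : IsFF1 Kbar (FN N) := Export.isFF1 N
  intro z hz
  exact mem_riComp.mp (ri_mem_of_isIntegral (riComp A P) (RInf A N)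
    (fun a ha => mem_riComp.mpr (ri_RInf_le A N P hP a ha)) hz)

omit [NeZero N] in
theorem ri_BFin_stable {τ : Kbar ≃ₐ[ℚ] Kbar} (hτ : τ ∈ A.decompositionSubgroup ℚ) :
    ∀ z ∈ BFin A N, gal N τ • z ∈ BFin A N := fun _ hz =>
  ri_isIntegral_map (RFin A N) (MulSemiringAction.toRingHom _ (FN N) (gal N τ))
    (fun _ ha => ri_closure_stable hτ (ri_gal_smul_jF N τ) ha) hz

omit [NeZero N] in
theorem ri_BInf_stable {τ : Kbar ≃ₐ[ℚ] Kbar} (hτ : τ ∈ A.decompositionSubgroup ℚ) :
    ∀ z ∈ BInf A N, gal N τ • z ∈ BInf A N := fun _ hz =>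
  ri_isIntegral_map (RInf A N) (MulSemiringAction.toRingHom _ (FN N) (gal N τ))
    (fun _ ha => ri_closure_stable hτ (by rw [smul_inv'', ri_gal_smul_jF]) ha) hz

/-- **Block R2**: the reduction of a place is invariant under inertia. -/
theorem redInertia (hQF : QAFin A N) (hQI : QAInf A N) (hEF : EVFin A N) (hEI : EVInf A N) :
    RedInertia A N := by
  intro σ hσ P
  have hd := S05.inertia_mem_decomposition A hσ
  unfold red
  by_cases hP : InFin A N P
  · rw [if_pos hP, if_pos ((ri_inFin_smul hd P).mpr hP)]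
    congr 1
    funext b
    exact ri_core (BFin A N) (InFin A N) (ri_BFin_le A N)
      (fun τ hτ => ri_BFin_stable A N hτ) hQF.1 hEF hσ P hP b.1 b.2
  · rw [if_neg hP, if_neg (fun h => hP ((ri_inFin_smul hd P).mp h))]
    congr 1
    funext b
    exact ri_core (BInf A N) (fun P' => ¬ InFin A N P') (ri_BInf_le A N)
      (fun τ hτ => ri_BInf_stable A N hτ) hQI.1 hEI hσ P hP b.1 b.2

end Main

end Fermat.Agent.S37

end
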