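/-
S37-ValNorm (task 530), owner helper150.
The value of a norm at a place is the product of the values at the places above, with
multiplicities the ramification indices (characteristic zero).
-/
import Fermat.Agent.S37.Nodes
import Fermat.Agent.S37.HeckeInputs.Norm
import Fermat.Agent.S37.ValNorm.Abs
import Fermat.Agent.S27.Ev
import Fermat.Agent.S27.Approx

set_option autoImplicit false

namespace Fermat.Agent.S37

open AlgebraicCurve Fermat.Agent.S24.FF IsDedekindDomain Fermat.Agent.S37.HeckeInputs

namespace ValNorm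

section Basic

variable {K F : Type*} [Field K] [Field F] [Algebra K F]

theorem val_eq_ev (v : Place K F) (f : F) : val v f = Fermat.Agent.S27.ev v f := rfl

theorem ord_prod {ι : Type*} (v : Place K F) (s : Finset ι) (f : ι → F) (hf : ∀ i ∈ s, f i ≠ 0) :
    v.ord (∏ i ∈ s, f i) = ∑ i ∈ s, v.ord (f i) := by
  classical
  induction s using Finset.induction_on with
  | empty => simp
  | insert i s hi ih =>
    have hs : ∀ j ∈ s, f j ≠ 0 := fun j hj => hf j (Finset.mem_insert_of_mem hj)
    rw [Finset.prod_insert hi, Finset.sum_insert hi,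
      v.ord_mul (hf i (Finset.mem_insert_self i s)) (Finset.prod_ne_zero_iff.2 hs), ih hs]

theorem eq_zero_or_ord_pos_of_mem_maximalIdeal (v : Place K F) (x : v.toValuationSubring)
    (hx : x ∈ IsLocalRing.maximalIdeal v.toValuationSubring) : (x : F) = 0 ∨ 0 < v.ord (x : F) := by
  by_contra hcon
  rw [not_or, not_lt] at hcon
  obtain ⟨h0, h1⟩ := hcon
  rw [IsLocalRing.mem_maximalIdeal, mem_nonunits_iff] at hx
  apply hx
  have hinv : (x : F)⁻¹ ∈ v.toValuationSubring :=
    mem_of_ord_nonneg v (by rw [v.ord_inv]; omega)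
  exact ⟨⟨x, ⟨_, hinv⟩, Subtype.ext (mul_inv_cancel₀ h0), Subtype.ext (inv_mul_cancel₀ h0)⟩, rfl⟩

end Basic

variable {K F F' : Type*} [Field K] [Field F] [Field F'] [Algebra K F] [Algebra K F']
  [Algebra F F'] [IsScalarTower K F F'] [CharZero K] [Module.Finite F F']
  [HasPrincipalDivisors K F'] (v : Place K F)

theorem ofHeightOneSpectrum_mem_fiber (P : HeightOneSpectrum (Bv F' v)) :
    Place.ofHeightOneSpectrum (K := K) P ∈ v.fiber F' := by
  have h := ofHeightOneSpectrum_fiberEquiv v ((fiberEquiv v).symm P)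
  rw [Equiv.apply_symm_apply] at h
  rw [h]
  exact ((fiberEquiv v).symm P).2

/-- an element regular at all places above `v` is integral over `O_v`. -/
theorem mem_Bv_of_ord_nonneg (z : F') (hz : ∀ w ∈ v.fiber F', 0 ≤ w.ord z) : z ∈ Bv F' v := by
  have h : z ∈ (algebraMap (Bv F' v) F').range := by
    apply HeightOneSpectrum.mem_integers_of_valuation_le_one F' z
    intro P
    have h1 := mem_of_ord_nonneg _ (hz _ (ofHeightOneSpectrum_mem_fiber v P))
    rwa [Place.ofHeightOneSpectrum_toValuationSubring, Valuation.mem_valuationSubring_iff] at h1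
  obtain ⟨b, rfl⟩ := h
  exact b.2

omit [CharZero K] in
theorem ord_nonneg_of_mem_Bv (b : Bv F' v) {w : Place K F'} (hw : w ∈ v.fiber F') :
    0 ≤ w.ord (b : F') :=
  ord_nonneg_of_mem w (mem_of_restrict_eq v (Place.mem_fiber.1 hw) b)

theorem dvd_of_ord_le (x y : Bv F' v) (hy : y ≠ 0)
    (h : x ≠ 0 → ∀ w ∈ v.fiber F', w.ord (y : F') ≤ w.ord (x : F')) : y ∣ x := by
  rcases eq_or_ne x 0 with rfl | hx
  · exact dvd_zero y
  replace h := h hx
  have hx' : (x : F') ≠ 0 := fun h0 => hx (Subtype.ext h0)
  have hy' : (y : F') ≠ 0 := fun h0 => hy (Subtype.ext h0)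
  have hq : (x : F') * (y : F')⁻¹ ∈ Bv F' v := by
    apply mem_Bv_of_ord_nonneg
    intro w hw
    rw [w.ord_mul hx' (inv_ne_zero hy'), w.ord_inv]
    have := h w hw
    omega
  refine ⟨⟨_, hq⟩, Subtype.ext ?_⟩
  show (x : F') = (y : F') * ((x : F') * (y : F')⁻¹)
  field_simp

omit [Algebra K F'] [IsScalarTower K F F'] [CharZero K] [Module.Finite F F']
  [HasPrincipalDivisors K F'] in
theorem algebraMap_Bv_injective :
    Function.Injective (algebraMap v.toValuationSubring (Bv F' v)) := by
  intro a b hab
  have h1 : algebraMap F F' (a : F) = algebraMap F F' (b : F) := congrArg Subtype.val hab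
  exact Subtype.ext ((algebraMap F F').injective h1)

omit [Algebra K F'] [IsScalarTower K F F'] [HasPrincipalDivisors K F'] in
theorem free_Bv : Module.Free v.toValuationSubring (Bv F' v) := by
  have : FaithfulSMul v.toValuationSubring (Bv F' v) :=
    (faithfulSMul_iff_algebraMap_injective _ _).2 (algebraMap_Bv_injective v)
  have h1 : Module.IsTorsionFree v.toValuationSubring (Bv F' v) := inferInstance
  have h2 : Module.Finite v.toValuationSubring (Bv F' v) := inferInstance
  exact Module.free_of_finite_type_torsion_free'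

variable [IsAlgClosed K] [IsFF1 K F] [IsFF1 K F']

theorem main (z : F') (hz : ∀ w ∈ v.fiber F', 0 ≤ w.ord z) :
    0 ≤ v.ord (Algebra.norm F z) ∧
      val v (Algebra.norm F z) = ∏ w ∈ v.fiber F', val w z ^ w.ramificationIndex F := by
  classical
  have hfree : Module.Free v.toValuationSubring (Bv F' v) := free_Bv v
  obtain ⟨π, hπ⟩ := IsDiscreteValuationRing.exists_irreducible v.toValuationSubring
  -- local parameters at the places above `v`
  have hex : ∀ w : Place K F', ∃ f : F', f ≠ 0 ∧
      ∀ w' ∈ v.fiber F', w'.ord f = if w' = w then 1 else 0 :=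
    fun w => Fermat.Agent.S27.exists_ord_eq_gen (v.fiber F') (fun w' => if w' = w then 1 else 0)
  choose t ht0 ht using hex
  have htB : ∀ w, t w ∈ Bv F' v := fun w => mem_Bv_of_ord_nonneg v _ (fun w' hw' => by
    rw [ht w w' hw']; split_ifs <;> norm_num)
  let tB : Place K F' → Bv F' v := fun w => ⟨t w, htB w⟩
  let zB : Bv F' v := ⟨z, mem_Bv_of_ord_nonneg v z hz⟩
  have htB0 : ∀ w, tB w ≠ 0 := fun w h => ht0 w (congrArg Subtype.val h)
  have hunit : ∀ w ∈ v.fiber F', ¬ IsUnit (tB w) := by
    intro w hw hu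
    obtain ⟨s, hs⟩ := isUnit_iff_exists_inv.1 hu
    have hs' : t w * (s : F') = 1 := congrArg Subtype.val hs
    have hs0 : (s : F') ≠ 0 := by
      intro h
      rw [h, mul_zero] at hs'
      exact zero_ne_one hs'
    have h1 := w.ord_mul (ht0 w) hs0
    rw [hs', w.ord_one, ht w w hw, if_pos rfl] at h1
    have := ord_nonneg_of_mem_Bv v s hw
    omega
  have hdvd : ∀ w ∈ v.fiber F', ∀ b : Bv F' v,
      tB w ∣ b - algebraMap K (Bv F' v) (val w (b : F')) := by
    intro w hw b
    have hval := Fermat.Agent.S27.isVal_ev (ord_nonneg_of_mem_Bv v b hw)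
    apply dvd_of_ord_le v _ _ (htB0 w)
    intro hne w' hw'
    show w'.ord (t w) ≤ w'.ord ((b - algebraMap K (Bv F' v) (val w (b : F')) : Bv F' v) : F')
    rw [ht w w' hw']
    split_ifs with hww
    · subst hww
      rcases hval with h | h
      · exact absurd (Subtype.ext (sub_eq_zero.2 h)) hne
      · have h2 : (0 : ℤ) < w'.ord ((b - algebraMap K (Bv F' v) (val w' (b : F')) : Bv F' v) : F') := h
        omega
    · exact ord_nonneg_of_mem_Bv v _ hw'
  have hgood := goodAt_prod (K := K) (v.fiber F') zB tB (fun w => val w z)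
    (fun w => w.ramificationIndex F) (fun w _ => htB0 w) hunit
    (fun w hw b => ⟨_, hdvd w hw b⟩) (fun w hw => hdvd w hw zB)
  -- the uniformiser of `v` is associated to the product of the local parameters
  have hordπ : ∀ w ∈ v.fiber F',
      w.ord ((algebraMap v.toValuationSubring (Bv F' v) π : Bv F' v) : F')
        = (w.ramificationIndex F : ℤ) := by
    intro w hw
    have h := w.ord_restrict (F := F) (π : F)
    rw [Place.mem_fiber.1 hw, v.ord_coe_irreducible hπ, mul_one] at h
    exact h
  have hordP : ∀ w ∈ v.fiber F',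
      w.ord ((∏ w' ∈ v.fiber F', tB w' ^ w'.ramificationIndex F : Bv F' v) : F')
        = (w.ramificationIndex F : ℤ) := by
    intro w hw
    have h1 : ((∏ w' ∈ v.fiber F', tB w' ^ w'.ramificationIndex F : Bv F' v) : F')
        = ∏ w' ∈ v.fiber F', t w' ^ w'.ramificationIndex F := by
      rw [← Subalgebra.coe_val, map_prod]
      rfl
    rw [h1, ord_prod w _ _ (fun w' _ => pow_ne_zero _ (ht0 w')),
      Finset.sum_eq_single w]
    · rw [ord_pow, ht w w hw, if_pos rfl, mul_one]
    · intro w' _ hne
      rw [ord_pow, ht w' w hw, if_neg (Ne.symm hne), mul_zero]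
    · intro h
      exact absurd hw h
  have hπB0 : algebraMap v.toValuationSubring (Bv F' v) π ≠ 0 := by
    intro h
    exact hπ.ne_zero (algebraMap_Bv_injective v (by rw [h, map_zero]))
  have hP0 : (∏ w' ∈ v.fiber F', tB w' ^ w'.ramificationIndex F : Bv F' v) ≠ 0 :=
    Finset.prod_ne_zero_iff.2 fun w' _ => pow_ne_zero _ (htB0 w')
  have hassoc : Associated (∏ w' ∈ v.fiber F', tB w' ^ w'.ramificationIndex F)
      (algebraMap v.toValuationSubring (Bv F' v) π) := by
    apply associated_of_dvd_dvd
    · exact dvd_of_ord_le v _ _ hP0 fun _ w hw => by rw [hordπ w hw, hordP w hw]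
    · exact dvd_of_ord_le v _ _ hπB0 fun _ w hw => by rw [hordπ w hw, hordP w hw]
  have hI : Ideal.span {algebraMap v.toValuationSubring (Bv F' v) π}
      = Ideal.map (algebraMap v.toValuationSubring (Bv F' v))
        (IsLocalRing.maximalIdeal v.toValuationSubring) := by
    rw [hπ.maximalIdeal_eq, Ideal.map_span, Set.image_singleton]
  have hK : Function.Surjective (algebraMap K
      (v.toValuationSubring ⧸ IsLocalRing.maximalIdeal v.toValuationSubring)) :=
    algebraMap_residueField_surjective v
  have hmem := norm_sub_mem_of_goodI hK zB _ hI _ (hgood.of_associated hassoc)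
  have hN : ((Algebra.norm v.toValuationSubring zB : v.toValuationSubring) : F)
      = Algebra.norm F z := by
    rw [← Algebra.intNorm_eq_norm]
    exact Algebra.algebraMap_intNorm (A := v.toValuationSubring) (K := F) (L := F')
      (B := Bv F' v) zB
  constructor
  · rw [← hN]
    exact ord_nonneg_of_mem v (Subtype.mem _)
  · rw [val_eq_ev]
    apply Fermat.Agent.S27.ev_eq_of_isVal
    have h := eq_zero_or_ord_pos_of_mem_maximalIdeal v _ hmem
    rw [← hN]
    rcases h with h | h
    · exact Or.inl (sub_eq_zero.1 h)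
    · exact Or.inr h

end ValNorm

/-- task S37-ValNorm (characteristic zero). -/
theorem valNorm (K F F' : Type*) [Field K] [Field F] [Field F']
    [Algebra K F] [Algebra K F'] [Algebra F F'] [IsScalarTower K F F']
    [Algebra.IsIntegral F F'] [HasPrincipalDivisors K F'] [Module.Finite F F']
    [IsAlgClosed K] [CharZero K] [IsFF1 K F] [IsFF1 K F'] : ValNorm K F F' :=
  fun v z hz => ValNorm.main v z hz

end Fermat.Agent.S37
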