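import Fermat.Agent.S37.Main
import Fermat.Agent.S37.HeckeInputs.Main
import Fermat.Agent.S37.QAFin
import Fermat.Agent.S37.QAInf
import Fermat.Agent.S37.EVFin
import Fermat.Agent.S37.EVInf
import Fermat.Agent.S37.RegInt
import Fermat.Agent.S37.ValNorm
import Fermat.Agent.S37.JInt
import Fermat.Agent.S37.ConjNorm
import Fermat.Agent.S37.RedInertia
import Fermat.Agent.S37.RedHecke.Main
import Fermat.Agent.S37.C0.Tube
import Fermat.Agent.S37.C0.Assemble
import Fermat.Agent.S37.C0.Descent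
import Fermat.Agent.S37.C0.FibreCompat
import Fermat.Agent.GAL.KLInputs.Main
import Fermat.Agent.S28.Analytic.Assembly
import Fermat.Agent.S28.Analytic.GenInterp
import Fermat.Agent.S28.QEPFin
import Fermat.Agent.S28.QEPMid
import Fermat.Agent.S28.QEPInf

/-!
# S37: the blocks from the nodes (owner helper37)
-/

set_option autoImplicit false
set_option linter.unusedSectionVars false
set_option linter.style.haveILetI false

noncomputable section

namespace Fermat.Agent.S37

open AlgebraicCurve ModularCurve Fermat.Agent.S24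

section Nodes

variable (A : ValuationSubring Kbar) (N : ℕ) [NeZero N] (ℓ : ℕ) [Fact ℓ.Prime]

theorem final_qa (hA : A.LiesOverPrime ℓ) (hℓN : ¬ ℓ ∣ N) : QAFin A N ∧ QAInf A N := by
  obtain ⟨D⟩ := S28.exists_UData_of_generation N ℓ hℓN
    (fun D d _ hd => S28.GenInterp.generation N ℓ D d hd)
  exact ⟨qaFin A N ℓ hA (S28.qep_fin N ℓ D),
    qaInf A N ℓ hA (S28.qep_inf N ℓ (S28.qep_mid N ℓ (S28.qep_fin N ℓ D)))⟩

theorem final_regInt : RegInt Kbar (FN N) := regInt Kbar (FN N)

theorem final_redInertia (hA : A.LiesOverPrime ℓ) (hℓN : ¬ ℓ ∣ N) : RedInertia A N := by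
  obtain ⟨hQF, hQI⟩ := final_qa A N ℓ hA hℓN
  exact redInertia A N hQF hQI (evFin A N hQF (final_regInt N)) (evInf A N hQI (final_regInt N))

theorem final_redHecke [NeZero ℓ] (hA : A.LiesOverPrime ℓ) (hℓN : ¬ ℓ ∣ N) : RedHecke A N ℓ := by
  obtain ⟨hQF, hQI⟩ := final_qa A N ℓ hA hℓN
  exact redHecke A N ℓ Fact.out hA hQF hQI (evFin A N hQF (final_regInt N))
    (evInf A N hQI (final_regInt N)) (jInt (N * ℓ) ℓ (dvd_mul_left ℓ N))
    (conjNorm_of_prime N ℓ Fact.out hℓN)

theorem final_fibreCompat (r : ℕ) [NeZero r] : FibreCompat A N r := by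
  refine fibreCompat A N r ?_
  letI := algebraAlong (heckeAlphaBar Kbar N r)
  haveI := isScalarTower_along (heckeAlphaBar Kbar N r)
  haveI := isIntegral_along (heckeAlphaBar Kbar N r) (HeckeInputs.alpha_integral N r)
  haveI : Module.Finite (FN N) (FN (N * r)) := HeckeInputs.alpha_finite N r
  exact valNorm Kbar (FN N) (FN (N * r))

theorem final_transc_j (Y : LaurentSeries A) (hY : HasIntExp A N (jF N) Y) :
    Transcendental (kA A) (rho A Y) := by
  rw [hY.unique (hasIntExp_jF A N), rho_jqModC]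
  exact C0.transcendental_jqModC _

theorem final_transc_jinv (Y : LaurentSeries A) (hY : HasIntExp A N (jF N)⁻¹ Y) :
    Transcendental (kA A) (rho A Y) := by
  rw [hY.unique (hasIntExp_jF_inv A N), rho_jInvZ]
  exact FF.transcendental_inv (C0.transcendental_jqModC _)

theorem final_redInj_good (hA : A.LiesOverPrime ℓ) (hℓN : ¬ ℓ ∣ N) (hLF : LF A N) :
    RedInj A N ℓ := by
  obtain ⟨hQF, hQI⟩ := final_qa A N ℓ hA hℓN
  refine redInj_of_redConst (redConst_of_lf A N hQF hQI
    (tubeStmt A N (jF N) (Formal.transcendental_jF N) (final_transc_j A N) hQF (final_regInt N))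
    (tubeStmt A N (jF N)⁻¹ (FF.transcendental_inv (Formal.transcendental_jF N))
      (final_transc_jinv A N) hQI (final_regInt N)) hLF)
    (fun n hn => GAL.klStatement N ℓ hℓN A hA n hn)

end Nodes

/-- everything except `LF` -/
theorem final_of_lf
    (hLF : ∀ (A : ValuationSubring Kbar) (M : ℕ) [NeZero M] (ℓ : ℕ) [Fact ℓ.Prime],
      A.LiesOverPrime ℓ → ¬ ℓ ∣ M → GoodBase M ℓ → LF A M)
    (N p : ℕ) [NeZero N] (hcomm : HeckeOperatorsCommuteBar N) :
    letI := ModularCurve.heckeModuleBar N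
    ∀ (_ : SMulCommClass (AlgebraicClosure ℚ ≃ₐ[ℚ] AlgebraicClosure ℚ) ModularCurve.HeckeAlg
      (ModularCurve.JZero N)),
      ModularCurve.SpecializationExists (K := ℚ) (L := AlgebraicClosure ℚ) N p
        (ModularCurve.JZero N) := by
  refine main_of_blocks N p hcomm (fun ℓ _ _ _ => HeckeInputs.heckeInputsAlong N ℓ) ?_ ?_ ?_
  · intro ℓ hℓ hℓN A hA
    haveI : Fact ℓ.Prime := ⟨hℓ⟩
    exact final_redInertia A N ℓ hA hℓN
  · intro ℓ _ hℓ hℓN A hA
    haveI : Fact ℓ.Prime := ⟨hℓ⟩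
    exact final_redHecke A N ℓ hA hℓN
  · intro ℓ hℓ hℓN A hA
    haveI : Fact ℓ.Prime := ⟨hℓ⟩
    exact redInj_of_good A N ℓ hℓ hℓN
      (fun M _ hM hG => final_redInj_good A M ℓ hA hM (hLF A M ℓ hA hM hG))
      (final_fibreCompat A N 2) (final_fibreCompat A N 3)

end Fermat.Agent.S37

end
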