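import Mathlib
import Fermat.Prelude.Def_ModularCurve_HeckeModule
import Fermat.Prelude.Def_ModularCurve_ReductionModL
import Fermat.Agent.S24.Defs

/-!
# S37: definitions (owner helper37)

* `val v f`      : value of the function `f` at the place `v` (junk `0` at a pole)
* `resA A c`     : residue class of `c ∈ ℚ̄` modulo the maximal ideal of `A` (junk `0` outside `A`)
* `BFin A N`     : functions of `X₀(N)/ℚ̄` integral over `A[j]`;  `BInf A N`: integral over `A[1/j]`
* `InFin A N P`  : the place `P` has `j(P) ∈ A`
* `red A N P`    : the "reduction" of the place `P`: the function `b ↦ b(P) mod 𝔪_A` on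
                   `BFin` (if `j(P) ∈ A`) resp. on `BInf` (otherwise)
* `G A N`, `r A N` : `ℤ[X] / red_*(principal divisors)` and the induced map from `J₀(N)`
-/

set_option autoImplicit false

noncomputable section

namespace Fermat.Agent.S37

open AlgebraicCurve ModularCurve Fermat.Agent.S24

/-- places of the function field of `X₀(N)` over `ℚ̄` -/
abbrev Pl (N : ℕ) : Type := Place Kbar (FN N)

section Val

variable {K F : Type*} [Field K] [Field F] [Algebra K F]

open Classical in
/-- the value of `f` at the place `v` (a constant `c` with `f - c` vanishing at `v`); junk `0`. -/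
def val (v : Place K F) (f : F) : K :=
  if h : ∃ c : K, f = algebraMap K F c ∨ 0 < v.ord (f - algebraMap K F c) then h.choose else 0

end Val

variable (A : ValuationSubring Kbar)

/-- the residue field of `A` -/
abbrev kA : Type := IsLocalRing.ResidueField A

open Classical in
/-- reduction modulo the maximal ideal of `A`, extended by `0` -/
def resA (c : Kbar) : kA A := if h : c ∈ A then IsLocalRing.residue A ⟨c, h⟩ else 0

variable (N : ℕ)

/-- the constants from `A` inside the function field -/
def constSet : Set (FN N) := {f | ∃ a ∈ A, f = algebraMap Kbar (FN N) a}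

/-- `A[j]` -/
def RFin : Subring (FN N) := Subring.closure (constSet A N ∪ {jF N})

/-- `A[1/j]` -/
def RInf : Subring (FN N) := Subring.closure (constSet A N ∪ {(jF N)⁻¹})

/-- functions integral over `A[j]` -/
def BFin : Subring (FN N) := (integralClosure (RFin A N) (FN N)).toSubring

/-- functions integral over `A[1/j]` -/
def BInf : Subring (FN N) := (integralClosure (RInf A N) (FN N)).toSubring

/-- `ℚ̄[j]` -/
def LFin : Subalgebra Kbar (FN N) := Algebra.adjoin Kbar {jF N}

/-- `ℚ̄[1/j]` -/
def LInf : Subalgebra Kbar (FN N) := Algebra.adjoin Kbar {(jF N)⁻¹}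

/-- the place `P` satisfies `j(P) ∈ A` -/
def InFin (P : Pl N) : Prop := 0 ≤ P.ord (jF N) ∧ val P (jF N) ∈ A

/-- the target of the reduction map on places -/
abbrev X : Type := (BFin A N → kA A) ⊕ (BInf A N → kA A)

open Classical in
/-- the reduction of a place -/
def red (P : Pl N) : X A N :=
  if InFin A N P then Sum.inl fun b => resA A (val P b.1) else Sum.inr fun b => resA A (val P b.1)

/-- reduction of divisors -/
def redDiv : Divisor Kbar (FN N) →+ (X A N →₀ ℤ) := Finsupp.mapDomain.addMonoidHom (red A N)

theorem redDiv_apply (D : Divisor Kbar (FN N)) : redDiv A N D = Finsupp.mapDomain (red A N) D := rfl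

theorem redDiv_single (P : Pl N) (n : ℤ) :
    redDiv A N (Finsupp.single P n) = Finsupp.single (red A N P) n :=
  Finsupp.mapDomain_single

/-- reductions of principal divisors -/
def redPrin : AddSubgroup (X A N →₀ ℤ) :=
  (Divisor.principal (K := Kbar) (F := FN N)).map (redDiv A N)

/-- the auxiliary group -/
abbrev G : Type := (X A N →₀ ℤ) ⧸ redPrin A N

/-- the auxiliary map `J₀(N) → G` -/
def r : JZero N →+ G A N :=
  QuotientAddGroup.lift _
    ((QuotientAddGroup.mk' (redPrin A N)).comp
      ((redDiv A N).comp (Divisor.degZero (K := Kbar) (F := FN N)).subtype))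
    (by
      rintro ⟨D, hD0⟩ hD
      rw [AddSubgroup.mem_addSubgroupOf] at hD
      show (QuotientAddGroup.mk' (redPrin A N)) (redDiv A N D) = 0
      rw [QuotientAddGroup.mk'_apply, QuotientAddGroup.eq_zero_iff]
      exact ⟨D, hD, rfl⟩)

theorem r_mk (D : Divisor.degZero (K := Kbar) (F := FN N)) :
    r A N (Pic0.mk D) = QuotientAddGroup.mk (redDiv A N (D : Divisor Kbar (FN N))) := rfl

/-- `y` is the (`A`-integral) `q`-expansion of `f` -/
def HasIntExp (f : FN N) (y : LaurentSeries A) : Prop :=
  coeffMap A.subtype y = (f : LaurentSeries Kbar)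

/-- reduction of an `A`-integral Laurent series -/
abbrev rho (y : LaurentSeries A) : LaurentSeries (kA A) := coeffMap (IsLocalRing.residue A) y

end Fermat.Agent.S37

end
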