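import Mathlib
import Fermat.Prelude.Def_HeckeGalois_EichlerShimura

/-!
# S37: abstract assembly

`SpecializationExists` at one prime follows from the existence of ONE auxiliary additive map
`r : J →+ G` which is constant on inertia orbits, kills `(φ² - T_ℓ φ + ℓ) J` for one Frobenius
lift `φ`, and is injective on `p`-power torsion.  We take `J' = J / K₀`.
-/

set_option autoImplicit false

open ModularCurve

namespace Fermat.Agent.S37

section Inertia

variable {K L : Type*} [Field K] [Field L] [Algebra K L]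

theorem mem_inertiaSubgroupIn_iff (A : ValuationSubring L) (σ : L ≃ₐ[K] L) :
    σ ∈ A.inertiaSubgroupIn K ↔
      ∃ hσ : σ ∈ A.decompositionSubgroup K,
        (⟨σ, hσ⟩ : A.decompositionSubgroup K) ∈ A.inertiaSubgroup K := by
  constructor
  · rintro ⟨τ, hτ, rfl⟩
    exact ⟨τ.2, hτ⟩
  · rintro ⟨hσ, h⟩
    exact ⟨⟨σ, hσ⟩, h, rfl⟩

theorem mem_inertiaSubgroup_iff (A : ValuationSubring L) (τ : A.decompositionSubgroup K) :
    τ ∈ A.inertiaSubgroup K ↔ ∀ x : IsLocalRing.ResidueField A, τ • x = x := by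
  rw [ValuationSubring.inertiaSubgroup, MonoidHom.mem_ker]
  constructor
  · intro h x
    have := congrArg (fun f => f x) h
    simpa using this
  · intro h
    ext x
    exact h x

/-- conjugating inertia by an element of the decomposition group stays in inertia -/
theorem conj_mem_inertiaSubgroupIn (A : ValuationSubring L) {φ σ : L ≃ₐ[K] L}
    (hφ : φ ∈ A.decompositionSubgroup K) (hσ : σ ∈ A.inertiaSubgroupIn K) :
    φ * σ * φ⁻¹ ∈ A.inertiaSubgroupIn K := by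
  obtain ⟨hσD, hσI⟩ := (mem_inertiaSubgroupIn_iff A σ).mp hσ
  refine (mem_inertiaSubgroupIn_iff A _).mpr
    ⟨mul_mem (mul_mem hφ hσD) (inv_mem hφ), ?_⟩
  have hn : (A.inertiaSubgroup K).Normal := by
    rw [ValuationSubring.inertiaSubgroup]; infer_instance
  exact hn.conj_mem ⟨σ, hσD⟩ hσI ⟨φ, hφ⟩

/-- two Frobenius lifts differ by inertia -/
theorem inv_mul_mem_inertiaSubgroupIn (A : ValuationSubring L) {φ ψ : L ≃ₐ[K] L} {q : ℕ}
    (hφ : A.IsFrobeniusAt φ q) (hψ : A.IsFrobeniusAt ψ q) :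
    φ⁻¹ * ψ ∈ A.inertiaSubgroupIn K := by
  obtain ⟨hφD, hφF⟩ := hφ
  obtain ⟨hψD, hψF⟩ := hψ
  refine (mem_inertiaSubgroupIn_iff A _).mpr ⟨mul_mem (inv_mem hφD) hψD, ?_⟩
  rw [mem_inertiaSubgroup_iff]
  intro x
  have h1 : (⟨φ⁻¹ * ψ, mul_mem (inv_mem hφD) hψD⟩ : A.decompositionSubgroup K)
      = (⟨φ, hφD⟩ : A.decompositionSubgroup K)⁻¹ * ⟨ψ, hψD⟩ := rfl
  rw [h1, mul_smul, hψF x, ← hφF x, inv_smul_smul]

end Inertia

section Main

variable {K L : Type*} [Field K] [Field L] [Algebra K L]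
variable (p : ℕ) (J : Type) [AddCommGroup J] [Module HeckeAlg J]
  [DistribMulAction (L ≃ₐ[K] L) J] [SMulCommClass (L ≃ₐ[K] L) HeckeAlg J]
variable (A : ValuationSubring L) (ℓ : ℕ) (T : HeckeAlg) (φ : L ≃ₐ[K] L)

/-- generators of the kernel -/
def kerGens : Set J :=
  {y | (∃ σ ∈ A.inertiaSubgroupIn K, ∃ x : J, y = σ • x - x) ∨
    ∃ x : J, y = φ • φ • x - T • (φ • x) + ℓ • x}

variable {J A ℓ T φ} in
theorem smul_mem_kerGens (t : HeckeAlg) {y : J} (hy : y ∈ kerGens J A ℓ T φ) :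
    t • y ∈ kerGens J A ℓ T φ := by
  rcases hy with ⟨σ, hσ, x, rfl⟩ | ⟨x, rfl⟩
  · exact Or.inl ⟨σ, hσ, t • x, by rw [smul_sub, smul_comm σ t x]⟩
  · refine Or.inr ⟨t • x, ?_⟩
    rw [smul_add, smul_sub, smul_comm φ t x, smul_comm φ t (φ • x), smul_comm t T,
      smul_comm t ℓ x]

variable {J A ℓ T φ} in
theorem frob_smul_mem_kerGens (hφ : φ ∈ A.decompositionSubgroup K) {y : J}
    (hy : y ∈ kerGens J A ℓ T φ) : φ • y ∈ kerGens J A ℓ T φ := by
  rcases hy with ⟨σ, hσ, x, rfl⟩ | ⟨x, rfl⟩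
  · refine Or.inl ⟨φ * σ * φ⁻¹, conj_mem_inertiaSubgroupIn A hφ hσ, φ • x, ?_⟩
    rw [smul_sub, mul_smul, mul_smul, inv_smul_smul]
  · refine Or.inr ⟨φ • x, ?_⟩
    rw [smul_add, smul_sub, smul_comm φ T (φ • x), smul_comm φ ℓ x]

/-- the kernel `K₀` as a Hecke submodule -/
def kerSub : Submodule HeckeAlg J where
  carrier := AddSubgroup.closure (kerGens J A ℓ T φ)
  add_mem' := fun ha hb => AddSubgroup.add_mem _ ha hb
  zero_mem' := AddSubgroup.zero_mem _
  smul_mem' := by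
    intro t y hy
    change y ∈ AddSubgroup.closure (kerGens J A ℓ T φ) at hy
    change t • y ∈ AddSubgroup.closure (kerGens J A ℓ T φ)
    induction hy using AddSubgroup.closure_induction with
    | mem y hy => exact AddSubgroup.subset_closure (smul_mem_kerGens t hy)
    | zero => rw [smul_zero]; exact AddSubgroup.zero_mem _
    | add a b _ _ ha hb => rw [smul_add]; exact AddSubgroup.add_mem _ ha hb
    | neg a _ ha => rw [smul_neg]; exact AddSubgroup.neg_mem _ ha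

variable {J A ℓ T φ} in
theorem mem_kerSub_iff {y : J} :
    y ∈ kerSub J A ℓ T φ ↔ y ∈ AddSubgroup.closure (kerGens J A ℓ T φ) := Iff.rfl

variable {J A ℓ T φ} in
theorem frob_smul_mem_kerSub (hφ : φ ∈ A.decompositionSubgroup K) {y : J}
    (hy : y ∈ kerSub J A ℓ T φ) : φ • y ∈ kerSub J A ℓ T φ := by
  rw [mem_kerSub_iff] at hy ⊢
  induction hy using AddSubgroup.closure_induction with
  | mem y hy => exact AddSubgroup.subset_closure (frob_smul_mem_kerGens hφ hy)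
  | zero => rw [smul_zero]; exact AddSubgroup.zero_mem _
  | add a b _ _ ha hb => rw [smul_add]; exact AddSubgroup.add_mem _ ha hb
  | neg a _ ha => rw [smul_neg]; exact AddSubgroup.neg_mem _ ha

/-- **Abstract assembly.** -/
theorem exists_specialization_of_aux (hℓ : ℓ.Prime)
    (hφ : A.IsFrobeniusAt φ ℓ)
    {G : Type*} [AddCommGroup G] (r : J →+ G)
    (hI : ∀ σ ∈ A.inertiaSubgroupIn K, ∀ x : J, r (σ • x) = r x)
    (hF : ∀ x : J, r (φ • φ • x - heckeGen ⟨ℓ, hℓ⟩ • (φ • x) + ℓ • x) = 0)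
    (hinj : ∀ x : J, (∃ n : ℕ, p ^ n • x = 0) → r x = 0 → x = 0) :
    ∃ (J' : Type) (_ : AddCommGroup J') (_ : Module HeckeAlg J') (sp : J →+ J')
      (F : J' →+ J'),
      IsSpecialization (K := K) p J J' A ℓ sp F ∧ SpecialFibreRelation J' ℓ hℓ F := by
  have hφD := hφ.mem_decompositionSubgroup
  set K₀ := kerSub J A ℓ (heckeGen ⟨ℓ, hℓ⟩) φ with hK₀
  have hr : ∀ y ∈ K₀, r y = 0 := by
    intro y hy
    rw [hK₀, mem_kerSub_iff] at hy
    induction hy using AddSubgroup.closure_induction with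
    | mem y hy =>
      rcases hy with ⟨σ, hσ, x, rfl⟩ | ⟨x, rfl⟩
      · rw [map_sub, hI σ hσ, sub_self]
      · exact hF x
    | zero => exact map_zero r
    | add a b _ _ ha hb => rw [map_add, ha, hb, add_zero]
    | neg a _ ha => rw [map_neg, ha, neg_zero]
  let Φ : J →ₗ[HeckeAlg] J := DistribSMul.toLinearMap HeckeAlg J φ
  have hΦ : K₀ ≤ K₀.comap Φ := fun y hy => frob_smul_mem_kerSub hφD hy
  let F : (J ⧸ K₀) →ₗ[HeckeAlg] (J ⧸ K₀) := K₀.mapQ K₀ Φ hΦ
  have hsub : ∀ σ ∈ A.inertiaSubgroupIn K, ∀ x : J, K₀.mkQ (σ • x) = K₀.mkQ x := by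
    intro σ hσ x
    rw [← sub_eq_zero, ← map_sub, Submodule.mkQ_apply, Submodule.Quotient.mk_eq_zero]
    exact AddSubgroup.subset_closure (Or.inl ⟨σ, hσ, x, rfl⟩)
  refine ⟨J ⧸ K₀, inferInstance, inferInstance, K₀.mkQ.toAddMonoidHom, F.toAddMonoidHom,
    ⟨fun T x => map_smul K₀.mkQ T x, hsub, ?_, ?_⟩, ?_⟩
  · intro σ hσ x
    have h1 : σ • x = φ • ((φ⁻¹ * σ) • x) := by rw [mul_smul, smul_inv_smul]
    show K₀.mkQ (σ • x) = F (K₀.mkQ x)
    rw [← hsub _ (inv_mul_mem_inertiaSubgroupIn A hφ hσ) x, h1]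
    rfl
  · intro x hx hsp
    refine hinj x hx (hr x ?_)
    exact (Submodule.Quotient.mk_eq_zero K₀).mp hsp
  · intro y
    obtain ⟨x, rfl⟩ := K₀.mkQ_surjective y
    show F (F (K₀.mkQ x)) - heckeGen ⟨ℓ, hℓ⟩ • F (K₀.mkQ x) + ℓ • K₀.mkQ x = 0
    have h2 : F (K₀.mkQ x) = K₀.mkQ (φ • x) := rfl
    have h3 : F (K₀.mkQ (φ • x)) = K₀.mkQ (φ • φ • x) := rfl
    rw [h2, h3, ← map_smul, ← map_nsmul, ← map_sub, ← map_add, Submodule.mkQ_apply,
      Submodule.Quotient.mk_eq_zero]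
    exact AddSubgroup.subset_closure (Or.inr ⟨x, rfl⟩)

end Main

end Fermat.Agent.S37
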