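import Fermat.Agent.S37.EVCore

/-!
# S37 / EV: the composite valuation ring of a place and a valuation ring of constants
(owner helper247)

`compRing A v = {f | f regular at v, f(v) ∈ A}` is a valuation ring of the function field; hence
functions integral over a subring of it lie in it.
-/

set_option autoImplicit false
set_option linter.unusedSectionVars false

noncomputable section

namespace Fermat.Agent.S37.EV

open AlgebraicCurve ModularCurve Fermat.Agent.S24 Fermat.Agent.S24.FF Fermat.Agent.S27

section General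

variable {K F : Type*} [Field K] [Field F] [Algebra K F] [IsAlgClosed K] [IsFF1 K F]

/-- the composite valuation ring -/
def compRing (A : ValuationSubring K) (v : Place K F) : ValuationSubring F where
  carrier := {f | 0 ≤ v.ord f ∧ val v f ∈ A}
  mul_mem' := by
    rintro f g ⟨hf, hfA⟩ ⟨hg, hgA⟩
    have h := (isVal_val hf).mul (isVal_val hg)
    exact ⟨h.ord_nonneg, by rw [val_eq_of_isVal h]; exact mul_mem hfA hgA⟩
  one_mem' := by
    have h := isVal_one (K := K) v
    exact ⟨h.ord_nonneg, by rw [val_eq_of_isVal h]; exact one_mem A⟩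
  add_mem' := by
    rintro f g ⟨hf, hfA⟩ ⟨hg, hgA⟩
    have h := (isVal_val hf).add (isVal_val hg)
    exact ⟨h.ord_nonneg, by rw [val_eq_of_isVal h]; exact add_mem hfA hgA⟩
  zero_mem' := by
    have h : IsVal v (0 : F) (0 : K) := Or.inl (by simp)
    exact ⟨h.ord_nonneg, by rw [val_eq_of_isVal h]; exact zero_mem A⟩
  neg_mem' := by
    rintro f ⟨hf, hfA⟩
    have h := (isVal_val hf).neg
    exact ⟨h.ord_nonneg, by rw [val_eq_of_isVal h]; exact neg_mem hfA⟩
  mem_or_inv_mem' := by
    intro f
    rcases lt_trichotomy (v.ord f) 0 with h | h | h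
    · right
      have h1 : IsVal v f⁻¹ (0 : K) := isVal_zero_iff.mpr (Or.inr (by rw [v.ord_inv]; omega))
      exact ⟨h1.ord_nonneg, by rw [val_eq_of_isVal h1]; exact zero_mem A⟩
    · have h0 := isVal_val (v := v) (f := f) h.ge
      by_cases hz : val v f = 0
      · left
        exact ⟨h.ge, by rw [hz]; exact zero_mem A⟩
      · rcases A.mem_or_inv_mem (val v f) with hA | hA
        · exact Or.inl ⟨h.ge, hA⟩
        · right
          have h1 := h0.inv hz
          exact ⟨h1.ord_nonneg, by rw [val_eq_of_isVal h1]; exact hA⟩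
    · left
      have h1 : IsVal v f (0 : K) := isVal_zero_iff.mpr (Or.inr h)
      exact ⟨h1.ord_nonneg, by rw [val_eq_of_isVal h1]; exact zero_mem A⟩

theorem mem_compRing {A : ValuationSubring K} {v : Place K F} {f : F} :
    f ∈ compRing A v ↔ 0 ≤ v.ord f ∧ val v f ∈ A := Iff.rfl

/-- elements integral over a subring of a valuation ring lie in the valuation ring -/
theorem mem_of_isIntegral_subring (O : ValuationSubring F) (R : Subring F)
    (hR : R ≤ O.toSubring) {b : F} (hb : IsIntegral R b) : b ∈ O := by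
  let _ : Algebra R O :=
    ((algebraMap R F).codRestrict O.toSubring (fun a => hR a.2)).toAlgebra
  let _ : IsScalarTower R O F := IsScalarTower.of_algebraMap_eq fun f => rfl
  have hx : IsIntegral O b := hb.tower_top
  obtain ⟨y, hy⟩ := IsIntegrallyClosed.isIntegral_iff.mp hx
  exact hy ▸ y.2

/-- common form of the regularity statement: if `x` is regular at `P` with value in `A` then the
functions integral over `A[x]` are regular at `P` with values in `A`. -/
theorem reg_of_isIntegral (A : ValuationSubring K) (x : F) (R : Subring F)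
    (hR : R = Subring.closure ({f | ∃ a ∈ A, f = algebraMap K F a} ∪ {x})) (P : Place K F)
    (hx : 0 ≤ P.ord x) (hxA : val P x ∈ A) (b : F) (hb : IsIntegral R b) :
    0 ≤ P.ord b ∧ val P b ∈ A := by
  refine mem_compRing.mp (mem_of_isIntegral_subring (compRing A P) R ?_ hb)
  rw [hR, Subring.closure_le]
  rintro f (⟨a, ha, rfl⟩ | rfl)
  · have h := isVal_algebraMap P a
    exact ⟨h.ord_nonneg, by rw [val_eq_of_isVal h]; exact ha⟩
  · exact ⟨hx, hxA⟩

end General

variable (A : ValuationSubring Kbar) (N : ℕ) [NeZero N]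

theorem reg_BFin (P : Pl N) (hP : InFin A N P) (b : FN N) (hb : b ∈ BFin A N) :
    0 ≤ P.ord b ∧ val P b ∈ A := by
  have hFF : IsFF1 Kbar (FN N) := Export.isFF1 N
  exact reg_of_isIntegral A (jF N) (RFin A N) rfl P hP.1 hP.2 b hb

/-- outside the finite region `1/j` is regular with value in the maximal ideal -/
theorem inv_of_not_inFin (P : Pl N) (hP : ¬ InFin A N P) :
    0 ≤ P.ord (jF N)⁻¹ ∧ val P (jF N)⁻¹ ∈ A.nonunits := by
  have hFF : IsFF1 Kbar (FN N) := Export.isFF1 N
  rcases lt_or_ge (P.ord (jF N)) 0 with h | h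
  · have h1 : IsVal P (jF N)⁻¹ (0 : Kbar) :=
      isVal_zero_iff.mpr (Or.inr (by rw [P.ord_inv]; omega))
    refine ⟨h1.ord_nonneg, ?_⟩
    rw [val_eq_of_isVal h1, ValuationSubring.mem_nonunits_iff]
    simp
  · have hA : val P (jF N) ∉ A := fun hA => hP ⟨h, hA⟩
    have h0 : val P (jF N) ≠ 0 := fun h0 => hA (h0 ▸ zero_mem A)
    have h1 := (isVal_val h).inv h0
    refine ⟨h1.ord_nonneg, ?_⟩
    rw [val_eq_of_isVal h1, ValuationSubring.mem_nonunits_iff, map_inv₀]
    rw [← ValuationSubring.valuation_le_one_iff, not_le] at hA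
    exact inv_lt_one_of_one_lt₀ hA

theorem reg_BInf (P : Pl N) (hP : ¬ InFin A N P) (b : FN N) (hb : b ∈ BInf A N) :
    0 ≤ P.ord b ∧ val P b ∈ A := by
  have hFF : IsFF1 Kbar (FN N) := Export.isFF1 N
  obtain ⟨h1, h2⟩ := inv_of_not_inFin A N P hP
  exact reg_of_isIntegral A (jF N)⁻¹ (RInf A N) rfl P h1 (A.nonunits_subset h2) b hb

end Fermat.Agent.S37.EV

end
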