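import Fermat.Agent.S37.Final
import Fermat.Agent.S37.LF.Main

/-!
# S37, route I: unconditional exports (owner helper37)

For every prime `ℓ ∤ N` and every valuation ring `A` of `ℚ̄` over `ℓ`:
* `Export.redInertia` : inertia at `A` fixes the reduction `red A N P` of every place `P`;
* `Export.redHecke`   : Eichler–Shimura on reductions of places;
* `Export.redInj`     : a divisor `D` with `redDiv A N D = 0` and `m • D` principal, `ℓ ∤ m`,
                        is principal (injectivity of reduction on prime-to-`ℓ` torsion);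
* `Export.redConst`, `Export.lf`, `Export.qa` for good bases.
-/

set_option autoImplicit false
set_option linter.unusedSectionVars false

noncomputable section

namespace Fermat.Agent.S37.Export

open AlgebraicCurve ModularCurve Fermat.Agent.S24

variable (A : ValuationSubring Kbar) (N : ℕ) [NeZero N] (ℓ : ℕ) [Fact ℓ.Prime]

theorem qa (hA : A.LiesOverPrime ℓ) (hℓN : ¬ ℓ ∣ N) : QAFin A N ∧ QAInf A N :=
  final_qa A N ℓ hA hℓN

theorem redInertia (hA : A.LiesOverPrime ℓ) (hℓN : ¬ ℓ ∣ N) : RedInertia A N :=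
  final_redInertia A N ℓ hA hℓN

theorem redHecke [NeZero ℓ] (hA : A.LiesOverPrime ℓ) (hℓN : ¬ ℓ ∣ N) : RedHecke A N ℓ :=
  final_redHecke A N ℓ hA hℓN

theorem lf (hA : A.LiesOverPrime ℓ) (hℓN : ¬ ℓ ∣ N) (hG : GoodBase N ℓ) : LF A N :=
  Fermat.Agent.S37.lf A N ℓ hA hℓN hG (final_qa A N ℓ hA hℓN).1 (final_qa A N ℓ hA hℓN).2
    (final_transc_j A N) (final_transc_jinv A N)

theorem redInj (hA : A.LiesOverPrime ℓ) (hℓN : ¬ ℓ ∣ N) : RedInj A N ℓ :=
  redInj_of_good A N ℓ Fact.out hℓN
    (fun M _ hM hG => final_redInj_good A M ℓ hA hM (lf A M ℓ hA hM hG))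
    (final_fibreCompat A N 2) (final_fibreCompat A N 3)

end Fermat.Agent.S37.Export

end
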