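import Fermat.Agent.S37.Statements
import Fermat.Agent.S37.Assembly
import Fermat.Agent.S24.FFBasic
import Fermat.Agent.Lib.Frobenius

/-!
# S37 from the blocks (owner helper37)
-/

set_option autoImplicit false

noncomputable section

namespace Fermat.Agent.S37

open AlgebraicCurve ModularCurve Fermat.Agent.S24

variable {A : ValuationSubring Kbar} {N : ℕ}

/-- `RedConst` + `KL` give `RedInj`. -/
theorem redInj_of_redConst {ℓ : ℕ} (hC : RedConst A N)
    (hKL : ∀ n : ℕ, ¬ ℓ ∣ n → Fermat.Agent.GAL.KL N A n) : RedInj A N ℓ := by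
  intro m hm D hD0 hDm
  have hm0 : m ≠ 0 := fun h => hm (h ▸ dvd_zero ℓ)
  obtain ⟨f, hf, hDf⟩ := hDm
  have hred : redDiv A N (m • D) = 0 := by rw [map_nsmul, hD0, smul_zero]
  obtain ⟨c, P, Q, hP, hQ, hc, hPQ, hQ0, hfc⟩ := hC f hf (m • D) hDf hred
  set u : FN N := (⟨coeffMap A.subtype P, hP⟩ : modularFunctionFieldBar N) /
    ⟨coeffMap A.subtype Q, hQ⟩ with hu
  have hc' : algebraMap Kbar (FN N) c ≠ 0 := by simpa using hc
  have hu0 : u ≠ 0 := by
    rintro h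
    rw [h, mul_zero] at hfc
    exact hf hfc
  have hord : ∀ v : Pl N, v.ord u = m * D v := by
    intro v
    have h1 := hDf v
    rw [hfc, v.ord_mul hc' hu0, FF.ord_algebraMap, zero_add] at h1
    rw [← h1]
    simp
  obtain ⟨w, hw⟩ := hKL m hm P Q hP hQ hPQ hQ0 (fun v => ⟨D v, hord v⟩)
  have hw0 : w ≠ 0 := by
    rintro rfl
    rw [zero_pow hm0] at hw
    exact hu0 hw
  refine ⟨w, hw0, fun v => ?_⟩
  have h2 : v.ord u = m * v.ord w := by
    rw [hu, hw, FF.ord_pow]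
  have h3 : (m : ℤ) * D v = m * v.ord w := by rw [← hord v, h2]
  exact mul_left_cancel₀ (by exact_mod_cast hm0) h3

section Aux

variable [NeZero N] {ℓ : ℕ} [NeZero ℓ]

omit [NeZero N] in
theorem redDiv_gal (σ : Kbar ≃ₐ[ℚ] Kbar) (hσ : ∀ P : Pl N, red A N (gal N σ • P) = red A N P)
    (D : Divisor Kbar (FN N)) : redDiv A N (gal N σ • D) = redDiv A N D := by
  induction D using Finsupp.induction with
  | zero => rw [smul_zero]
  | single_add P n D _ _ ih =>
    rw [smul_add, map_add, map_add, ih, SemilinearAut.smul_single, redDiv_single, redDiv_single, hσ]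

theorem redDiv_hecke (hα : HeckeAlphaBarIntegral Kbar N ℓ) (hβ : HeckeBetaBarIntegral Kbar N ℓ)
    [HasPrincipalDivisors Kbar (laurentBaseChange Kbar (modularFunctionFieldFull (N * ℓ)))]
    (hH : RedHecke A N ℓ) (φ : Kbar ≃ₐ[ℚ] Kbar) (hφ : A.IsFrobeniusAt φ ℓ)
    (D : Divisor Kbar (FN N)) :
    redDiv A N (heckeDivBar hα hβ D) =
      redDiv A N (gal N φ • D) + (ℓ : ℤ) • redDiv A N (gal N φ⁻¹ • D) := by
  induction D using Finsupp.induction with
  | zero => simp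
  | single_add P n D _ _ ih =>
    have h1 : (Finsupp.single P n : Divisor Kbar (FN N)) = n • Finsupp.single P 1 := by
      rw [Finsupp.smul_single, smul_eq_mul, mul_one]
    rw [map_add, map_add, ih, smul_add, smul_add, map_add, map_add, smul_add]
    have h2 : redDiv A N (heckeDivBar hα hβ (Finsupp.single P n)) =
        redDiv A N (gal N φ • Finsupp.single P n) +
          (ℓ : ℤ) • redDiv A N (gal N φ⁻¹ • Finsupp.single P n) := by
      rw [h1, map_zsmul, map_zsmul, hH hα hβ φ hφ P, Finsupp.smul_single, smul_eq_mul, mul_one,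
        SemilinearAut.smul_single, SemilinearAut.smul_single, redDiv_single, redDiv_single,
        smul_add, Finsupp.smul_single, Finsupp.smul_single, Finsupp.smul_single, smul_eq_mul,
        smul_eq_mul, smul_eq_mul, mul_one, mul_comm n (ℓ : ℤ)]
    rw [h2]
    abel

omit [NeZero N] in
/-- the three properties of the auxiliary map `r`. -/
theorem r_inertia (hR2 : RedInertia A N) (σ : Kbar ≃ₐ[ℚ] Kbar) (hσ : σ ∈ A.inertiaSubgroupIn ℚ)
    (x : JZero N) : r A N (σ • x) = r A N x := by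
  obtain ⟨D, rfl⟩ := Pic0.mk_surjective x
  show r A N (Pic0.mk (SemilinearAut.degZeroSMulHom (gal N σ) D)) = _
  rw [r_mk, r_mk, SemilinearAut.coe_degZeroSMulHom, redDiv_gal σ (hR2 σ hσ)]

theorem r_frobenius (hHI : HeckeInputsAlong Kbar N ℓ) (hH : RedHecke A N ℓ)
    (φ : Kbar ≃ₐ[ℚ] Kbar) (hφ : A.IsFrobeniusAt φ ℓ) (x : JZero N) :
    r A N (φ • φ • x - heckeOperatorAlong Kbar N ℓ (φ • x) + ℓ • x) = 0 := by
  obtain ⟨hα, hβ, hP, hfin, hFI, hN⟩ := hHI
  rw [heckeOperatorAlong_eq hα hβ hFI hfin hN]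
  obtain ⟨D, rfl⟩ := Pic0.mk_surjective x
  have e1 : φ • Pic0.mk D = Pic0.mk (SemilinearAut.degZeroSMulHom (gal N φ) D) := rfl
  have e2 : φ • Pic0.mk (SemilinearAut.degZeroSMulHom (gal N φ) D) =
      Pic0.mk (SemilinearAut.degZeroSMulHom (gal N φ)
        (SemilinearAut.degZeroSMulHom (gal N φ) D)) := rfl
  have e3 : heckePic0Bar hα hβ hFI hfin hN (Pic0.mk (SemilinearAut.degZeroSMulHom (gal N φ) D)) =
      Pic0.mk (Pic0.degZeroCorrespondence (heckeBetaBar Kbar N ℓ) (heckeAlphaBar Kbar N ℓ) hβ hα hFI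
        (SemilinearAut.degZeroSMulHom (gal N φ) D)) := rfl
  rw [e1, e2, e3, map_add, map_sub, map_nsmul, r_mk, r_mk, r_mk]
  have h := redDiv_hecke hα hβ hH φ hφ (gal N φ • (D : Divisor Kbar (FN N)))
  have h' : gal N φ⁻¹ • gal N φ • (D : Divisor Kbar (FN N)) = D := by
    rw [← mul_smul, ← map_mul, inv_mul_cancel, map_one, one_smul]
  rw [h'] at h
  change ((redDiv A N (gal N φ • gal N φ • (D : Divisor Kbar (FN N))) : X A N →₀ ℤ) : G A N) -
      ((redDiv A N (heckeDivBar hα hβ (gal N φ • (D : Divisor Kbar (FN N)))) : X A N →₀ ℤ) : G A N)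
      + ℓ • ((redDiv A N (D : Divisor Kbar (FN N)) : X A N →₀ ℤ) : G A N) = 0
  rw [h, ← QuotientAddGroup.mk_sub, ← QuotientAddGroup.mk_nsmul, ← QuotientAddGroup.mk_add]
  have : redDiv A N (gal N φ • gal N φ • (D : Divisor Kbar (FN N))) -
      (redDiv A N (gal N φ • gal N φ • (D : Divisor Kbar (FN N))) +
        (ℓ : ℤ) • redDiv A N (D : Divisor Kbar (FN N))) + ℓ • redDiv A N (D : Divisor Kbar (FN N))
      = 0 := by
    rw [natCast_zsmul]; abel
  rw [this]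
  rfl

omit [NeZero N] [NeZero ℓ] in
theorem r_injective (hR5 : RedInj A N ℓ) (m : ℕ) (hm : ¬ ℓ ∣ m) (x : JZero N) (hx : m • x = 0)
    (hr : r A N x = 0) : x = 0 := by
  obtain ⟨D, rfl⟩ := Pic0.mk_surjective x
  rw [r_mk, QuotientAddGroup.eq_zero_iff] at hr
  obtain ⟨E, hE, hED⟩ := hr
  have hmD : m • (D : Divisor Kbar (FN N)) ∈ Divisor.principal (K := Kbar) (F := FN N) := by
    have h1 : Pic0.mk (m • D) = 0 := hx
    have h2 := (QuotientAddGroup.eq_zero_iff (m • D)).mp h1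
    rw [AddSubgroup.mem_addSubgroupOf] at h2
    simpa using h2
  have h3 : (D : Divisor Kbar (FN N)) - E ∈ Divisor.principal (K := Kbar) (F := FN N) := by
    refine hR5 m hm _ (by rw [map_sub, hED, sub_self]) ?_
    rw [smul_sub]
    exact AddSubgroup.sub_mem _ hmD (AddSubgroup.nsmul_mem _ hE m)
  have h4 : (D : Divisor Kbar (FN N)) ∈ Divisor.principal (K := Kbar) (F := FN N) := by
    have := AddSubgroup.add_mem _ h3 hE
    simpa using this
  exact (QuotientAddGroup.eq_zero_iff D).mpr (by rwa [AddSubgroup.mem_addSubgroupOf])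

end Aux

/-- **S37 from the blocks.** -/
theorem main_of_blocks (N p : ℕ) [NeZero N] (hcomm : HeckeOperatorsCommuteBar N)
    (hHI : ∀ (ℓ : ℕ) [NeZero ℓ], ℓ.Prime → ¬ ℓ ∣ N → HeckeInputsAlong Kbar N ℓ)
    (hR2 : ∀ ℓ : ℕ, ℓ.Prime → ¬ ℓ ∣ N → ∀ A : ValuationSubring Kbar, A.LiesOverPrime ℓ →
      RedInertia A N)
    (hR4 : ∀ (ℓ : ℕ) [NeZero ℓ], ℓ.Prime → ¬ ℓ ∣ N → ∀ A : ValuationSubring Kbar,
      A.LiesOverPrime ℓ → RedHecke A N ℓ)
    (hR5 : ∀ ℓ : ℕ, ℓ.Prime → ¬ ℓ ∣ N → ∀ A : ValuationSubring Kbar, A.LiesOverPrime ℓ →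
      RedInj A N ℓ) :
    letI := ModularCurve.heckeModuleBar N
    ∀ (_ : SMulCommClass (AlgebraicClosure ℚ ≃ₐ[ℚ] AlgebraicClosure ℚ) ModularCurve.HeckeAlg
      (ModularCurve.JZero N)),
      ModularCurve.SpecializationExists (K := ℚ) (L := AlgebraicClosure ℚ) N p
        (ModularCurve.JZero N) := by
  let _ := ModularCurve.heckeModuleBar N
  intro _ ℓ hℓ hndvd A hA
  have : NeZero ℓ := ⟨hℓ.ne_zero⟩
  have hℓN : ¬ ℓ ∣ N := fun h => hndvd (h.mul_right p)
  have hℓp : ¬ ℓ ∣ p := fun h => hndvd (h.mul_left N)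
  obtain ⟨φ, hφ⟩ := Fermat.Agent.Lib.Frobenius.exists_isFrobeniusAt A ℓ hℓ hA
  refine exists_specialization_of_aux p (JZero N) A ℓ φ hℓ hφ (r A N)
    (fun σ hσ x => r_inertia (hR2 ℓ hℓ hℓN A hA) σ hσ x) (fun x => ?_) (fun x hx hr => ?_)
  · have e : (heckeGen (⟨ℓ, hℓ⟩ : Nat.Primes) • (φ • x) : JZero N) =
        heckeOperatorAlong Kbar N ℓ (φ • x) := heckeModuleBar_heckeGen_smul hcomm ⟨ℓ, hℓ⟩ (φ • x)
    have h := r_frobenius (hHI ℓ hℓ hℓN) (hR4 ℓ hℓ hℓN A hA) φ hφ x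
    rw [← e] at h
    exact h
  · obtain ⟨n, hn⟩ := hx
    exact r_injective (hR5 ℓ hℓ hℓN A hA) (p ^ n)
      (fun h => hℓp (hℓ.dvd_of_dvd_pow h)) x hn hr

end Fermat.Agent.S37

end
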