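import Fermat.Statements.S37
import Fermat.Agent.S37.Final
import Fermat.Agent.S37.LF.Main

/-!
# S37, route I (reduction of places, LF, tube lemma, Kronecker congruence): complete proof.
Kept as an alternative to route II (`S37/II/Main.lean`), which is the one used by `S37.lean`.
-/

set_option autoImplicit false
open ModularCurve

namespace Fermat.Agent.S37

theorem routeI_main (N p : ℕ) [NeZero N] (hcomm : ModularCurve.HeckeOperatorsCommuteBar N) : letI := ModularCurve.heckeModuleBar N; ∀ (_ : SMulCommClass (AlgebraicClosure ℚ ≃ₐ[ℚ] AlgebraicClosure ℚ) ModularCurve.HeckeAlg (ModularCurve.JZero N)), ModularCurve.SpecializationExists (K := ℚ) (L := AlgebraicClosure ℚ) N p (ModularCurve.JZero N) :=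
  final_of_lf (fun A M _ ℓ _ hA hM hG =>
    lf A M ℓ hA hM hG (final_qa A M ℓ hA hM).1 (final_qa A M ℓ hA hM).2
      (final_transc_j A M) (final_transc_jinv A M)) N p hcomm

end Fermat.Agent.S37
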